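/-
Program I (S37), chapter ES/KRON, helper10: (K1-inst) — the instantiation of helper24's Kronecker
congruence `KronCong24.kron_descent` at a valuation subring `A` (lying over `ℓ`) of an algebraically
closed field `L` (`L = ℚ̄`), with residue field `k`.

* `isAlgClosed_residueField A` : `k` is algebraically closed;  `charP_residueField A hℓ hA : CharP k ℓ`;
* `unitOfPowEqOne A hn h : (↥A)ˣ` : a root of unity of `L` as a unit of `A` (`coe_unitOfPowEqOne`,
  `unitOfPowEqOne_pow`, `coe_units_map_subtype`);  `exists_primitiveRoot_unit`;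
* `coeffMap_mem_fullC σ N` : `k(j̃(q^d) : d ∣ N)` is stable under every coefficientwise endomorphism
  (Frobenius `φ` and its inverse), so `f̃^φ, f̃^{φ⁻¹} ∈ F̃_N` for `f̃ ∈ F̃_N`;
* `exists_frobInv` : the inverse Frobenius `ψ` of `k` (`ψ a ^ ℓ = a`, `ψ (a ^ ℓ) = a`);
* `kron_inst` : if `Ψ(q^ℓ) = kronProd ℓ ζ f` over `L((q))`, `f = coeffMap A.subtype y`, then `Ψ` has
  coefficients in `A((q))` and reduces to `(Y^ℓ - f̃^φ) (Y - (f̃^ψ)^ℓ)`.
-/
import Mathlib
import Fermat.Agent.ES.KRON.KronCong24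
import Fermat.Prelude.Def_FLTPrelim_Ramification

set_option autoImplicit false
set_option linter.style.haveILetI false

open HahnSeries Polynomial ModularCurve

noncomputable section

namespace Fermat.Agent.ES.KRON.KronInst10

section Residue

variable {L : Type*} [Field L] (A : ValuationSubring L)

/-- The residue field of a valuation subring of an algebraically closed field is algebraically
closed. -/
theorem isAlgClosed_residueField [IsAlgClosed L] : IsAlgClosed (IsLocalRing.ResidueField A) := by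
  apply IsAlgClosed.of_exists_root
  intro p hpm hpirr
  have hsurj : Function.Surjective (IsLocalRing.residue A) := IsLocalRing.residue_surjective
  have hlift : p ∈ Polynomial.lifts (IsLocalRing.residue A) := by
    obtain ⟨q, hq⟩ := Polynomial.map_surjective _ hsurj p
    exact (Polynomial.mem_lifts _).2 ⟨q, hq⟩
  obtain ⟨q, hq, hqdeg, hqm⟩ := Polynomial.lifts_and_natDegree_eq_and_monic hlift hpm
  have hpdeg : p.natDegree ≠ 0 := by
    intro h0
    have : p = 1 := Polynomial.eq_one_of_monic_natDegree_zero hpm h0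
    subst this
    exact not_irreducible_one hpirr
  have hdeg : (q.map (algebraMap A L)).degree ≠ 0 := by
    rw [Polynomial.degree_map_eq_of_injective (FaithfulSMul.algebraMap_injective A L)]
    intro h0
    apply hpdeg
    rw [← hqdeg]
    exact Polynomial.natDegree_eq_of_degree_eq_some h0
  obtain ⟨x, hx⟩ := IsAlgClosed.exists_root (q.map (algebraMap A L)) hdeg
  have hxint : IsIntegral A x := ⟨q, hqm, by rwa [Polynomial.eval₂_eq_eval_map]⟩
  obtain ⟨a, ha⟩ := (IsIntegrallyClosed.isIntegral_iff (R := A) (K := L)).1 hxint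
  refine ⟨IsLocalRing.residue A a, ?_⟩
  have hqa : q.eval a = 0 := by
    apply FaithfulSMul.algebraMap_injective A L
    rw [map_zero, ← Polynomial.eval₂_at_apply, Polynomial.eval₂_eq_eval_map, ha]
    exact hx
  rw [← hq, Polynomial.eval_map, Polynomial.eval₂_at_apply, hqa, map_zero]

/-- If `A` lies over the prime `ℓ`, its residue field has characteristic `ℓ`. -/
theorem charP_residueField {ℓ : ℕ} (hℓ : ℓ.Prime) (hA : A.LiesOverPrime ℓ) :
    CharP (IsLocalRing.ResidueField A) ℓ := by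
  rw [CharP.charP_iff_prime_eq_zero hℓ]
  obtain ⟨hmem, hmax⟩ := ValuationSubring.mem_nonunits_iff_exists_mem_maximalIdeal.mp hA
  have h1 : (⟨(ℓ : L), hmem⟩ : A) = ((ℓ : ℕ) : A) := Subtype.ext (by simp)
  rw [h1, ← IsLocalRing.residue_eq_zero_iff, map_natCast] at hmax
  exact hmax

/-- A root of unity of `L` as a unit of the valuation subring `A`. -/
def unitOfPowEqOne {ζ : L} {n : ℕ} (hn : 0 < n) (h : ζ ^ n = 1) : (↥A)ˣ :=
  have hmem : ∀ k : ℕ, ζ ^ k ∈ A := by
    intro k
    rcases A.mem_or_inv_mem ζ with h1 | h1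
    · exact pow_mem h1 k
    · have h2 : ζ = (ζ⁻¹) ^ (n - 1) := by
        have hζ0 : ζ ≠ 0 := by
          rintro rfl
          rw [zero_pow hn.ne'] at h
          exact zero_ne_one h
        have : ζ * ζ ^ (n - 1) = 1 := by rw [← pow_succ', Nat.sub_add_cancel hn, h]
        rw [inv_pow]
        exact eq_inv_of_mul_eq_one_left this
      rw [h2]
      exact pow_mem (pow_mem h1 _) k
  { val := ⟨ζ, by simpa using hmem 1⟩
    inv := ⟨ζ ^ (n - 1), hmem (n - 1)⟩
    val_inv := Subtype.ext (by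
      show ζ * ζ ^ (n - 1) = 1
      rw [← pow_succ', Nat.sub_add_cancel hn, h])
    inv_val := Subtype.ext (by
      show ζ ^ (n - 1) * ζ = 1
      rw [← pow_succ, Nat.sub_add_cancel hn, h]) }

@[simp] theorem coe_unitOfPowEqOne {ζ : L} {n : ℕ} (hn : 0 < n) (h : ζ ^ n = 1) :
    (((unitOfPowEqOne A hn h : (↥A)ˣ) : ↥A) : L) = ζ := rfl

theorem unitOfPowEqOne_pow {ζ : L} {n : ℕ} (hn : 0 < n) (h : ζ ^ n = 1) :
    unitOfPowEqOne A hn h ^ n = 1 := by
  apply Units.ext
  apply Subtype.ext
  rw [Units.val_pow_eq_pow_val]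
  show ζ ^ n = 1
  exact h

theorem coe_units_map_subtype {ζ : L} {n : ℕ} (hn : 0 < n) (h : ζ ^ n = 1) :
    ((Units.map (A.subtype : ↥A →* L) (unitOfPowEqOne A hn h) : Lˣ) : L) = ζ := rfl

end Residue

section Stable

variable {k : Type*} [Field k]

theorem coeffMap_algebraMap (σ : k →+* k) (c : k) :
    coeffMap σ (algebraMap k (LaurentSeries k) c) = algebraMap k (LaurentSeries k) (σ c) := by
  rw [algebraMap_laurentSeries_eq_single, algebraMap_laurentSeries_eq_single, coeffMap_single]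

/-- `k(j̃(q^d) : d ∣ N)` is stable under every coefficientwise endomorphism (the generators have
coefficients in the prime ring). -/
theorem coeffMap_mem_fullC (σ : k →+* k) (N : ℕ) [NeZero N] {x : LaurentSeries k}
    (hx : x ∈ modularFunctionFieldFullC k N) : coeffMap σ x ∈ modularFunctionFieldFullC k N := by
  unfold modularFunctionFieldFullC at hx ⊢
  induction hx using IntermediateField.adjoin_induction with
  | mem y hy =>
      obtain ⟨d, hne, hd, rfl⟩ := hy
      rw [coeffMap_qExpand, coeffMap_jqModC]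
      exact IntermediateField.subset_adjoin k _ (mem_divisorExpansionsC k N hd)
  | algebraMap c =>
      rw [coeffMap_algebraMap]
      exact IntermediateField.algebraMap_mem _ _
  | add x y _ _ hx hy => rw [map_add]; exact add_mem hx hy
  | inv x _ hx => rw [map_inv₀]; exact inv_mem hx
  | mul x y _ _ hx hy => rw [map_mul]; exact mul_mem hx hy

/-- The inverse Frobenius of an algebraically closed field of characteristic `ℓ`. -/
theorem exists_frobInv [IsAlgClosed k] (ℓ : ℕ) [Fact ℓ.Prime] [CharP k ℓ] :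
    ∃ ψ : k →+* k, (∀ a, ψ a ^ ℓ = a) ∧ (∀ a, ψ (a ^ ℓ) = a) := by
  haveI : ExpChar k ℓ := ExpChar.prime Fact.out
  haveI : PerfectRing k ℓ := PerfectField.toPerfectRing ℓ
  refine ⟨((frobeniusEquiv k ℓ).symm : k →+* k), fun a => ?_, fun a => ?_⟩
  · exact frobeniusEquiv_symm_pow_p k ℓ a
  · show (frobeniusEquiv k ℓ).symm (a ^ ℓ) = a
    rw [← frobenius_def, frobeniusEquiv_symm_apply_frobenius]

end Stable

section Inst

open Fermat.Agent.ES.KRON.KronCong24

variable {L : Type*} [Field L] [IsAlgClosed L] (A : ValuationSubring L) (ℓ : ℕ) [Fact ℓ.Prime]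

/-- **(K1-inst)** The Kronecker congruence at a valuation subring `A` (over `ℓ`) of an algebraically
closed field `L`: if `Ψ(q^ℓ) = ∏_b (Y - f(ζ^b q)) · (Y - f(q^{ℓ²}))` over `L((q))` for a series `f`
with coefficients in `A` (`f = coeffMap A.subtype y`), then `Ψ` has coefficients in `A((q))` and
reduces to `(Y^ℓ - f̃^φ) (Y - (f̃^{φ⁻¹})^ℓ)` over the residue field. -/
theorem kron_inst (hA : A.LiesOverPrime ℓ) (ζ : Lˣ) (hζ : ζ ^ ℓ = 1) :
    haveI := charP_residueField A (Fact.out : ℓ.Prime) hA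
    ∃ ψ : IsLocalRing.ResidueField A →+* IsLocalRing.ResidueField A,
      (∀ a, ψ a ^ ℓ = a) ∧ (∀ a, ψ (a ^ ℓ) = a) ∧
      ∀ (y : LaurentSeries ↥A) (Ψ : Polynomial (LaurentSeries L)),
        Ψ.map (qExpand L ℓ) = kronProd ℓ ζ (coeffMap A.subtype y) →
        ∃ ΨR : Polynomial (LaurentSeries ↥A),
          ΨR.map (coeffMap A.subtype) = Ψ ∧
          ΨR.map (coeffMap (IsLocalRing.residue A)) =
            (X ^ ℓ - Polynomial.C (coeffMap (frobenius (IsLocalRing.ResidueField A) ℓ)
                (coeffMap (IsLocalRing.residue A) y))) *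
              (X - Polynomial.C ((coeffMap ψ (coeffMap (IsLocalRing.residue A) y)) ^ ℓ)) := by
  haveI := charP_residueField A (Fact.out : ℓ.Prime) hA
  haveI := isAlgClosed_residueField A
  obtain ⟨ψ, hψ1, hψ2⟩ := exists_frobInv (k := IsLocalRing.ResidueField A) ℓ
  refine ⟨ψ, hψ1, hψ2, fun y Ψ hΨ => ?_⟩
  have hℓpos : 0 < ℓ := (Fact.out : ℓ.Prime).pos
  have hζL : (ζ : L) ^ ℓ = 1 := by rw [← Units.val_pow_eq_pow_val, hζ, Units.val_one]
  set ζA : (↥A)ˣ := unitOfPowEqOne A hℓpos hζL with hζA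
  have hmap : Units.map ((A.subtype : ↥A →+* L) : ↥A →* L) ζA = ζ := Units.ext rfl
  have hΨ' : Ψ.map (qExpand L ℓ) = (kronProd ℓ ζA y).map (coeffMap A.subtype) := by
    rw [kronProd_map, hmap]
    exact hΨ
  obtain ⟨ΨR, -, h2, h3⟩ := kron_descent ℓ A.subtype Subtype.val_injective
    (IsLocalRing.residue A) ψ hψ1 ζA (unitOfPowEqOne_pow A hℓpos hζL) y Ψ hΨ'
  exact ⟨ΨR, h2, h3⟩

/-- A primitive `ℓ`-th root of unity of `L` (characteristic zero), as a unit. -/
theorem exists_primitiveRoot_unit [CharZero L] :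
    ∃ ζ : Lˣ, ζ ^ ℓ = 1 ∧ IsPrimitiveRoot (ζ : L) ℓ := by
  haveI : NeZero ℓ := ⟨(Fact.out : ℓ.Prime).ne_zero⟩
  haveI : NeZero ((ℓ : ℕ) : L) := ⟨by exact_mod_cast (Fact.out : ℓ.Prime).ne_zero⟩
  obtain ⟨ζ, hζ⟩ := HasEnoughRootsOfUnity.exists_primitiveRoot L ℓ
  refine ⟨(hζ.isUnit (Fact.out : ℓ.Prime).ne_zero).unit, ?_, hζ⟩
  apply Units.ext
  rw [Units.val_pow_eq_pow_val, Units.val_one]
  exact hζ.pow_eq_one

end Inst

end Fermat.Agent.ES.KRON.KronInst10
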