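/-
Program I (S37), chapter ES/KRON, helper24: (ES-div) against helper15's `RedMain15.ChartInputs`.

`es_div_final`: for `T : TwoCharts A hx F~` at `ℚbar`, level `M`, with `ChartInputs A M T.S0`,
`ChartInputs A M T.S1` (the SAME inputs that give (R2) in `RedMain15`), integrality of the chart
rings over `ℚbar[s]` (order form) and Frobenius-invariance of `s~`:
  `r_* (T_ℓ D) = Fr_* (r_* D) + ℓ · Fr⁻¹_* (r_* D)`,  `r = T.r`, `Fr = frobPlace k ℓ M`.
-/
import Mathlib
import Fermat.Agent.ES.KRON.EsDivMain24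
import Fermat.Agent.ES.RED.RedMain15

set_option autoImplicit false
set_option linter.unusedSectionVars false

noncomputable section

open AlgebraicCurve ModularCurve HahnSeries IntermediateField

namespace Fermat.Agent.ES.KRON.EsDivFinal24

open Fermat.Agent.X0 Fermat.Agent.X0.FF
open Fermat.Agent.ES.RED.Contract8 Fermat.Agent.ES.RED.TwoCharts8 Fermat.Agent.ES.RED.RedMain15
open Fermat.Agent.ES.KRON.FrobPlace13 Fermat.Agent.ES.KRON.EsDivMain24

section PoleDiv

variable {K E : Type*} [Field K] [Field E] [Algebra K E]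

/-- the coefficient sum of the pole divisor is the sum of the pole orders. -/
theorem sum_poleDiv (s : E) (D : Place K E →₀ ℤ) (hD : ∀ P, D P = max (-(P.ord s)) 0) :
    D.sum (fun _ n => n) = ∑ᶠ (v : Place K E) (_ : v.ord s < 0), -v.ord s := by
  have hsupp : ∀ v : Place K E, v ∈ D.support ↔ v.ord s < 0 := by
    intro v
    rw [Finsupp.mem_support_iff, hD]
    constructor
    · intro h1
      by_contra h2
      exact h1 (max_eq_right (by omega))
    · intro h1 h2
      have := le_max_left (-(v.ord s)) 0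
      omega
  have hset : {v : Place K E | v.ord s < 0} = ↑D.support := by
    ext v
    exact (hsupp v).symm
  have h1 : ∑ᶠ (v : Place K E) (_ : v.ord s < 0), -v.ord s =
      ∑ᶠ v ∈ {v : Place K E | v.ord s < 0}, -v.ord s := rfl
  rw [h1, hset, finsum_mem_coe_finset, Finsupp.sum]
  refine Finset.sum_congr rfl fun v hv => ?_
  rw [hD, max_eq_left]
  have := (hsupp v).mp hv
  omega

end PoleDiv

section Final

variable (M ℓ : ℕ) [NeZero M] [NeZero ℓ] [hℓ : Fact ℓ.Prime]
variable (A : ValuationSubring Kbar) [CharP (kA A) ℓ] [IsAlgClosed (kA A)]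
variable {x : ↥(laurentBaseChange Kbar (modularFunctionFieldFull M))} {hx : IsGen Kbar x}

/-- the degree equality of the pole divisors, from `ChartInputs`. -/
theorem deg_eq_of_inputs (S : ChartSpec A hx ↥(modularFunctionFieldFullC (kA A) M))
    (h : ChartInputs A M S)
    (Dinf : Place Kbar ↥(laurentBaseChange Kbar (modularFunctionFieldFull M)) →₀ ℤ)
    (Dinf' : Place (kA A) ↥(modularFunctionFieldFullC (kA A) M) →₀ ℤ)
    (hD : ∀ P, Dinf P = max (-(P.ord S.s)) 0)
    (hD' : ∀ Q, Dinf' Q = max (-(Q.ord (S.red S.sB))) 0) :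
    Dinf.sum (fun _ n => n) = Dinf'.sum (fun _ n => n) := by
  have := h.sep
  rw [sum_poleDiv S.s Dinf hD, sum_poleDiv (S.red S.sB) Dinf' hD', sum_ord_poles h.gen,
    Fermat.Agent.ES.RED.SumOrdSep15.sum_ord_poles_sep h.gent, h.deg]

/-- integrality of the reductions, order form. -/
theorem hintD_of_inputs (S : ChartSpec A hx ↥(modularFunctionFieldFullC (kA A) M))
    (h : ChartInputs A M S) (Q : Place (kA A) ↥(modularFunctionFieldFullC (kA A) M))
    (hQ : S.red S.sB ∈ Q.toValuationSubring) (b : ↥S.B) : S.red b ∈ Q.toValuationSubring :=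
  Fermat.Agent.ES.RED.ChartFacts9.mem_of_isIntegral_adjoin Q (R := kA A)
    (fun c => Q.algebraMap_mem' c) hQ (h.int b)

/-- **(ES-div)** from the chart inputs of `RedMain15`. -/
theorem es_div_final (T : TwoCharts A hx ↥(modularFunctionFieldFullC (kA A) M))
    (h0 : ChartInputs A M T.S0) (h1 : ChartInputs A M T.S1)
    (hℓM : ¬ ℓ ∣ M)
    (hα : HeckeAlphaBarIntegral Kbar M ℓ) (hβ : HeckeBetaBarIntegral Kbar M ℓ)
    [HasPrincipalDivisors Kbar (laurentBaseChange Kbar (modularFunctionFieldFull (M * ℓ)))]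
    (hFI : FundamentalIdentityAlong Kbar (heckeBetaBar Kbar M ℓ) hβ)
    (hfin : FiniteAlong Kbar (heckeAlphaBar Kbar M ℓ))
    (hN : NormFormulaAlong Kbar (heckeAlphaBar Kbar M ℓ) hfin)
    (hintU0 : ∀ P : Place Kbar ↥(laurentBaseChange Kbar (modularFunctionFieldFull M)),
      T.S0.s ∈ P.toValuationSubring → ∀ b ∈ T.S0.B, b ∈ P.toValuationSubring)
    (hintU1 : ∀ P : Place Kbar ↥(laurentBaseChange Kbar (modularFunctionFieldFull M)),
      T.S1.s ∈ P.toValuationSubring → ∀ b ∈ T.S1.B, b ∈ P.toValuationSubring)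
    (hfix : frobSemi (kA A) ℓ M • T.S0.red T.S0.sB = T.S0.red T.S0.sB)
    (D : Divisor Kbar (laurentBaseChange Kbar (modularFunctionFieldFull M))) :
    Finsupp.mapDomain T.r (heckeDivBar hα hβ D) =
      Finsupp.mapDomain (frobPlace (kA A) ℓ M) (Finsupp.mapDomain T.r D) +
        (ℓ : ℤ) • Finsupp.mapDomain (frobPlace (kA A) ℓ M).symm (Finsupp.mapDomain T.r D) := by
  have := h0.sep
  have := Fermat.Agent.RED.TOP.FbarFacts20.hasPrincipalDivisors_bar M
  exact es_div_main M ℓ A T h0.gent hℓM hα hβ hFI hfin hN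
    (fun P => Fermat.Agent.RED.TOP.FbarFacts20.deg_eq_one_bar M P)
    (isPlaceReductionModL_twoCharts T h0 h1)
    hintU0 hintU1 (hintD_of_inputs M A T.S0 h0) (hintD_of_inputs M A T.S1 h1)
    (fun b => (h0.compat b).imp fun y h => ⟨h.1, h.2.symm⟩)
    (fun b => (h1.compat b).imp fun y h => ⟨h.1, h.2.symm⟩)
    (deg_eq_of_inputs M A T.S0 h0) (deg_eq_of_inputs M A T.S1 h1) hfix D

end Final

end Fermat.Agent.ES.KRON.EsDivFinal24
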