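/-
Program I (S37), chapter ES/KRON, helper11: the characteristic polynomial of a finite field
extension through a full set of embeddings (Mathlib only).

`charpoly_map_eq_prod_embs` : `L/E` finite extension of fields with `finrank E L = n`, `ι : E →+* Ω` a field, and `n`
pairwise distinct ring homs `σ i : L →+* Ω` extending `ι`.  Then for every `x : L`
`(charpoly of multiplication by x on the E-space L).map ι = ∏ i, (X - C (σ i x))`.
-/
import Mathlib

set_option autoImplicit false

open Polynomial Matrix

noncomputable section

namespace Fermat.Agent.ES.KRON.CharpolyEmb11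

variable {E L Ω : Type*} [Field E] [Field L] [Field Ω] [Algebra E L]

/-- The matrix `V i j = σ i (b j)` of a family of pairwise distinct embeddings is invertible. -/
theorem det_embMatrix_ne_zero {n : ℕ} (b : Module.Basis (Fin n) E L) (ι : E →+* Ω)
    (σ : Fin n → (L →+* Ω)) (hσ : ∀ i (a : E), σ i (algebraMap E L a) = ι a)
    (hinj : Function.Injective σ) :
    (Matrix.of fun i j => σ i (b j)).det ≠ 0 := by
  classical
  intro hdet
  obtain ⟨c, hc0, hc⟩ := Matrix.exists_vecMul_eq_zero_iff.mpr hdet
  -- `∑ i, c i * σ i y = 0` for all `y`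
  have hsum : ∀ y : L, ∑ i, c i * σ i y = 0 := by
    intro y
    have hy : y = ∑ j, b.repr y j • b j := (b.sum_repr y).symm
    have h1 : ∀ i, σ i y = ∑ j, ι (b.repr y j) * σ i (b j) := by
      intro i
      conv_lhs => rw [hy]
      rw [map_sum]
      refine Finset.sum_congr rfl fun j _ => ?_
      rw [Algebra.smul_def, map_mul, hσ]
    simp_rw [h1, Finset.mul_sum]
    rw [Finset.sum_comm]
    refine Finset.sum_eq_zero fun j _ => ?_
    have h2 := congrFun hc j
    simp only [Matrix.vecMul, dotProduct, Matrix.of_apply, Pi.zero_apply] at h2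
    calc ∑ i, c i * (ι (b.repr y j) * σ i (b j))
        = ι (b.repr y j) * ∑ i, c i * σ i (b j) := by
          rw [Finset.mul_sum]
          refine Finset.sum_congr rfl fun i _ => ?_
          ring
      _ = 0 := by rw [h2, mul_zero]
  -- Dedekind
  have hli := linearIndependent_monoidHom L Ω
  have hinj' : Function.Injective (fun i : Fin n => ((σ i : L →+* Ω) : L →* Ω)) := by
    intro i j hij
    apply hinj
    ext y
    exact congrArg (fun f : L →* Ω => f y) hij
  have hli' := hli.comp _ hinj'
  rw [Fintype.linearIndependent_iff] at hli'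
  have hzero : ∀ i, c i = 0 := by
    apply hli'
    funext y
    have := hsum y
    simpa [Finset.sum_apply, Pi.smul_apply, smul_eq_mul] using this
  exact hc0 (funext hzero)

/-- **The characteristic polynomial through a full set of embeddings.** -/
theorem charpoly_map_eq_prod_embs [FiniteDimensional E L] {n : ℕ} (hn : Module.finrank E L = n)
    (ι : E →+* Ω) (σ : Fin n → (L →+* Ω)) (hσ : ∀ i (a : E), σ i (algebraMap E L a) = ι a)
    (hinj : Function.Injective σ) (x : L) :
    (LinearMap.charpoly (Algebra.lmul E L x)).map ι = ∏ i, (X - C (σ i x)) := by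
  classical
  let b : Module.Basis (Fin n) E L := Module.finBasisOfFinrankEq E L hn
  set A : Matrix (Fin n) (Fin n) E := Algebra.leftMulMatrix b x with hA
  have hchar : LinearMap.charpoly (Algebra.lmul E L x) = A.charpoly := by
    rw [hA, Algebra.leftMulMatrix_apply, LinearMap.charpoly_toMatrix]
  set V : Matrix (Fin n) (Fin n) Ω := Matrix.of fun i j => σ i (b j) with hV
  have hdet : V.det ≠ 0 := det_embMatrix_ne_zero b ι σ hσ hinj
  have hVunit : IsUnit V := (Matrix.isUnit_iff_isUnit_det V).mpr (Ne.isUnit hdet)
  -- the relation `D V = V A^ι`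
  have hrel : Matrix.diagonal (fun i => σ i x) * V = V * A.map ι := by
    ext i j
    rw [Matrix.diagonal_mul, Matrix.mul_apply]
    simp only [hV, Matrix.of_apply, Matrix.map_apply]
    have hxb : x * b j = ∑ k, A k j • b k := by
      have := b.sum_repr (x * b j)
      rw [← this]
      refine Finset.sum_congr rfl fun k _ => ?_
      rw [hA, Algebra.leftMulMatrix_eq_repr_mul]
    rw [← map_mul, hxb, map_sum]
    refine Finset.sum_congr rfl fun k _ => ?_
    rw [Algebra.smul_def, map_mul, hσ, mul_comm]
  obtain ⟨U, hU⟩ := hVunit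
  have hconj : A.map ι = U.val⁻¹ * Matrix.diagonal (fun i => σ i x) * U.val := by
    rw [hU, mul_assoc, hrel, ← mul_assoc, Matrix.nonsing_inv_mul _ (Ne.isUnit hdet), one_mul]
  rw [hchar, ← Matrix.charpoly_map, hconj, Matrix.charpoly_units_conj', Matrix.charpoly_diagonal]

end Fermat.Agent.ES.KRON.CharpolyEmb11
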