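/-
Program I (S37), chapter ES/KRON, helper10: (SEP) — the separation lemma used for
`EsDivAbs24.Chart.lift` (pure algebra, Mathlib only).

`B` an `A`-algebra (`ι : A → B`), `res : A → k` onto an infinite field, `χ0 : B → k` a point
(compatible with `res`), `χ j` (`j ∈ T`, `T` finite) further points different from `χ0`, `b0` a function
vanishing at `χ0`.  Then there is `f ≡ b0` modulo `(ker χ0)²` vanishing at `χ0` and at none of the `χ j`.
-/
import Mathlib

set_option autoImplicit false

namespace Fermat.Agent.ES.KRON.SepLemma10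

theorem exists_sep {B A k : Type*} [CommRing B] [CommRing A] [Field k] [Infinite k]
    (ι : A →+* B) (res : A →+* k) (hres : Function.Surjective res)
    (χ0 : B →+* k) (h0 : ∀ a, χ0 (ι a) = res a)
    {J : Type*} (T : Finset J) (χ : J → B →+* k) (hχ : ∀ j ∈ T, ∀ a, χ j (ι a) = res a)
    (hne : ∀ j ∈ T, χ j ≠ χ0) (b0 : B) (hb0 : χ0 b0 = 0) :
    ∃ f : B, χ0 f = 0 ∧ f - b0 ∈ (RingHom.ker χ0) ^ 2 ∧ ∀ j ∈ T, χ j f ≠ 0 := by
  classical
  induction T using Finset.induction_on with
  | empty =>
      exact ⟨b0, hb0, by rw [sub_self]; exact zero_mem _, fun j hj => absurd hj (Finset.notMem_empty j)⟩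
  | insert j T' hj ih =>
      obtain ⟨f, hf0, hfb, hfT⟩ := ih (fun i hi => hχ i (Finset.mem_insert_of_mem hi))
        (fun i hi => hne i (Finset.mem_insert_of_mem hi))
      have hχj := hχ j (Finset.mem_insert_self j T')
      have hnej := hne j (Finset.mem_insert_self j T')
      -- an element `d` vanishing at `χ0` but not at `χ j`
      obtain ⟨c, hc⟩ : ∃ c, χ j c ≠ χ0 c := by
        by_contra hcon
        push Not at hcon
        exact hnej (RingHom.ext hcon)
      obtain ⟨a0, ha0⟩ := hres (χ0 c)
      set d : B := c - ι a0 with hd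
      have hd0 : χ0 d = 0 := by rw [hd, map_sub, h0, ha0, sub_self]
      have hdj : χ j d ≠ 0 := by
        rw [hd, map_sub, hχj, ha0]
        exact sub_ne_zero.mpr hc
      have hdker : d ∈ RingHom.ker χ0 := hd0
      have hd2 : d ^ 2 ∈ (RingHom.ker χ0) ^ 2 := Ideal.pow_mem_pow hdker 2
      -- the bad values of `μ`
      let bad : Finset k := (insert j T').image fun i => -(χ i f) / (χ i d) ^ 2
      obtain ⟨μ, hμ⟩ := Infinite.exists_notMem_finset bad
      obtain ⟨lam, hlam⟩ := hres μ
      refine ⟨f + ι lam * d ^ 2, ?_, ?_, ?_⟩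
      · rw [map_add, map_mul, map_pow, hf0, hd0]; ring
      · have : f + ι lam * d ^ 2 - b0 = (f - b0) + ι lam * d ^ 2 := by ring
        rw [this]
        exact add_mem hfb (Ideal.mul_mem_left _ _ hd2)
      · intro i hi
        have hχi := hχ i hi
        rw [map_add, map_mul, map_pow, hχi, hlam]
        by_cases hid : χ i d = 0
        · rw [hid]
          have hiT : i ∈ T' := by
            rcases Finset.mem_insert.mp hi with rfl | h
            · exact absurd hid hdj
            · exact h
          simpa using hfT i hiT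
        · intro hzero
          apply hμ
          rw [Finset.mem_image]
          refine ⟨i, hi, ?_⟩
          have h2 : (χ i d) ^ 2 ≠ 0 := pow_ne_zero 2 hid
          rw [div_eq_iff h2]
          linear_combination -hzero

end Fermat.Agent.ES.KRON.SepLemma10
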