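/-
Program I (S37), chapter ES/KRON, helper24: the BRIDGE
  `Contract8.ChartSpec` (+ the place map `r` with `O_{rP} = S.rSubring P hP`)  ⟹  `EsDivAbs24.Chart`.

Generic in `(L, A, F, Ft)`.  `princ` is abstract, through the hypothesis `hprinc`
(`princ (div b) (div (red b))` for `b ∈ B` with `red b ≠ 0`).
-/
import Mathlib
import Fermat.Agent.ES.RED.Contract8
import Fermat.Agent.ES.KRON.EsDivAbs24
import Fermat.Agent.ES.KRON.SepLemma10

set_option autoImplicit false
set_option linter.unusedSectionVars false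

noncomputable section

open AlgebraicCurve

namespace Fermat.Agent.ES.KRON.ChartBridge24

open Fermat.Agent.X0.FF Fermat.Agent.ES.RED.PlaceValue13 Fermat.Agent.ES.RED.Contract8
open Fermat.Agent.ES.KRON.EsDivAbs24

section Ord

variable {K F : Type*} [Field K] [Field F] [Algebra K F] (v : Place K F)

theorem ord_sub_const_of_neg {s : F} (hs : v.ord s < 0) (c : K) :
    v.ord (s - algebraMap K F c) = v.ord s := by
  have hs0 : s ≠ 0 := by
    rintro rfl
    rw [Place.ord_zero] at hs
    exact lt_irrefl _ hs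
  rw [sub_eq_add_neg]
  apply ord_add_eq_of_lt v hs0
  rw [ord_neg, ord_algebraMap]
  exact hs

theorem ord_sub_const_nonneg {s : F} (hs : 0 ≤ v.ord s) (c : K) :
    0 ≤ v.ord (s - algebraMap K F c) :=
  ord_nonneg_of_mem v (sub_mem (mem_of_ord_nonneg v hs) (v.algebraMap_mem' c))

/-- the zero divisor of `s - c` plus nothing: `ord (s - c) + max (-ord s) 0 ≥ 0`. -/
theorem ord_sub_const_add_pole_nonneg (s : F) (c : K) :
    0 ≤ v.ord (s - algebraMap K F c) + max (-(v.ord s)) 0 := by
  rcases lt_or_ge (v.ord s) 0 with h | h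
  · rw [ord_sub_const_of_neg v h, max_eq_left (by omega)]
    omega
  · have := ord_sub_const_nonneg v h c
    have h2 : 0 ≤ max (-(v.ord s)) 0 := le_max_right _ _
    omega

theorem ord_sub_const_add_pole_of_neg {s : F} (hs : v.ord s < 0) (c : K) :
    v.ord (s - algebraMap K F c) + max (-(v.ord s)) 0 = 0 := by
  rw [ord_sub_const_of_neg v hs, max_eq_left (by omega)]
  omega

theorem ord_eq_zero_of_isUnit {a : v.toValuationSubring} (ha : IsUnit a) : v.ord (a : F) = 0 := by
  obtain ⟨u, rfl⟩ := ha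
  have h1 := ord_nonneg_of_mem v (u : v.toValuationSubring).2
  have h2 := ord_nonneg_of_mem v ((u⁻¹ : (v.toValuationSubring)ˣ) : v.toValuationSubring).2
  have h3 : (((u⁻¹ : (v.toValuationSubring)ˣ) : v.toValuationSubring) : F) =
      (((u : v.toValuationSubring) : F))⁻¹ := by
    have h5 : ((u : v.toValuationSubring) : F) *
        (((u⁻¹ : v.toValuationSubringˣ) : v.toValuationSubring) : F) = 1 := by
      rw [← MulMemClass.coe_mul, Units.mul_inv]; rfl
    exact eq_inv_of_mul_eq_one_right h5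
  rw [h3, v.ord_inv] at h2
  omega

end Ord

section Bridge

variable {L : Type*} [Field L] [IsAlgClosed L] {A : ValuationSubring L}
variable {F : Type*} [Field F] [Algebra L F] {x : F} {hx : IsGen L x}
variable {Ft : Type*} [Field Ft] [Algebra (kA A) Ft] [IsAlgClosed (kA A)]
variable {xt : Ft} (hxt : IsGen (kA A) xt)
variable (S : ChartSpec A hx Ft) (r : Place L F → Place (kA A) Ft)

/-- the reduction of the coordinate. -/
abbrev st : Ft := S.red S.sB

section AtPlace

variable (P : Place L F) (hP : S.InChart P)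
  (hr : ∀ y : Ft, y ∈ (r P).toValuationSubring ↔ y ∈ S.rSubring P hP)

include hr in
theorem red_mem (b : ↥S.B) : S.red b ∈ (r P).toValuationSubring :=
  (hr _).mpr (S.red_mem_rSubring P hP b)

include hr in
theorem value_red (b : ↥S.B) :
    valueHom hxt (r P) ⟨S.red b, red_mem S r P hP hr b⟩ = S.chi P hP b :=
  S.valueHom_red_of_eq hxt P hP (r P) hr b

include hxt hr in
theorem ord_red_pos {b : ↥S.B} (hb : S.chi P hP b = 0) (hb0 : S.red b ≠ 0) :
    0 < (r P).ord (S.red b) := by
  have h := value_red hxt S r P hP hr b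
  rw [hb, valueHom_eq_zero_iff_ord] at h
  rcases h with h | h
  · exact absurd h hb0
  · exact h

include hxt hr in
theorem ord_red_eq_zero {b : ↥S.B} (hb : S.chi P hP b ≠ 0) : (r P).ord (S.red b) = 0 := by
  have h := value_red hxt S r P hP hr b
  have h1 : valueHom hxt (r P) ⟨S.red b, red_mem S r P hP hr b⟩ ≠ 0 := by rw [h]; exact hb
  rw [valueHom_ne_zero_iff] at h1
  exact ord_eq_zero_of_isUnit (r P) h1

include hr in
theorem ord_red_nonneg (b : ↥S.B) : 0 ≤ (r P).ord (S.red b) :=
  ord_nonneg_of_mem (r P) (red_mem S r P hP hr b)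

end AtPlace

/-- The hypotheses of the bridge (everything about one chart that is not in `ChartSpec`). -/
structure BridgeHyp (princ : (Place L F →₀ ℤ) → (Place (kA A) Ft →₀ ℤ) → Prop)
    (Dinf : Place L F →₀ ℤ) (Dinf' : Place (kA A) Ft →₀ ℤ) : Prop where
  /-- `O_{rP}` is the reduced local ring of the chart at the centre of `P`. -/
  hr : ∀ (P : Place L F) (hP : S.InChart P) (y : Ft),
    y ∈ (r P).toValuationSubring ↔ y ∈ S.rSubring P hP
  /-- poles of `s` reduce to poles of `s~` ((R1) in the partner chart). -/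
  hrbad : ∀ P : Place L F, P.ord S.s < 0 → (r P).ord (S.red S.sB) < 0
  /-- `B` is integral over `L[s]`. -/
  hintU : ∀ P : Place L F, S.s ∈ P.toValuationSubring → ∀ b ∈ S.B, b ∈ P.toValuationSubring
  /-- `red B` is integral over `k[s~]`. -/
  hintD : ∀ Q : Place (kA A) Ft, S.red S.sB ∈ Q.toValuationSubring →
    ∀ b : ↥S.B, S.red b ∈ Q.toValuationSubring
  hprinc : ∀ b : ↥S.B, S.red b ≠ 0 → ∀ (D : Place L F →₀ ℤ) (D' : Place (kA A) Ft →₀ ℤ),
    (∀ P, D P = P.ord (b : F)) → (∀ Q, D' Q = Q.ord (S.red b)) → princ D D'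
  /-- `s~` is not constant. -/
  hst : ∀ c : kA A, S.red S.sB ≠ algebraMap (kA A) Ft c
  hdivF : ∀ f : F, f ≠ 0 → ∃ D : Place L F →₀ ℤ, ∀ P, D P = P.ord f
  hdivFt : ∀ g : Ft, g ≠ 0 → ∃ D' : Place (kA A) Ft →₀ ℤ, ∀ Q, D' Q = Q.ord g
  hunif : ∀ Q : Place (kA A) Ft, ∃ ϖ : Ft, Q.ord ϖ = 1
  hDinf : ∀ P, Dinf P = max (-(P.ord S.s)) 0
  hDinf' : ∀ Q, Dinf' Q = max (-(Q.ord (S.red S.sB))) 0

section Main

variable {S r}
variable {princ : (Place L F →₀ ℤ) → (Place (kA A) Ft →₀ ℤ) → Prop}
  {Dinf : Place L F →₀ ℤ} {Dinf' : Place (kA A) Ft →₀ ℤ}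

theorem mem_support_Dinf_iff (h : BridgeHyp S r princ Dinf Dinf') (P : Place L F) :
    P ∈ Dinf.support ↔ P.ord S.s < 0 := by
  rw [Finsupp.mem_support_iff, h.hDinf]
  constructor
  · intro h1
    by_contra h2
    exact h1 (max_eq_right (by omega))
  · intro h1 h2
    have := le_max_left (-(P.ord S.s)) 0
    omega

theorem mem_support_Dinf'_iff (h : BridgeHyp S r princ Dinf Dinf') (Q : Place (kA A) Ft) :
    Q ∈ Dinf'.support ↔ Q.ord (S.red S.sB) < 0 := by
  rw [Finsupp.mem_support_iff, h.hDinf']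
  constructor
  · intro h1
    by_contra h2
    exact h1 (max_eq_right (by omega))
  · intro h1 h2
    have := le_max_left (-(Q.ord (S.red S.sB))) 0
    omega

/-- the `coord` field. -/
theorem coord_of_bridge (h : BridgeHyp S r princ Dinf Dinf') (P : Place L F) (hP : S.InChart P) :
    ∃ (Z : Place L F →₀ ℤ) (Z' : Place (kA A) Ft →₀ ℤ), (∀ p', 0 ≤ Z p') ∧ 0 < Z P ∧
      (∀ y ∈ Dinf'.support, Z' y = 0) ∧ princ (Z - Dinf) (Z' - Dinf') := by
  set a : ↥A := S.ev P hP S.sB with ha
  set f : ↥S.B := S.sB - S.const a with hf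
  have hredf : S.red f = S.red S.sB - algebraMap (kA A) Ft (resA A a) := by
    rw [hf, map_sub, S.red_const']
  have hredf0 : S.red f ≠ 0 := by
    rw [hredf, sub_ne_zero]
    exact h.hst _
  have hfF : (f : F) = S.s - algebraMap L F (a : L) := rfl
  have hf0 : (f : F) ≠ 0 := by
    intro h0
    apply hredf0
    have : f = 0 := Subtype.ext h0
    rw [this, map_zero]
  obtain ⟨D, hD⟩ := h.hdivF (f : F) hf0
  obtain ⟨D', hD'⟩ := h.hdivFt (S.red f) hredf0
  refine ⟨D + Dinf, D' + Dinf', ?_, ?_, ?_, ?_⟩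
  · intro P'
    rw [Finsupp.add_apply, hD, h.hDinf, hfF]
    exact ord_sub_const_add_pole_nonneg P' S.s (a : L)
  · rw [Finsupp.add_apply, hD, h.hDinf]
    have h1 : 0 < P.ord (f : F) := by
      rcases (S.ev_eq_zero_iff P hP f).mp (S.ev_sub_const P hP S.sB) with h1 | h1
      · exact absurd h1 hf0
      · exact h1
    have h2 : 0 ≤ max (-(P.ord S.s)) 0 := le_max_right _ _
    omega
  · intro Q hQ
    rw [mem_support_Dinf'_iff h] at hQ
    rw [Finsupp.add_apply, hD', h.hDinf', hredf]
    exact ord_sub_const_add_pole_of_neg Q hQ _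
  · rw [add_sub_cancel_right, add_sub_cancel_right]
    exact h.hprinc f hredf0 D D' hD hD'

include hxt in
/-- (R1u) for `r`: a place containing `red B` with the values `χ_P` is `r P`. -/
theorem eq_r_of_value (h : BridgeHyp S r princ Dinf Dinf') (P : Place L F) (hP : S.InChart P)
    (Q : Place (kA A) Ft) (hQ : ∀ b : ↥S.B, S.red b ∈ Q.toValuationSubring)
    (hQv : ∀ b : ↥S.B, valueHom hxt Q ⟨S.red b, hQ b⟩ = S.chi P hP b) : Q = r P := by
  apply Place.ext
  refine Fermat.Agent.ES.HECKE.FundIdentity19.valuationSubring_eq_of_le (r P) Q.toValuationSubring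
    ?_ Q.ne_top'
  intro y hy
  rw [h.hr P hP] at hy
  obtain ⟨a, d, hd, hyd⟩ := hy
  have hunit : IsUnit (⟨S.red d, hQ d⟩ : ↥Q.toValuationSubring) := by
    rw [← valueHom_ne_zero_iff hxt Q, hQv]
    exact hd
  obtain ⟨w, hw⟩ := hunit.exists_right_inv
  have hw' : S.red d * (w : Ft) = 1 := by
    have := congrArg (Subtype.val) hw
    simpa using this
  have hy' : y = S.red a * (w : Ft) := by
    rw [← hyd, mul_assoc, hw', mul_one]
  rw [hy']
  exact Q.toValuationSubring.mul_mem _ _ (hQ a) w.2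

include hxt in
/-- elements of `(ker χ_P)^2` reduce to elements of order `≥ 2` at `r P`. -/
theorem ord_red_of_mem_sq (h : BridgeHyp S r princ Dinf Dinf') (P : Place L F) (hP : S.InChart P)
    {g : ↥S.B} (hg : g ∈ (RingHom.ker (S.chi P hP)) ^ 2) :
    S.red g = 0 ∨ 2 ≤ (r P).ord (S.red g) := by
  rw [pow_two] at hg
  refine Submodule.smul_induction_on hg ?_ ?_
  · intro m hm n hn
    rcases eq_or_ne (S.red m) 0 with h0 | h0
    · left; rw [smul_eq_mul, map_mul, h0, zero_mul]
    rcases eq_or_ne (S.red n) 0 with h1 | h1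
    · left; rw [smul_eq_mul, map_mul, h1, mul_zero]
    right
    have hm' := ord_red_pos hxt S r P hP (h.hr P hP) (RingHom.mem_ker.mp hm) h0
    have hn' := ord_red_pos hxt S r P hP (h.hr P hP) (RingHom.mem_ker.mp hn) h1
    rw [smul_eq_mul, map_mul, (r P).ord_mul h0 h1]
    omega
  · intro x y hx hy
    rcases eq_or_ne (S.red (x + y)) 0 with h0 | h0
    · exact Or.inl h0
    right
    rw [map_add] at h0 ⊢
    have hge := ord_add_ge (r P) h0
    rcases hx with hx | hx <;> rcases hy with hy | hy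
    · rw [hx, hy, add_zero] at h0; exact absurd rfl h0
    · rw [hx, zero_add]; exact hy
    · rw [hy, add_zero]; exact hx
    · have := le_min hx hy
      omega

include hxt in
/-- the `lift` field. -/
theorem lift_of_bridge (h : BridgeHyp S r princ Dinf Dinf') (P : Place L F) (hP : S.InChart P)
    (T : Finset (Place (kA A) Ft)) (hT : ∀ Q ∈ T, Q ∉ Dinf'.support) (hPT : r P ∉ T) :
    ∃ (Z E : Place L F →₀ ℤ) (D' : Place (kA A) Ft →₀ ℤ), (∀ p', 0 ≤ Z p') ∧ (∀ p', 0 ≤ E p') ∧
      0 < Z P ∧ E.support ⊆ Dinf.support ∧ princ (Z - E) D' ∧ D' (r P) = 1 ∧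
      ∀ Q ∈ T, D' Q = 0 := by
  classical
  have hrP := h.hr P hP
  -- 1. a uniformiser of the form `red b0`
  obtain ⟨ϖ, hϖ⟩ := h.hunif (r P)
  have hϖ0 : ϖ ≠ 0 := by
    rintro rfl
    rw [Place.ord_zero] at hϖ
    exact zero_ne_one hϖ
  have hϖmem : ϖ ∈ (r P).toValuationSubring := mem_of_ord_nonneg (r P) (by omega)
  rw [hrP] at hϖmem
  obtain ⟨b0, d, hd, hbd⟩ := hϖmem
  have hd0 : S.red d ≠ 0 := fun h0 => hd (S.chi_eq_zero_of_red_eq_zero P hP h0)
  have hordd : (r P).ord (S.red d) = 0 := ord_red_eq_zero hxt S r P hP hrP hd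
  have hordb0 : (r P).ord (S.red b0) = 1 := by
    rw [← hbd, (r P).ord_mul hϖ0 hd0, hϖ, hordd, add_zero]
  have hredb0 : S.red b0 ≠ 0 := by
    intro h0
    rw [h0, Place.ord_zero] at hordb0
    exact zero_ne_one hordb0
  have hχb0 : S.chi P hP b0 = 0 := by
    by_contra hne
    rw [ord_red_eq_zero hxt S r P hP hrP hne] at hordb0
    exact zero_ne_one hordb0
  -- 2. the characters at the places of `T`
  have hTmem : ∀ Q ∈ T, S.red S.sB ∈ Q.toValuationSubring := by
    intro Q hQ
    have h1 := hT Q hQ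
    rw [mem_support_Dinf'_iff h] at h1
    exact mem_of_ord_nonneg Q (not_lt.mp h1)
  let χ : Place (kA A) Ft → ↥S.B →+* kA A := fun Q =>
    if hQ : S.red S.sB ∈ Q.toValuationSubring then
      ((valueHom hxt Q : ↥Q.toValuationSubring →+* kA A)).comp
        (S.red.codRestrict Q.toValuationSubring.toSubring (h.hintD Q hQ))
    else S.chi P hP
  have hχdef : ∀ (Q : Place (kA A) Ft) (hQ : S.red S.sB ∈ Q.toValuationSubring) (b : ↥S.B),
      χ Q b = valueHom hxt Q ⟨S.red b, h.hintD Q hQ b⟩ := by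
    intro Q hQ b
    simp only [χ, dif_pos hQ]
    rfl
  have hχconst : ∀ Q ∈ T, ∀ a : ↥A, χ Q (S.constHom a) = resA A a := by
    intro Q hQ a
    rw [hχdef Q (hTmem Q hQ)]
    have h1 : (⟨S.red (S.constHom a), h.hintD Q (hTmem Q hQ) _⟩ : ↥Q.toValuationSubring) =
        algebraMap (kA A) ↥Q.toValuationSubring (resA A a) := by
      apply Subtype.ext
      show S.red (S.const a) = _
      rw [S.red_const']
      rfl
    rw [h1]
    exact (valueHom hxt Q).commutes _
  have hχne : ∀ Q ∈ T, χ Q ≠ S.chi P hP := by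
    intro Q hQ heq
    apply hPT
    have : Q = r P := eq_r_of_value hxt h P hP Q (h.hintD Q (hTmem Q hQ)) (fun b => by
      rw [← hχdef Q (hTmem Q hQ), heq])
    rw [← this]
    exact hQ
  -- 3. separation
  have : Infinite (kA A) := IsAlgClosed.instInfinite
  obtain ⟨f, hf0, hfsq, hfT⟩ := Fermat.Agent.ES.KRON.SepLemma10.exists_sep S.constHom (resA A) IsLocalRing.residue_surjective
    (S.chi P hP) (fun a => S.chi_const P hP a) T χ hχconst hχne b0 hχb0
  -- 4. orders of `red f`
  have hredf : (r P).ord (S.red f) = 1 ∧ S.red f ≠ 0 := by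
    have hsplit : S.red f = S.red b0 + S.red (f - b0) := by rw [← map_add]; congr 1; ring
    rcases ord_red_of_mem_sq hxt h P hP hfsq with h0 | h2
    · rw [hsplit, h0, add_zero]
      exact ⟨hordb0, hredb0⟩
    · have hlt : (r P).ord (S.red b0) < (r P).ord (S.red (f - b0)) := by omega
      have := ord_add_eq_of_lt (r P) hredb0 hlt
      rw [← hsplit] at this
      refine ⟨this.trans hordb0, ?_⟩
      intro h0
      rw [h0, Place.ord_zero] at this
      omega
  obtain ⟨hordf, hredf0⟩ := hredf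
  have hordT : ∀ Q ∈ T, Q.ord (S.red f) = 0 := by
    intro Q hQ
    have h1 := hfT Q hQ
    rw [hχdef Q (hTmem Q hQ), valueHom_ne_zero_iff] at h1
    exact ord_eq_zero_of_isUnit Q h1
  -- 5. subtract the value at `P`
  set f1 : ↥S.B := f - S.const (S.ev P hP f) with hf1
  have hredf1 : S.red f1 = S.red f := by
    rw [hf1, map_sub, S.red_const', ← S.chi_apply P hP, hf0, map_zero, sub_zero]
  have hevf1 : S.ev P hP f1 = 0 := S.ev_sub_const P hP f
  have hredf10 : S.red f1 ≠ 0 := by rw [hredf1]; exact hredf0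
  have hf1F : (f1 : F) ≠ 0 := by
    intro h0
    apply hredf10
    have : f1 = 0 := Subtype.ext h0
    rw [this, map_zero]
  obtain ⟨D, hD⟩ := h.hdivF (f1 : F) hf1F
  obtain ⟨D', hD'⟩ := h.hdivFt (S.red f1) hredf10
  refine ⟨D.mapRange (fun n => max n 0) (by simp), D.mapRange (fun n => max (-n) 0) (by simp), D',
    ?_, ?_, ?_, ?_, ?_, ?_, ?_⟩
  · intro p'
    rw [Finsupp.mapRange_apply]
    exact le_max_right _ _
  · intro p'
    rw [Finsupp.mapRange_apply]
    exact le_max_right _ _
  · rw [Finsupp.mapRange_apply, hD]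
    rcases (S.ev_eq_zero_iff P hP f1).mp hevf1 with h1 | h1
    · exact absurd h1 hf1F
    · exact lt_max_of_lt_left h1
  · intro P' hP'
    rw [Finsupp.mem_support_iff, Finsupp.mapRange_apply, hD] at hP'
    rw [mem_support_Dinf_iff h]
    by_contra hs
    have hsmem : S.s ∈ P'.toValuationSubring := mem_of_ord_nonneg P' (not_lt.mp hs)
    have := ord_nonneg_of_mem P' (h.hintU P' hsmem (f1 : F) f1.2)
    exact hP' (max_eq_right (by omega))
  · have hZE : D.mapRange (fun n => max n 0) (by simp) - D.mapRange (fun n => max (-n) 0) (by simp)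
        = D := by
      ext p'
      rw [Finsupp.sub_apply, Finsupp.mapRange_apply, Finsupp.mapRange_apply]
      rcases le_total (D p') 0 with h1 | h1
      · rw [max_eq_right h1, max_eq_left (by omega)]; omega
      · rw [max_eq_left h1, max_eq_right (by omega)]; omega
    rw [hZE]
    exact h.hprinc f1 hredf10 D D' hD hD'
  · rw [hD', hredf1, hordf]
  · intro Q hQ
    rw [hD', hredf1, hordT Q hQ]

include hxt in
/-- **The bridge**: a chart of the contract is a chart of the abstract (ES-div). -/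
theorem chart_of_bridge (h : BridgeHyp S r princ Dinf Dinf')
    (Fr : Place (kA A) Ft ≃ Place (kA A) Ft)
    (hdeg : Dinf.sum (fun _ n => n) = Dinf'.sum (fun _ n => n))
    (hstable : ∀ Q, Q ∈ Dinf'.support ↔ Fr Q ∈ Dinf'.support) :
    Chart r Fr princ {P | S.InChart P} Dinf Dinf' where
  dinf_pos := fun p => by rw [h.hDinf]; exact le_max_right _ _
  dinf'_pos := fun q => by rw [h.hDinf']; exact le_max_right _ _
  deg_eq := hdeg
  stable := hstable
  r_bad := fun p hp => by
    rw [mem_support_Dinf'_iff h]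
    exact h.hrbad p ((mem_support_Dinf_iff h p).mp hp)
  r_good := fun p hp => by
    rw [mem_support_Dinf'_iff h, not_lt]
    exact ord_red_nonneg S r p hp (h.hr p hp) S.sB
  coord := fun p hp => coord_of_bridge h p hp
  lift := fun p hp T hT hpT => lift_of_bridge hxt h p hp T hT hpT

end Main

end Bridge

end Fermat.Agent.ES.KRON.ChartBridge24
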