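/-
Program I (S37), chapter ES/KRON, helper24: the Kronecker congruences (K1), pure `q`-series algebra.

For a Laurent series `y` with coefficients in a ring `R` carrying a root of unity `ζ` (`ζ ^ l = 1`),
`kronProd l ζ y = ∏_{b < l} (Y - y(ζ^b q)) * (Y - y(q^{l²}))` is the polynomial whose roots are the
`l + 1` "conjugates" of `y(q)` over the field of series in `q^l`.  Modulo a homomorphism
`res : R → k` into a field of characteristic `l`:

  `kronProd l ζ y ≡ (Y^l - (ȳ^φ)(q^l)) * (Y - ((ȳ^{φ⁻¹})(q^l))^l)`      (`kronProd_map_res`),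

where `φ` is the coefficientwise Frobenius.  If moreover `kronProd l ζ y` is (after an injective
coefficient extension `ι : R → K`) of the form `Ψ(q^l)` for a polynomial `Ψ` over `K((q))`, then `Ψ`
has coefficients in `R((q))` and reduces to `(Y^l - ȳ^φ) * (Y - (ȳ^{φ⁻¹})^l)`   (`kron_descent`).
-/
import Mathlib
import Fermat.Prelude.Def_ModularCurve_X0ModL

set_option autoImplicit false

open HahnSeries Polynomial ModularCurve

noncomputable section

namespace Fermat.Agent.ES.KRON.KronCong24

/-! ### The twist `q ↦ u q` by a unit -/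

section Twist

variable {R : Type*} [CommRing R]

/-- Multiply the `n`-th coefficient by `u ^ n`. -/
def twistFun (u : Rˣ) (x : LaurentSeries R) : LaurentSeries R where
  coeff n := ((u ^ n : Rˣ) : R) * x.coeff n
  isPWO_support' := x.isPWO_support.mono fun n hn => by
    simp only [Function.mem_support, ne_eq] at hn
    rw [HahnSeries.mem_support]
    exact fun h => hn (by rw [h, mul_zero])

@[simp] theorem twistFun_coeff (u : Rˣ) (x : LaurentSeries R) (n : ℤ) :
    (twistFun u x).coeff n = ((u ^ n : Rˣ) : R) * x.coeff n := rfl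

theorem support_twistFun (u : Rˣ) (x : LaurentSeries R) :
    (twistFun u x).support = x.support := by
  ext n
  rw [HahnSeries.mem_support, HahnSeries.mem_support, twistFun_coeff]
  exact not_congr (Units.mul_right_eq_zero _)

theorem twistFun_mul (u : Rˣ) (x y : LaurentSeries R) :
    twistFun u (x * y) = twistFun u x * twistFun u y := by
  ext n
  rw [twistFun_coeff, HahnSeries.coeff_mul, HahnSeries.coeff_mul, Finset.mul_sum]
  refine Finset.sum_congr ?_ fun ij hij => ?_
  · ext ij
    simp only [Finset.mem_addAntidiagonal]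
    rw [support_twistFun, support_twistFun]
  · have hsum : ij.1 + ij.2 = n := (Finset.mem_addAntidiagonal.mp hij).2.2
    rw [twistFun_coeff, twistFun_coeff, ← hsum, zpow_add, Units.val_mul]
    ring

/-- The twist `y(q) ↦ y(u q)` as a ring homomorphism. -/
def twistU (u : Rˣ) : LaurentSeries R →+* LaurentSeries R where
  toFun := twistFun u
  map_one' := by
    ext n
    rw [twistFun_coeff, HahnSeries.coeff_one]
    split_ifs with h
    · subst h; simp
    · simp
  map_mul' := twistFun_mul u
  map_zero' := by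
    ext n
    simp
  map_add' x y := by
    ext n
    simp [mul_add]

@[simp] theorem twistU_coeff (u : Rˣ) (x : LaurentSeries R) (n : ℤ) :
    (twistU u x).coeff n = ((u ^ n : Rˣ) : R) * x.coeff n := rfl

@[simp] theorem twistU_one (x : LaurentSeries R) : twistU (1 : Rˣ) x = x := by
  ext n
  simp

theorem twistU_mul (u v : Rˣ) (x : LaurentSeries R) :
    twistU (u * v) x = twistU u (twistU v x) := by
  ext n
  rw [twistU_coeff, twistU_coeff, twistU_coeff, mul_zpow, Units.val_mul, mul_assoc]

theorem coeffMap_twistU {S : Type*} [CommRing S] (φ : R →+* S) (u : Rˣ) (x : LaurentSeries R) :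
    coeffMap φ (twistU u x) = twistU (Units.map (φ : R →* S) u) (coeffMap φ x) := by
  ext n
  rw [coeffMap_coeff, twistU_coeff, twistU_coeff, coeffMap_coeff, map_mul, ← map_zpow,
    Units.coe_map]
  rfl

/-- On a series in `q^m`, a twist by an `m`-th root of unity is trivial. -/
theorem twistU_qExpand (m : ℕ) [NeZero m] (u : Rˣ) (hu : u ^ m = 1) (x : LaurentSeries R) :
    twistU u (qExpand R m x) = qExpand R m x := by
  ext n
  rw [twistU_coeff]
  by_cases hn : (m : ℤ) ∣ n
  · obtain ⟨c, rfl⟩ := hn
    rw [zpow_mul, zpow_natCast, hu, one_zpow, Units.val_one, one_mul]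
  · rw [qExpand_coeff_of_not_dvd m x hn, mul_zero]

end Twist

/-! ### `qExpand`, power series and the Frobenius -/

section Frob

variable {R : Type*} [CommRing R]

theorem qExpand_ofPowerSeries (m : ℕ) [hm : NeZero m] (P : PowerSeries R) :
    qExpand R m (HahnSeries.ofPowerSeries ℤ R P)
      = HahnSeries.ofPowerSeries ℤ R (P.expand m hm.ne) := by
  ext j
  by_cases hj : (m : ℤ) ∣ j
  · obtain ⟨i, rfl⟩ := hj
    rw [qExpand_coeff_mul]
    rcases lt_or_ge i 0 with hi | hi
    · have hm0 : (0 : ℤ) < m := by exact_mod_cast Nat.pos_of_ne_zero hm.ne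
      rw [ofPowerSeries_coeff_of_neg _ hi,
        ofPowerSeries_coeff_of_neg _ (mul_neg_of_pos_of_neg hm0 hi)]
    · lift i to ℕ using hi
      rw [show ((m : ℤ) * (i : ℤ)) = ((m * i : ℕ) : ℤ) by push_cast; rfl,
        HahnSeries.ofPowerSeries_apply_coeff, HahnSeries.ofPowerSeries_apply_coeff,
        PowerSeries.coeff_expand_mul]
  · rw [qExpand_coeff_of_not_dvd m _ hj]
    rcases lt_or_ge j 0 with hj0 | hj0
    · rw [ofPowerSeries_coeff_of_neg _ hj0]
    · lift j to ℕ using hj0
      rw [HahnSeries.ofPowerSeries_apply_coeff, PowerSeries.coeff_expand_of_not_dvd]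
      exact fun hd => hj (by exact_mod_cast hd)

variable {k : Type*} [CommRing k] (l : ℕ) [hl : Fact l.Prime] [CharP k l]

theorem powerSeries_pow_char (P : PowerSeries k) :
    P ^ l = (P.expand l hl.out.ne_zero).map (frobenius k l) := by
  have : ExpChar k l := ExpChar.prime hl.out
  exact (MvPowerSeries.map_frobenius_expand l hl.out.ne_zero).symm

/-- **First congruence, basic form**: in characteristic `l`, `x(q)^l = (x^φ)(q^l)`. -/
theorem pow_char (x : LaurentSeries k) :
    x ^ l = qExpand k l (coeffMap (frobenius k l) x) := by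
  have h1 : (HahnSeries.ofPowerSeries ℤ k x.powerSeriesPart) ^ l
      = qExpand k l (coeffMap (frobenius k l) (HahnSeries.ofPowerSeries ℤ k x.powerSeriesPart)) := by
    rw [coeffMap_ofPowerSeries, qExpand_ofPowerSeries, ← map_pow, powerSeries_pow_char,
      PowerSeries.map_expand]
  have h2 : (HahnSeries.single x.order (1 : k)) ^ l
      = qExpand k l (coeffMap (frobenius k l) (HahnSeries.single x.order (1 : k))) := by
    rw [coeffMap_single, qExpand_single, HahnSeries.single_pow, map_one, one_pow, nsmul_eq_mul]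
  conv_lhs => rw [← x.single_order_mul_powerSeriesPart]
  conv_rhs => rw [← x.single_order_mul_powerSeriesPart]
  rw [mul_pow, map_mul, map_mul, h1, h2]

/-- **Second congruence, basic form**: `x(q^{l²}) = ((x^{φ⁻¹})(q^l))^l`, for any `ψ = φ⁻¹`. -/
theorem qExpand_sq_eq_pow (ψ : k →+* k) (hψ : ∀ a, ψ a ^ l = a) (x : LaurentSeries k) :
    qExpand k (l ^ 2) x = (qExpand k l (coeffMap ψ x)) ^ l := by
  rw [pow_char, coeffMap_qExpand, qExpand_qExpand, coeffMap_coeffMap]
  have h1 : (frobenius k l).comp ψ = RingHom.id k := by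
    ext a
    simp [frobenius_def, hψ]
  rw [h1, coeffMap_id]
  exact qExpand_congr (pow_two l) x

end Frob

/-! ### The Kronecker product polynomial -/

section Kron

variable {R : Type*} [CommRing R]

/-- `∏_{b < l} (Y - y(ζ^b q)) * (Y - y(q^{l²}))`. -/
def kronProd (l : ℕ) [NeZero l] (ζ : Rˣ) (y : LaurentSeries R) : Polynomial (LaurentSeries R) :=
  (∏ b ∈ Finset.range l, (X - Polynomial.C (twistU (ζ ^ b) y))) * (X - Polynomial.C (qExpand R (l ^ 2) y))

theorem kronProd_monic (l : ℕ) [NeZero l] (ζ : Rˣ) (y : LaurentSeries R) [Nontrivial R] :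
    (kronProd l ζ y).Monic :=
  (monic_prod_of_monic _ _ fun _ _ => monic_X_sub_C _).mul (monic_X_sub_C _)

theorem kronProd_natDegree (l : ℕ) [NeZero l] (ζ : Rˣ) (y : LaurentSeries R) [Nontrivial R] :
    (kronProd l ζ y).natDegree = l + 1 := by
  rw [kronProd, Monic.natDegree_mul (monic_prod_of_monic _ _ fun b _ => monic_X_sub_C _)
    (monic_X_sub_C _), natDegree_X_sub_C, natDegree_prod_of_monic _ _ fun b _ => monic_X_sub_C _]
  simp

theorem kronProd_map {S : Type*} [CommRing S] (φ : R →+* S) (l : ℕ) [NeZero l] (ζ : Rˣ)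
    (y : LaurentSeries R) :
    (kronProd l ζ y).map (coeffMap φ) = kronProd l (Units.map (φ : R →* S) ζ) (coeffMap φ y) := by
  rw [kronProd, kronProd, Polynomial.map_mul, Polynomial.map_prod]
  congr 1
  · refine Finset.prod_congr rfl fun b _ => ?_
    rw [Polynomial.map_sub, Polynomial.map_X, Polynomial.map_C, coeffMap_twistU, map_pow]
  · rw [Polynomial.map_sub, Polynomial.map_X, Polynomial.map_C, coeffMap_qExpand]

variable {k : Type*} [Field k] (l : ℕ) [hl : Fact l.Prime] [CharP k l]

/-- In a field of characteristic `l` the only `l`-th root of unity is `1`. -/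
theorem eq_one_of_pow_char_eq_one {a : k} (h : a ^ l = 1) : a = 1 := by
  have h1 : (a - 1) ^ l = 0 := by
    rw [sub_pow_char, h, one_pow, sub_self]
  exact sub_eq_zero.mp (pow_eq_zero_iff hl.out.ne_zero |>.mp h1)

instance charP_laurentSeries : CharP (LaurentSeries k) l :=
  charP_of_injective_ringHom (f := (HahnSeries.C : k →+* LaurentSeries k)) HahnSeries.C_injective l

/-- `kronProd` over a field of characteristic `l` (where `ζ = 1`). -/
theorem kronProd_char (ψ : k →+* k) (hψ : ∀ a, ψ a ^ l = a) (ζ : kˣ) (hζ : ζ ^ l = 1)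
    (x : LaurentSeries k) :
    kronProd l ζ x = ((X ^ l - Polynomial.C (coeffMap (frobenius k l) x)) *
      (X - Polynomial.C ((coeffMap ψ x) ^ l))).map (qExpand k l) := by
  have hζ1 : ζ = 1 := by
    apply Units.ext
    apply eq_one_of_pow_char_eq_one l
    rw [← Units.val_pow_eq_pow_val, hζ, Units.val_one]
  subst hζ1
  rw [kronProd, Polynomial.map_mul, Polynomial.map_sub, Polynomial.map_sub, Polynomial.map_pow,
    Polynomial.map_X, Polynomial.map_C, Polynomial.map_C, map_pow, ← qExpand_sq_eq_pow l ψ hψ,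
    ← pow_char]
  congr 1
  simp only [one_pow, twistU_one, Finset.prod_const, Finset.card_range]
  rw [sub_pow_char, ← Polynomial.C_pow]

/-- **(K1)** The Kronecker congruence: modulo `res : R → k` (characteristic `l`),
`∏_b (Y - y(ζ^b q)) * (Y - y(q^{l²})) ≡ (Y^l - (ȳ^φ)(q^l)) * (Y - ((ȳ^{φ⁻¹})(q^l))^l)`. -/
theorem kronProd_map_res (res : R →+* k) (ψ : k →+* k) (hψ : ∀ a, ψ a ^ l = a)
    (ζ : Rˣ) (hζ : ζ ^ l = 1) (y : LaurentSeries R) :
    (kronProd l ζ y).map (coeffMap res) =
      ((X ^ l - Polynomial.C (coeffMap (frobenius k l) (coeffMap res y))) *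
        (X - Polynomial.C ((coeffMap ψ (coeffMap res y)) ^ l))).map (qExpand k l) := by
  rw [kronProd_map]
  exact kronProd_char l ψ hψ _ (by rw [← map_pow, hζ, map_one]) _

/-- If `coeffMap ι a` is a series in `q^m` and `ι` is injective, then `a` is a series in `q^m`. -/
theorem mem_range_qExpand_of_coeffMap {K : Type*} [CommRing K] (ι : R →+* K)
    (hι : Function.Injective ι) (m : ℕ) [NeZero m] (a : LaurentSeries R) (b : LaurentSeries K)
    (h : coeffMap ι a = qExpand K m b) : ∃ z : LaurentSeries R, qExpand R m z = a := by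
  have hm : (0 : ℤ) < m := by exact_mod_cast Nat.pos_of_ne_zero (NeZero.ne m)
  have hbdd : BddBelow (Function.support fun n : ℤ => a.coeff ((m : ℤ) * n)) := by
    refine ⟨min 0 a.order, fun n hn => ?_⟩
    by_contra hlt
    rw [not_le] at hlt
    apply hn
    show a.coeff ((m : ℤ) * n) = 0
    apply coeff_eq_zero_of_lt_order
    have h0 : n < 0 := lt_of_lt_of_le hlt (min_le_left _ _)
    have h1 : n < a.order := lt_of_lt_of_le hlt (min_le_right _ _)
    have hm1 : (1 : ℤ) ≤ m := hm
    nlinarith
  refine ⟨ofSuppBddBelow (fun n : ℤ => a.coeff ((m : ℤ) * n)) hbdd, ?_⟩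
  ext n
  by_cases hn : (m : ℤ) ∣ n
  · obtain ⟨c, rfl⟩ := hn
    rw [qExpand_coeff_mul, coeff_ofSuppBddBelow]
  · rw [qExpand_coeff_of_not_dvd m _ hn]
    apply hι
    rw [map_zero, ← coeffMap_coeff, h, qExpand_coeff_of_not_dvd m _ hn]

theorem map_qExpand_injective (m : ℕ) [NeZero m] :
    Function.Injective (Polynomial.map (qExpand R m)) :=
  Polynomial.map_injective _ (qExpand_injective m)

/-- **(K1′)** Descent and reduction of `Ψ`: if `kronProd l ζ y` (after the injective coefficient
extension `ι`) equals `Ψ(q^l)`, then `Ψ` has coefficients in `R((q))`, `Ψ_R(q^l) = kronProd l ζ y`,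
and `Ψ_R` reduces modulo `res` to `(Y^l - ȳ^φ) * (Y - (ȳ^{φ⁻¹})^l)`. -/
theorem kron_descent {K : Type*} [CommRing K] (ι : R →+* K) (hι : Function.Injective ι)
    (res : R →+* k) (ψ : k →+* k) (hψ : ∀ a, ψ a ^ l = a)
    (ζ : Rˣ) (hζ : ζ ^ l = 1) (y : LaurentSeries R) (Ψ : Polynomial (LaurentSeries K))
    (hΨ : Ψ.map (qExpand K l) = (kronProd l ζ y).map (coeffMap ι)) :
    ∃ ΨR : Polynomial (LaurentSeries R),
      ΨR.map (qExpand R l) = kronProd l ζ y ∧
      ΨR.map (coeffMap ι) = Ψ ∧
      ΨR.map (coeffMap res) =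
        (X ^ l - Polynomial.C (coeffMap (frobenius k l) (coeffMap res y))) *
          (X - Polynomial.C ((coeffMap ψ (coeffMap res y)) ^ l)) := by
  have hlift : kronProd l ζ y ∈ Polynomial.lifts (qExpand R l) := by
    rw [Polynomial.lifts_iff_coeff_lifts]
    intro n
    have h := congrArg (fun P => P.coeff n) hΨ
    simp only [Polynomial.coeff_map] at h
    obtain ⟨z, hz⟩ := mem_range_qExpand_of_coeffMap ι hι l _ _ h.symm
    exact ⟨z, hz⟩
  obtain ⟨ΨR, hΨR⟩ := (Polynomial.mem_lifts _).mp hlift
  refine ⟨ΨR, hΨR, ?_, ?_⟩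
  · apply map_qExpand_injective l
    rw [hΨ, ← hΨR, Polynomial.map_map, Polynomial.map_map]
    congr 1
    ext x : 1
    exact (coeffMap_qExpand ι l x).symm
  · apply map_qExpand_injective l
    rw [← kronProd_map_res l res ψ hψ ζ hζ y, ← hΨR, Polynomial.map_map, Polynomial.map_map]
    congr 1
    ext x : 1
    exact (coeffMap_qExpand res l x).symm

end Kron

end Fermat.Agent.ES.KRON.KronCong24
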