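/-
Program I (S37), chapter ES/KRON, leaf (H4), helper11: the `ℓ + 1` conjugates of `F̄_{Nℓ}` over
`β (F̄_N)` (`ℓ` prime, `ℓ ∤ N`) in `ℚbar((q))`, and the Kronecker form of the characteristic
polynomial of `α f`.

Setting: `Kbar = AlgebraicClosure ℚ`, `FF M = ↥(modularFunctionFieldBar M)`, `α = heckeAlphaBar Kbar N ℓ`
(the inclusion), `β = heckeBetaBar Kbar N ℓ` (`q ↦ q^ℓ`).

* `exists_W`          : `∃ W : FF (N ℓ) →+* ℚbar((q))`, `W (β h) = h`, `W (α f) = f(q^ℓ)`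
                        (the compressed expansion at the cusp `ℓ / N`: `γ₀ = (ℓ, -v; N, ℓ u)`,
                        `j_{dℓ} ∘ γ₀ (Nℓ z) = j(dN z)`, `j_d ∘ γ₀ (Nℓ z) = j(dNℓ z)`);
* `exists_emb_infty`  : `σ_∞ = (q ↦ q^ℓ) ∘ W`: `σ_∞ (β h) = h(q^ℓ)`, `σ_∞ (α f) = f(q^{ℓ²})`;
* `embTwist ζ b`      : `σ_b = (q ↦ ζ^b q) ∘ incl`: `σ_b (β h) = h(q^ℓ)`, `σ_b (α f) = f(ζ^b q)`;
* `charpolyAlong φ ψ hfin f` (generic): the characteristic polynomial of `ψ f` on `F'` over `F` along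
  `φ`; `charpolyAlong_map_eq_prod` (through a full set of embeddings);
* `charpolyAlong_map_of_val`, `charpolyAlong_map` **(POLY)**:
  `((charpolyAlong β α hfin f).map val).map (qExpand ℓ) = kronProd ℓ ζ f` for `ζ` a primitive
  `ℓ`-th root of unity.
-/
import Mathlib
import Fermat.Agent.RED.LVL.FrickeExp19
import Fermat.Agent.ES.HECKE.AlongDegree25
import Fermat.Agent.ES.KRON.KronCong24
import Fermat.Agent.ES.KRON.CharpolyEmb11
import Fermat.Agent.X0.CuspEquiv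
import Fermat.Agent.X0.RootsK

set_option autoImplicit false
set_option linter.unusedSectionVars false

open ModularCurve UpperHalfPlane IntermediateField AlgebraicCurve Polynomial
open scoped MatrixGroups

noncomputable section

namespace Fermat.Agent.ES.KRON.Conjugates11

open Fermat.Agent.X0 Fermat.Agent.X0.Analytic
open Fermat.Agent.RED.BASE.Interface12
open Fermat.Agent.RED.LVL.FrickeExp19
open Fermat.Agent.ES.KRON.KronCong24

section Generic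

variable {K F F' : Type*} [Field K] [Field F] [Field F'] [Algebra K F] [Algebra K F']

/-- The characteristic polynomial of (multiplication by) `ψ f` on `F'`, seen as an `F`-vector space
along `φ`. -/
def charpolyAlong (φ ψ : F →ₐ[K] F') (hfin : FiniteAlong K φ) (f : F) : Polynomial F :=
  letI := algebraAlong φ
  haveI : Module.Finite F F' := hfin
  LinearMap.charpoly (Algebra.lmul F F' (ψ f))

theorem charpolyAlong_def (φ ψ : F →ₐ[K] F') (hfin : FiniteAlong K φ) (f : F) :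
    charpolyAlong φ ψ hfin f =
      (letI := algebraAlong φ
       haveI : Module.Finite F F' := hfin
       LinearMap.charpoly (Algebra.lmul F F' (ψ f))) := rfl

/-- The characteristic polynomial along `φ` through a full set of embeddings. -/
theorem charpolyAlong_map_eq_prod (φ ψ : F →ₐ[K] F') (hfin : FiniteAlong K φ) {n : ℕ}
    (hn : finrankAlong K φ = n) {Ω : Type*} [Field Ω] (ι : F →+* Ω) (σ : Fin n → (F' →+* Ω))
    (hσ : ∀ i (a : F), σ i (φ a) = ι a) (hinj : Function.Injective σ) (f : F) :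
    (charpolyAlong φ ψ hfin f).map ι = ∏ i, (X - C (σ i (ψ f))) := by
  let _ := algebraAlong φ
  have : Module.Finite F F' := hfin
  exact Fermat.Agent.ES.KRON.CharpolyEmb11.charpoly_map_eq_prod_embs (E := F) (L := F') hn ι σ hσ
    hinj (ψ f)

end Generic

/-- `d · γ(M z) = γ'(k z)` from four entry relations (up to a common factor `c`). -/
theorem jFun_scaleH_smul_scaleH (γ : SL(2, ℤ)) (d M k : ℕ) [NeZero d] [NeZero M] [NeZero k]
    (c A B C D : ℤ) (hc : c ≠ 0) (hdet : A * D - B * C = 1)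
    (h1 : (d : ℤ) * γ 0 0 * M = c * A * k) (h2 : (d : ℤ) * γ 0 1 = c * B)
    (h3 : γ 1 0 * M = c * C * k) (h4 : γ 1 1 = c * D) (z : ℍ) :
    jFun (scaleH d (γ • scaleH M z)) = jFun (scaleH k z) := by
  set γ' : SL(2, ℤ) := ⟨!![A, B; C, D], by rw [Matrix.det_fin_two_of]; exact hdet⟩ with hγ'
  have key : scaleH d (γ • scaleH M z) = γ' • scaleH k z := by
    apply UpperHalfPlane.ext
    rw [coe_scaleH, Hermite.coe_smul', Hermite.coe_smul', coe_scaleH, coe_scaleH]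
    have hden := Hermite.denom_ne_zero' γ (scaleH M z)
    have hden' := Hermite.denom_ne_zero' γ' (scaleH k z)
    rw [coe_scaleH] at hden hden'
    have g00 : γ' 0 0 = A := rfl
    have g01 : γ' 0 1 = B := rfl
    have g10 : γ' 1 0 = C := rfl
    have g11 : γ' 1 1 = D := rfl
    rw [g10, g11] at hden'
    rw [g00, g01, g10, g11]
    have hcC : (c : ℂ) ≠ 0 := by exact_mod_cast hc
    have e1 : ((d : ℤ) : ℂ) * ((γ 0 0 : ℤ) : ℂ) * ((M : ℤ) : ℂ) = (c : ℂ) * (A : ℂ) * ((k : ℤ) : ℂ) := by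
      exact_mod_cast congrArg (Int.cast : ℤ → ℂ) h1
    have e2 : ((d : ℤ) : ℂ) * ((γ 0 1 : ℤ) : ℂ) = (c : ℂ) * (B : ℂ) := by
      exact_mod_cast congrArg (Int.cast : ℤ → ℂ) h2
    have e3 : ((γ 1 0 : ℤ) : ℂ) * ((M : ℤ) : ℂ) = (c : ℂ) * (C : ℂ) * ((k : ℤ) : ℂ) := by
      exact_mod_cast congrArg (Int.cast : ℤ → ℂ) h3
    have e4 : ((γ 1 1 : ℤ) : ℂ) = (c : ℂ) * (D : ℂ) := by
      exact_mod_cast congrArg (Int.cast : ℤ → ℂ) h4
    simp only [Int.cast_natCast] at e1 e2 e3 e4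
    have hnum : (d : ℂ) * (((γ 0 0 : ℤ) : ℂ) * ((M : ℂ) * z) + ((γ 0 1 : ℤ) : ℂ)) =
        (c : ℂ) * ((A : ℂ) * ((k : ℂ) * z) + (B : ℂ)) := by
      linear_combination (z : ℂ) * e1 + e2
    have hdenom : ((γ 1 0 : ℤ) : ℂ) * ((M : ℂ) * z) + ((γ 1 1 : ℤ) : ℂ) =
        (c : ℂ) * ((C : ℂ) * ((k : ℂ) * z) + (D : ℂ)) := by
      linear_combination (z : ℂ) * e3 + e4
    rw [← mul_div_assoc, hnum, hdenom, mul_div_mul_left _ _ hcC]
  rw [key, jFun_smul]


/-- The cusp expansion of `j_d` along `γ`, from the four entry relations. -/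
theorem T_jdF_of_rel (M d k : ℕ) [NeZero M] [NeZero d] [NeZero k] (hd : d ∣ M) (γ : SL(2, ℤ))
    (c A B C D : ℤ) (hc : c ≠ 0) (hdet : A * D - B * C = 1)
    (h1 : (d : ℤ) * γ 0 0 * M = c * A * k) (h2 : (d : ℤ) * γ 0 1 = c * B)
    (h3 : γ 1 0 * M = c * C * k) (h4 : γ 1 1 = c * D) :
    (cuspData M).T γ (jdF M d hd) = qExpand Kbar k jqK := by
  have hq : HasQExp (toC ((jdF M d hd : FF M) : LaurentSeries Kbar)) (jdFun d) :=
    hasQExp_jd d
  have hT : IntgQN M (compSL (jdFun d) γ) (toC (qExpand Kbar k jqK)) := by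
    unfold IntgQN
    have hfun : (fun z => compSL (jdFun d) γ (scaleH M z)) = jdFun k := by
      funext z
      show jFun (scaleH d (γ • scaleH M z)) = jFun (scaleH k z)
      exact jFun_scaleH_smul_scaleH γ d M k c A B C D hc hdet h1 h2 h3 h4 z
    rw [hfun]
    exact hasQExp_qExpand_jqK k
  exact Fermat.Agent.RED.BASE.TGen19.T_eq_of_mem (jdF M d hd).2 hq γ _ hT

section Gamma0

variable (N ℓ : ℕ) [NeZero N] [NeZero ℓ] (u v : ℤ) (huv : u * (ℓ : ℤ) ^ 2 + v * (N : ℤ) = 1)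

/-- The matrix `γ₀ = (ℓ, -v; N, ℓ u)` (the cusp `ℓ / N` of `X₀(N ℓ)`). -/
def gam0 : SL(2, ℤ) :=
  ⟨!![(ℓ : ℤ), -v; (N : ℤ), (ℓ : ℤ) * u], by rw [Matrix.det_fin_two_of]; linear_combination huv⟩

theorem gam0_00 : gam0 N ℓ u v huv 0 0 = (ℓ : ℤ) := rfl
theorem gam0_01 : gam0 N ℓ u v huv 0 1 = -v := rfl
theorem gam0_10 : gam0 N ℓ u v huv 1 0 = (N : ℤ) := rfl
theorem gam0_11 : gam0 N ℓ u v huv 1 1 = (ℓ : ℤ) * u := rfl

/-- `T γ₀ (j_{dℓ}) = j(q^{dN})` for `d ∣ N`. -/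
theorem T_gam0_jdF_mul (d k : ℕ) [NeZero d] (hN : N = d * k) (hd : d * ℓ ∣ N * ℓ) :
    (cuspData (N * ℓ)).T (gam0 N ℓ u v huv) (jdF (N * ℓ) (d * ℓ) hd) =
      qExpand Kbar (d * N) jqK := by
  have hℓ0 : (ℓ : ℤ) ≠ 0 := by exact_mod_cast NeZero.ne ℓ
  have hNk : (N : ℤ) = (d : ℤ) * (k : ℤ) := by exact_mod_cast hN
  refine T_jdF_of_rel (N * ℓ) (d * ℓ) (d * N) hd _ (ℓ : ℤ) ((ℓ : ℤ) ^ 2) ((d : ℤ) * -v) (k : ℤ) u
    hℓ0 ?_ ?_ ?_ ?_ ?_
  · rw [← huv, hNk]; ring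
  · rw [gam0_00]; push_cast; ring
  · rw [gam0_01]; push_cast; ring
  · rw [gam0_10]; push_cast; rw [hNk]; ring
  · rw [gam0_11]

/-- `T γ₀ (j_d) = j(q^{dNℓ})` for `d ∣ N`. -/
theorem T_gam0_jdF (d k : ℕ) [NeZero d] (hN : N = d * k) (hd : d ∣ N * ℓ) :
    (cuspData (N * ℓ)).T (gam0 N ℓ u v huv) (jdF (N * ℓ) d hd) =
      qExpand Kbar (d * N * ℓ) jqK := by
  have hNk : (N : ℤ) = (d : ℤ) * (k : ℤ) := by exact_mod_cast hN
  refine T_jdF_of_rel (N * ℓ) d (d * N * ℓ) hd _ 1 (ℓ : ℤ) ((d : ℤ) * -v) (k : ℤ) ((ℓ : ℤ) * u)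
    one_ne_zero ?_ ?_ ?_ ?_ ?_
  · rw [← huv, hNk]; ring
  · rw [gam0_00]; push_cast; ring
  · rw [gam0_01]; ring
  · rw [gam0_10]; push_cast; rw [hNk]; ring
  · rw [gam0_11]; ring


/-- The divisors of `N ℓ` (`ℓ ∤ N` prime) are the `d` and the `d ℓ`, `d ∣ N`. -/
theorem dvd_mul_prime_cases (hℓ : ℓ.Prime) {d' : ℕ} (hd' : d' ∣ N * ℓ) :
    d' ∣ N ∨ ∃ d, d ∣ N ∧ d' = d * ℓ := by
  by_cases h : ℓ ∣ d'
  · obtain ⟨d, rfl⟩ := h
    right
    refine ⟨d, ?_, mul_comm _ _⟩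
    rw [mul_comm ℓ d] at hd'
    exact Nat.dvd_of_mul_dvd_mul_right hℓ.pos hd'
  · left
    have hcop : Nat.Coprime d' ℓ := ((Nat.Prime.coprime_iff_not_dvd hℓ).mpr h).symm
    exact hcop.dvd_of_dvd_mul_right hd'

/-- all `T γ₀ x` are series in `q^N`. -/
theorem T_gam0_mem_range (hℓ : ℓ.Prime) (x : FF (N * ℓ)) :
    (cuspData (N * ℓ)).T (gam0 N ℓ u v huv) x ∈ (qExpand Kbar N).range := by
  set τ : FF (N * ℓ) →+* LaurentSeries Kbar := (cuspData (N * ℓ)).T (gam0 N ℓ u v huv) with hτ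
  have hR : ∀ y : FF (N * ℓ), y ∈ Rsub (N * ℓ) → τ y ∈ (qExpand Kbar N).fieldRange := by
    intro y hy
    unfold Rsub at hy
    induction hy using Algebra.adjoin_induction with
    | mem y hy =>
        obtain ⟨d', hd0, hd', rfl⟩ := hy
        rcases dvd_mul_prime_cases N ℓ hℓ hd' with hdN | ⟨d, hdN, rfl⟩
        · obtain ⟨k, hk⟩ := hdN
          rw [hτ, T_gam0_jdF N ℓ u v huv d' k hk hd', RingHom.mem_fieldRange]
          refine ⟨qExpand Kbar (d' * ℓ) jqK, ?_⟩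
          rw [qExpand_qExpand]
          exact qExpand_congr (by ring) jqK
        · obtain ⟨k, hk⟩ := hdN
          have hd0' : NeZero d := ⟨fun h0 => NeZero.ne N (by rw [hk, h0, zero_mul])⟩
          rw [hτ, T_gam0_jdF_mul N ℓ u v huv d k hk hd', RingHom.mem_fieldRange]
          refine ⟨qExpand Kbar d jqK, ?_⟩
          rw [qExpand_qExpand]
          exact qExpand_congr (mul_comm N d) jqK
    | algebraMap c =>
        rw [hτ, CuspGood.map_const, RingHom.mem_fieldRange]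
        exact ⟨HahnSeries.C c, qExpand_C N c⟩
    | add x y _ _ hx hy => rw [map_add]; exact add_mem hx hy
    | mul x y _ _ hx hy => rw [map_mul]; exact mul_mem hx hy
  obtain ⟨r, s, -, rfl⟩ := FracR.exists_div_ne_zero (N * ℓ) x
  rw [map_div₀]
  have := div_mem (hR _ r.2) (hR _ s.2)
  rwa [RingHom.mem_fieldRange] at this


/-- `ℚbar((s)) ≃ range (s ↦ q^N)`. -/
def qEquivN : LaurentSeries Kbar ≃+* (qExpand Kbar N).range :=
  RingEquiv.ofBijective (qExpand Kbar N).rangeRestrict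
    ⟨fun _ _ h => qExpand_injective _ (congrArg Subtype.val h),
      (qExpand Kbar N).rangeRestrict_surjective⟩

/-- **The Atkin–Lehner type embedding** `W : F̄_{Nℓ} → ℚbar((q))`: the compressed expansion at the
cusp `ℓ / N`. -/
def Wemb (hℓ : ℓ.Prime) : FF (N * ℓ) →+* LaurentSeries Kbar :=
  ((qEquivN N).symm : _ →+* LaurentSeries Kbar).comp
    (((cuspData (N * ℓ)).T (gam0 N ℓ u v huv)).codRestrict (qExpand Kbar N).range
      (T_gam0_mem_range N ℓ u v huv hℓ))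

theorem qExpand_Wemb (hℓ : ℓ.Prime) (x : FF (N * ℓ)) :
    qExpand Kbar N (Wemb N ℓ u v huv hℓ x) = (cuspData (N * ℓ)).T (gam0 N ℓ u v huv) x := by
  have h : (qEquivN N) (Wemb N ℓ u v huv hℓ x) =
      (((cuspData (N * ℓ)).T (gam0 N ℓ u v huv)).codRestrict (qExpand Kbar N).range
        (T_gam0_mem_range N ℓ u v huv hℓ)) x := by
    rw [Wemb, RingHom.comp_apply]
    exact (qEquivN N).apply_symm_apply _
  exact congrArg Subtype.val h

/-- the series of `j_d`. -/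
theorem coe_jdF_eq (M d : ℕ) [NeZero M] [NeZero d] (hd : d ∣ M) :
    ((jdF M d hd : FF M) : LaurentSeries Kbar) = qExpand Kbar d jqK := by
  rw [FracR.coe_jdF]
  unfold coeffEmb jqK
  rw [ModularCurve.coeffMap_qExpand]
  rfl

/-- `β (j_d) = j_{dℓ}`. -/
theorem beta_jdF (d : ℕ) [NeZero d] (hd : d ∣ N) (hd' : d * ℓ ∣ N * ℓ) :
    heckeBetaBar Kbar N ℓ (jdF N d hd) = jdF (N * ℓ) (d * ℓ) hd' := by
  apply Subtype.ext
  rw [coe_heckeBetaBar, coe_jdF_eq, coe_jdF_eq, qExpand_qExpand]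
  exact qExpand_congr (mul_comm ℓ d) jqK

/-- `α (j_d) = j_d`. -/
theorem alpha_jdF (d : ℕ) [NeZero d] (hd : d ∣ N) (hd' : d ∣ N * ℓ) :
    heckeAlphaBar Kbar N ℓ (jdF N d hd) = jdF (N * ℓ) d hd' := by
  apply Subtype.ext
  rw [coe_heckeAlphaBar, coe_jdF_eq, coe_jdF_eq]

/-- `T γ₀ ∘ β = qExpand N` on `F̄_N`. -/
theorem T_gam0_beta (h : FF N) :
    (cuspData (N * ℓ)).T (gam0 N ℓ u v huv) (heckeBetaBar Kbar N ℓ h) =
      qExpand Kbar N (h : LaurentSeries Kbar) := by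
  have key : ((cuspData (N * ℓ)).T (gam0 N ℓ u v huv)).comp (heckeBetaBar Kbar N ℓ).toRingHom =
      (qExpand Kbar N).comp (algebraMap (FF N) (LaurentSeries Kbar)) := by
    apply CuspEquiv.ringHom_ext_Rsub
    intro r
    induction r using FracR.Rsub_induction with
    | hgen d hd =>
        obtain ⟨k, hk⟩ := hd
        have hd' : d * ℓ ∣ N * ℓ := Nat.mul_dvd_mul_right ⟨k, hk⟩ ℓ
        rw [RingHom.comp_apply, RingHom.comp_apply, FracR.coe_jdR]
        show (cuspData (N * ℓ)).T (gam0 N ℓ u v huv) (heckeBetaBar Kbar N ℓ (jdF N d ⟨k, hk⟩)) =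
          qExpand Kbar N ((jdF N d ⟨k, hk⟩ : FF N) : LaurentSeries Kbar)
        rw [beta_jdF N ℓ d ⟨k, hk⟩ hd', T_gam0_jdF_mul N ℓ u v huv d k hk hd', coe_jdF_eq,
          qExpand_qExpand]
        exact qExpand_congr (mul_comm d N) jqK
    | hconst c =>
        rw [RingHom.comp_apply, RingHom.comp_apply]
        show (cuspData (N * ℓ)).T (gam0 N ℓ u v huv)
            (heckeBetaBar Kbar N ℓ (algebraMap Kbar (FF N) c)) =
          qExpand Kbar N ((algebraMap Kbar (FF N) c : FF N) : LaurentSeries Kbar)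
        rw [AlgHom.commutes, CuspGood.map_const]
        show HahnSeries.C c = qExpand Kbar N (algebraMap Kbar (LaurentSeries Kbar) c)
        rw [algebraMap_laurentSeries_eq_single]
        exact (qExpand_C N c).symm
    | hadd a b ha hb =>
        rw [Subalgebra.coe_add, map_add, map_add, ha, hb]
    | hmul a b ha hb =>
        rw [Subalgebra.coe_mul, map_mul, map_mul, ha, hb]
  exact congrArg (fun φ : FF N →+* LaurentSeries Kbar => φ h) key


/-- `T γ₀ ∘ α = qExpand (N ℓ)` on `F̄_N`. -/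
theorem T_gam0_alpha (f : FF N) :
    (cuspData (N * ℓ)).T (gam0 N ℓ u v huv) (heckeAlphaBar Kbar N ℓ f) =
      qExpand Kbar (N * ℓ) (f : LaurentSeries Kbar) := by
  have key : ((cuspData (N * ℓ)).T (gam0 N ℓ u v huv)).comp (heckeAlphaBar Kbar N ℓ).toRingHom =
      (qExpand Kbar (N * ℓ)).comp (algebraMap (FF N) (LaurentSeries Kbar)) := by
    apply CuspEquiv.ringHom_ext_Rsub
    intro r
    induction r using FracR.Rsub_induction with
    | hgen d hd =>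
        obtain ⟨k, hk⟩ := hd
        have hd' : d ∣ N * ℓ := Dvd.dvd.mul_right ⟨k, hk⟩ ℓ
        rw [RingHom.comp_apply, RingHom.comp_apply, FracR.coe_jdR]
        show (cuspData (N * ℓ)).T (gam0 N ℓ u v huv) (heckeAlphaBar Kbar N ℓ (jdF N d ⟨k, hk⟩)) =
          qExpand Kbar (N * ℓ) ((jdF N d ⟨k, hk⟩ : FF N) : LaurentSeries Kbar)
        rw [alpha_jdF N ℓ d ⟨k, hk⟩ hd', T_gam0_jdF N ℓ u v huv d k hk hd', coe_jdF_eq,
          qExpand_qExpand]
        exact qExpand_congr (by ring) jqK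
    | hconst c =>
        rw [RingHom.comp_apply, RingHom.comp_apply]
        show (cuspData (N * ℓ)).T (gam0 N ℓ u v huv)
            (heckeAlphaBar Kbar N ℓ (algebraMap Kbar (FF N) c)) =
          qExpand Kbar (N * ℓ) ((algebraMap Kbar (FF N) c : FF N) : LaurentSeries Kbar)
        rw [AlgHom.commutes, CuspGood.map_const]
        show HahnSeries.C c = qExpand Kbar (N * ℓ) (algebraMap Kbar (LaurentSeries Kbar) c)
        rw [algebraMap_laurentSeries_eq_single]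
        exact (qExpand_C (N * ℓ) c).symm
    | hadd a b ha hb =>
        rw [Subalgebra.coe_add, map_add, map_add, ha, hb]
    | hmul a b ha hb =>
        rw [Subalgebra.coe_mul, map_mul, map_mul, ha, hb]
  exact congrArg (fun φ : FF N →+* LaurentSeries Kbar => φ f) key

/-- `W ∘ β = id` (as series). -/
theorem Wemb_beta (hℓ : ℓ.Prime) (h : FF N) :
    Wemb N ℓ u v huv hℓ (heckeBetaBar Kbar N ℓ h) = (h : LaurentSeries Kbar) := by
  apply qExpand_injective (R := Kbar) (N := N)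
  rw [qExpand_Wemb, T_gam0_beta]

/-- `W ∘ α = (q ↦ q^ℓ)`. -/
theorem Wemb_alpha (hℓ : ℓ.Prime) (f : FF N) :
    Wemb N ℓ u v huv hℓ (heckeAlphaBar Kbar N ℓ f) = qExpand Kbar ℓ (f : LaurentSeries Kbar) := by
  apply qExpand_injective (R := Kbar) (N := N)
  rw [qExpand_Wemb, T_gam0_alpha, qExpand_qExpand]

end Gamma0


section Main

variable (N ℓ : ℕ) [NeZero N] [NeZero ℓ]

/-- **(W)** the embedding `W : F̄_{Nℓ} → ℚbar((q))` with `W ∘ β = id`, `W ∘ α = (q ↦ q^ℓ)`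
(Atkin–Lehner at `ℓ`, through the cusp `ℓ / N`). -/
theorem exists_W (hℓ : ℓ.Prime) (hℓN : ¬ ℓ ∣ N) :
    ∃ W : FF (N * ℓ) →+* LaurentSeries Kbar,
      (∀ h : FF N, W (heckeBetaBar Kbar N ℓ h) = (h : LaurentSeries Kbar)) ∧
      (∀ f : FF N, W (heckeAlphaBar Kbar N ℓ f) = qExpand Kbar ℓ (f : LaurentSeries Kbar)) := by
  have hcop : IsCoprime ((ℓ : ℤ) ^ 2) (N : ℤ) := by
    have h1 : Nat.Coprime ℓ N := (Nat.Prime.coprime_iff_not_dvd hℓ).mpr hℓN
    have h2 : Nat.Coprime (ℓ ^ 2) N := Nat.Coprime.pow_left 2 h1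
    have := Nat.isCoprime_iff_coprime.mpr h2
    push_cast at this
    exact this
  obtain ⟨u, v, huv⟩ := hcop
  exact ⟨Wemb N ℓ u v huv hℓ, Wemb_beta N ℓ u v huv hℓ, Wemb_alpha N ℓ u v huv hℓ⟩

/-- **(E∞)** the conjugate "at infinity": `σ_∞ ∘ β = (q ↦ q^ℓ)`, `σ_∞ ∘ α = (q ↦ q^{ℓ²})`. -/
theorem exists_emb_infty (hℓ : ℓ.Prime) (hℓN : ¬ ℓ ∣ N) :
    ∃ σ : FF (N * ℓ) →+* LaurentSeries Kbar,
      (∀ h : FF N, σ (heckeBetaBar Kbar N ℓ h) = qExpand Kbar ℓ (h : LaurentSeries Kbar)) ∧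
      (∀ f : FF N, σ (heckeAlphaBar Kbar N ℓ f) =
        qExpand Kbar (ℓ ^ 2) (f : LaurentSeries Kbar)) := by
  obtain ⟨W, hβ, hα⟩ := exists_W N ℓ hℓ hℓN
  refine ⟨(qExpand Kbar ℓ).comp W, fun h => ?_, fun f => ?_⟩
  · rw [RingHom.comp_apply, hβ]
  · rw [RingHom.comp_apply, hα, qExpand_qExpand]
    exact qExpand_congr (sq ℓ).symm _

/-- **(Eb)** the `ℓ` finite conjugates `σ_b = (q ↦ ζ^b q) ∘ incl`. -/
def embTwist (ζ : Kbarˣ) (b : ℕ) : FF (N * ℓ) →+* LaurentSeries Kbar :=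
  (twistU (ζ ^ b)).comp (algebraMap (FF (N * ℓ)) (LaurentSeries Kbar))

theorem embTwist_apply (ζ : Kbarˣ) (b : ℕ) (x : FF (N * ℓ)) :
    embTwist N ℓ ζ b x = twistU (ζ ^ b) (x : LaurentSeries Kbar) := rfl

theorem embTwist_beta (ζ : Kbarˣ) (hζ : ζ ^ ℓ = 1) (b : ℕ) (h : FF N) :
    embTwist N ℓ ζ b (heckeBetaBar Kbar N ℓ h) = qExpand Kbar ℓ (h : LaurentSeries Kbar) := by
  rw [embTwist_apply, coe_heckeBetaBar]
  exact twistU_qExpand ℓ _ (by rw [← pow_mul, mul_comm, pow_mul, hζ, one_pow]) _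

theorem embTwist_alpha (ζ : Kbarˣ) (b : ℕ) (f : FF N) :
    embTwist N ℓ ζ b (heckeAlphaBar Kbar N ℓ f) = twistU (ζ ^ b) (f : LaurentSeries Kbar) := by
  rw [embTwist_apply, coe_heckeAlphaBar]


/-- the coefficient at `q⁻¹` of `σ_b (α j)` is `ζ^{-b}`. -/
theorem embTwist_alpha_jF_coeff (ζ : Kbarˣ) (b : ℕ) :
    (embTwist N ℓ ζ b (heckeAlphaBar Kbar N ℓ (jF N))).coeff (-1) =
      (((ζ ^ b) ^ (-1 : ℤ) : Kbarˣ) : Kbar) := by
  rw [embTwist_alpha, Fermat.Agent.X0.coe_jF, twistU_coeff, Fermat.Agent.X0.coeff_jqK_neg_one, mul_one]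

/-- **(POLY)** the characteristic polynomial of `α f` over `β (F̄_N)`, read in `ℚbar((q))` through
`q ↦ q^ℓ`, is the Kronecker product `∏_b (Y - f(ζ^b q)) · (Y - f(q^{ℓ²}))`. -/
theorem charpolyAlong_map_of_val (hℓ : ℓ.Prime) (hℓN : ¬ ℓ ∣ N) (ζ : Kbarˣ)
    (hζ : IsPrimitiveRoot ζ ℓ) (val : FF N →+* LaurentSeries Kbar)
    (hval : ∀ x : FF N, val x = (x : LaurentSeries Kbar))
    (hfin : FiniteAlong Kbar (heckeBetaBar Kbar N ℓ)) (f : FF N) :
    ((charpolyAlong (heckeBetaBar Kbar N ℓ) (heckeAlphaBar Kbar N ℓ) hfin f).map val).map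
        (qExpand Kbar ℓ) = kronProd ℓ ζ (f : LaurentSeries Kbar) := by
  have hn : finrankAlong Kbar (heckeBetaBar Kbar N ℓ) = ℓ + 1 :=
    Fermat.Agent.ES.HECKE.AlongDegree25.finrankAlong_beta Kbar N ℓ hℓ hℓN
  obtain ⟨σ', hσβ, hσα⟩ := exists_emb_infty N ℓ hℓ hℓN
  have hζℓ : ζ ^ ℓ = 1 := hζ.pow_eq_one
  set σ : Fin (ℓ + 1) → (FF (N * ℓ) →+* LaurentSeries Kbar) :=
    fun i => if (i : ℕ) < ℓ then embTwist N ℓ ζ (i : ℕ) else σ' with hσdef
  have hσlt : ∀ i : Fin (ℓ + 1), (i : ℕ) < ℓ → σ i = embTwist N ℓ ζ (i : ℕ) := by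
    intro i hi
    simp only [hσdef, if_pos hi]
  have hσge : ∀ i : Fin (ℓ + 1), ¬ (i : ℕ) < ℓ → σ i = σ' := by
    intro i hi
    simp only [hσdef, if_neg hi]
  have hσ : ∀ (i : Fin (ℓ + 1)) (a : FF N),
      σ i (heckeBetaBar Kbar N ℓ a) = ((qExpand Kbar ℓ).comp val) a := by
    intro i a
    rw [RingHom.comp_apply, hval]
    by_cases hi : (i : ℕ) < ℓ
    · rw [hσlt i hi, embTwist_beta N ℓ ζ hζℓ]
    · rw [hσge i hi, hσβ]
  have hℓ2 : ¬ ((ℓ ^ 2 : ℕ) : ℤ) ∣ (-1 : ℤ) := by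
    intro h
    have h1 : ((ℓ ^ 2 : ℕ) : ℤ) ∣ 1 := (dvd_neg).mp h
    have h2 : (ℓ ^ 2 : ℕ) ∣ 1 := by exact_mod_cast h1
    have h3 : ℓ ^ 2 = 1 := Nat.dvd_one.mp h2
    have h4 : ℓ = 1 := by
      rcases Nat.pow_eq_one.mp h3 with h | h
      · exact h
      · exact absurd h (by norm_num)
    exact hℓ.one_lt.ne' h4
  have hcoeff' : (σ' (heckeAlphaBar Kbar N ℓ (jF N))).coeff (-1) = 0 := by
    rw [hσα]
    exact qExpand_coeff_of_not_dvd (ℓ ^ 2) _ hℓ2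
  have hinj : Function.Injective σ := by
    intro i j hij
    have hval' : (σ i (heckeAlphaBar Kbar N ℓ (jF N))).coeff (-1) =
        (σ j (heckeAlphaBar Kbar N ℓ (jF N))).coeff (-1) := by rw [hij]
    by_cases hi : (i : ℕ) < ℓ <;> by_cases hj : (j : ℕ) < ℓ
    · rw [hσlt i hi, hσlt j hj, embTwist_alpha_jF_coeff, embTwist_alpha_jF_coeff] at hval'
      have h1 : (ζ ^ (i : ℕ)) ^ (-1 : ℤ) = (ζ ^ (j : ℕ)) ^ (-1 : ℤ) := Units.ext hval'
      have h2 : ζ ^ (i : ℕ) = ζ ^ (j : ℕ) := by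
        rw [zpow_neg_one, zpow_neg_one] at h1
        exact inv_injective h1
      exact Fin.ext (hζ.pow_inj hi hj h2)
    · rw [hσlt i hi, hσge j hj, embTwist_alpha_jF_coeff, hcoeff'] at hval'
      exact absurd hval' (Units.ne_zero _)
    · rw [hσge i hi, hσlt j hj, embTwist_alpha_jF_coeff, hcoeff'] at hval'
      exact absurd hval'.symm (Units.ne_zero _)
    · have hi' : (i : ℕ) = ℓ := le_antisymm (Nat.lt_succ_iff.mp i.isLt) (not_lt.mp hi)
      have hj' : (j : ℕ) = ℓ := le_antisymm (Nat.lt_succ_iff.mp j.isLt) (not_lt.mp hj)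
      exact Fin.ext (hi'.trans hj'.symm)
  rw [Polynomial.map_map,
    charpolyAlong_map_eq_prod (heckeBetaBar Kbar N ℓ) (heckeAlphaBar Kbar N ℓ) hfin hn
      ((qExpand Kbar ℓ).comp val) σ hσ hinj f,
    Fin.prod_univ_castSucc, kronProd]
  congr 1
  · rw [← Fin.prod_univ_eq_prod_range (fun b => X - Polynomial.C (twistU (ζ ^ b)
      (f : LaurentSeries Kbar))) ℓ]
    refine Finset.prod_congr rfl fun i _ => ?_
    have hi : ((Fin.castSucc i : Fin (ℓ + 1)) : ℕ) < ℓ := by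
      rw [Fin.val_castSucc]
      exact i.isLt
    rw [hσlt _ hi, embTwist_alpha, Fin.val_castSucc]
  · have hl : ¬ ((Fin.last ℓ : Fin (ℓ + 1)) : ℕ) < ℓ := by
      rw [Fin.val_last]
      exact lt_irrefl ℓ
    rw [hσge _ hl, hσα]

/-- (POLY) with `val := algebraMap` and the finiteness proof of `AlongDegree25`. -/
theorem charpolyAlong_map (hℓ : ℓ.Prime) (hℓN : ¬ ℓ ∣ N) (ζ : Kbarˣ)
    (hζ : IsPrimitiveRoot ζ ℓ) (f : FF N) :
    ((charpolyAlong (heckeBetaBar Kbar N ℓ) (heckeAlphaBar Kbar N ℓ)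
        (Fermat.Agent.ES.HECKE.AlongDegree25.finiteAlong_beta Kbar N ℓ hℓ hℓN) f).map
        (algebraMap (FF N) (LaurentSeries Kbar))).map (qExpand Kbar ℓ) =
      kronProd ℓ ζ (f : LaurentSeries Kbar) :=
  charpolyAlong_map_of_val N ℓ hℓ hℓN ζ hζ (algebraMap (FF N) (LaurentSeries Kbar))
    (fun _ => rfl) _ f

/-- (POLY) with the primitivity hypothesis on the element `(ζ : ℚbar)`. -/
theorem charpolyAlong_map_of_val' (hℓ : ℓ.Prime) (hℓN : ¬ ℓ ∣ N) (ζ : Kbarˣ)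
    (hζ : IsPrimitiveRoot (ζ : Kbar) ℓ) (val : FF N →+* LaurentSeries Kbar)
    (hval : ∀ x : FF N, val x = (x : LaurentSeries Kbar))
    (hfin : FiniteAlong Kbar (heckeBetaBar Kbar N ℓ)) (f : FF N) :
    ((charpolyAlong (heckeBetaBar Kbar N ℓ) (heckeAlphaBar Kbar N ℓ) hfin f).map val).map
        (qExpand Kbar ℓ) = kronProd ℓ ζ (f : LaurentSeries Kbar) :=
  charpolyAlong_map_of_val N ℓ hℓ hℓN ζ (IsPrimitiveRoot.coe_units_iff.mp hζ) val hval hfin f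

end Main

end Fermat.Agent.ES.KRON.Conjugates11
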