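/-
Program I (S37), chapter ES/KRON, helper10: "Kronecker at `Y = 0`" (design `I_RED_DESIGN8.md` §4 (2)):
the norm product `normProd l ζ y = ∏_{b<l} y(ζ^b q) · y(q^{l²})` (the constant coefficient of
`KronCong24.kronProd`, up to the sign `(-1)^(l+1)`).

* `normProd_map`, `normProd_char` (characteristic `l`: `= (y^φ · (y^ψ)^l)(q^l)`), `kronProd_coeff_zero`;
* `norm_descent` / `norm_descent_sign` : if `Nn(q^l) = (±) normProd` after an injective coefficient
  extension `ι : R → K`, then `Nn` has coefficients in `R` and reduces (mod `res : R → k`) to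
  `(±) ȳ^φ · (ȳ^ψ)^l`;  `frob_mul_pow_ne_zero` (nonvanishing of the reduction);
* `norm_inst` / `norm_inst_sign` : the same at a valuation subring `A` (over `ℓ`) of an algebraically closed
  field `L` (`ι = A.subtype`, `res = residue A`, `ψ` = inverse Frobenius of the residue field).
With helper11's (H4)-NORM `qExpand Qbar ℓ (N_α(β f)) = ± normProd ℓ ζ f` this gives
`N_α(β f) ∈ gaussA`, `redA (N_α(β f)) = ± f̃^φ · (f̃^ψ)^ℓ`.
-/
import Mathlib
import Fermat.Agent.ES.KRON.KronCong24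
import Fermat.Agent.ES.KRON.KronInst10

set_option autoImplicit false
set_option linter.style.haveILetI false

open HahnSeries Polynomial ModularCurve

noncomputable section

namespace Fermat.Agent.ES.KRON.KronNorm10

open Fermat.Agent.ES.KRON.KronCong24 Fermat.Agent.ES.KRON.KronInst10

section Generic

variable {R : Type*} [CommRing R]

/-- The norm product `∏_{b<l} y(ζ^b q) · y(q^{l²})`. -/
def normProd (l : ℕ) [NeZero l] (ζ : Rˣ) (y : LaurentSeries R) : LaurentSeries R :=
  (∏ b ∈ Finset.range l, twistU (ζ ^ b) y) * qExpand R (l ^ 2) y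

theorem normProd_map {S : Type*} [CommRing S] (φ : R →+* S) (l : ℕ) [NeZero l] (ζ : Rˣ)
    (y : LaurentSeries R) :
    coeffMap φ (normProd l ζ y) = normProd l (Units.map (φ : R →* S) ζ) (coeffMap φ y) := by
  unfold normProd
  rw [map_mul, map_prod, coeffMap_qExpand]
  congr 1
  refine Finset.prod_congr rfl fun b _ => ?_
  rw [coeffMap_twistU, map_pow]

variable {k : Type*} [Field k] (l : ℕ) [hl : Fact l.Prime] [CharP k l]

/-- In characteristic `l`: `∏_b y(ζ^b q) · y(q^{l²}) = (y^φ · (y^ψ)^l)(q^l)`. -/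
theorem normProd_char (ψ : k →+* k) (hψ : ∀ a, ψ a ^ l = a) (ζ : kˣ) (hζ : ζ ^ l = 1)
    (x : LaurentSeries k) :
    haveI : NeZero l := ⟨hl.out.ne_zero⟩
    normProd l ζ x = qExpand k l (coeffMap (frobenius k l) x * (coeffMap ψ x) ^ l) := by
  haveI : NeZero l := ⟨hl.out.ne_zero⟩
  have hζ1 : ζ = 1 := by
    apply Units.ext
    apply eq_one_of_pow_char_eq_one l
    rw [← Units.val_pow_eq_pow_val, hζ, Units.val_one]
  subst hζ1
  unfold normProd
  rw [map_mul, map_pow, ← qExpand_sq_eq_pow l ψ hψ, ← pow_char]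
  congr 1
  simp only [one_pow, twistU_one, Finset.prod_const, Finset.card_range]

/-- **Kronecker at `Y = 0`, descent form.**  If the norm product of `y` (after the injective
coefficient extension `ι`) is `Nn(q^l)`, then `Nn` has coefficients in `R` and reduces to
`ȳ^φ · (ȳ^ψ)^l`. -/
theorem norm_descent {K : Type*} [CommRing K] (ι : R →+* K) (hι : Function.Injective ι)
    (res : R →+* k) (ψ : k →+* k) (hψ : ∀ a, ψ a ^ l = a)
    (ζ : Rˣ) (hζ : ζ ^ l = 1) (y : LaurentSeries R) (Nn : LaurentSeries K) :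
    haveI : NeZero l := ⟨hl.out.ne_zero⟩
    qExpand K l Nn = coeffMap ι (normProd l ζ y) →
    ∃ NR : LaurentSeries R, qExpand R l NR = normProd l ζ y ∧ coeffMap ι NR = Nn ∧
      coeffMap res NR =
        coeffMap (frobenius k l) (coeffMap res y) * (coeffMap ψ (coeffMap res y)) ^ l := by
  haveI : NeZero l := ⟨hl.out.ne_zero⟩
  intro hN
  obtain ⟨z, hz⟩ := mem_range_qExpand_of_coeffMap ι hι l (normProd l ζ y) Nn hN.symm
  refine ⟨z, hz, ?_, ?_⟩
  · apply qExpand_injective (R := K) l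
    rw [hN, ← hz, coeffMap_qExpand]
  · apply qExpand_injective (R := k) l
    rw [← coeffMap_qExpand, hz, normProd_map]
    exact normProd_char l ψ hψ _ (by rw [← map_pow, hζ, map_one]) _

/-- Signed variant of `norm_descent` (the constant coefficient of `kronProd` carries the sign
`(-1)^(l+1)`). -/
theorem norm_descent_sign {K : Type*} [CommRing K] (ι : R →+* K) (hι : Function.Injective ι)
    (res : R →+* k) (ψ : k →+* k) (hψ : ∀ a, ψ a ^ l = a)
    (ζ : Rˣ) (hζ : ζ ^ l = 1) (y : LaurentSeries R) (Nn : LaurentSeries K) :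
    haveI : NeZero l := ⟨hl.out.ne_zero⟩
    qExpand K l Nn = (-1) ^ (l + 1) * coeffMap ι (normProd l ζ y) →
    ∃ NR : LaurentSeries R, coeffMap ι NR = Nn ∧
      coeffMap res NR = (-1) ^ (l + 1) *
        (coeffMap (frobenius k l) (coeffMap res y) * (coeffMap ψ (coeffMap res y)) ^ l) := by
  haveI : NeZero l := ⟨hl.out.ne_zero⟩
  intro hN
  have hs : ((-1 : LaurentSeries K) ^ (l + 1)) * ((-1) ^ (l + 1)) = 1 := by
    rw [← _root_.pow_add, ← two_mul, pow_mul, neg_one_sq, one_pow]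
  have hN' : qExpand K l ((-1) ^ (l + 1) * Nn) = coeffMap ι (normProd l ζ y) := by
    rw [map_mul, map_pow, map_neg, map_one, hN, ← mul_assoc, hs, one_mul]
  obtain ⟨NR', -, h2, h3⟩ := norm_descent l ι hι res ψ hψ ζ hζ y _ hN'
  refine ⟨(-1) ^ (l + 1) * NR', ?_, ?_⟩
  · rw [map_mul, map_pow, map_neg, map_one, h2, ← mul_assoc, hs, one_mul]
  · rw [map_mul, map_pow, map_neg, map_one, h3]

/-- The norm product is, up to the sign `(-1)^(l+1)`, the constant coefficient of `kronProd`. -/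
theorem kronProd_coeff_zero (l' : ℕ) [NeZero l'] (ζ : Rˣ) (y : LaurentSeries R) :
    (kronProd l' ζ y).coeff 0 = (-1) ^ (l' + 1) * normProd l' ζ y := by
  unfold kronProd normProd
  rw [Polynomial.coeff_zero_eq_eval_zero, Polynomial.eval_mul, Polynomial.eval_prod]
  simp only [Polynomial.eval_sub, Polynomial.eval_X, Polynomial.eval_C, zero_sub]
  rw [Finset.prod_neg, Finset.card_range]
  generalize qExpand R (l' ^ 2) y = c
  generalize ∏ b ∈ Finset.range l', twistU (ζ ^ b) y = P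
  ring

/-- Nonvanishing of the reduced norm. -/
theorem frob_mul_pow_ne_zero (ψ : k →+* k) {x : LaurentSeries k} (hx : x ≠ 0) :
    coeffMap (frobenius k l) x * (coeffMap ψ x) ^ l ≠ 0 := by
  have h1 : coeffMap (frobenius k l) x ≠ 0 := by
    intro h0
    apply hx
    ext n
    have := congrArg (fun z => z.coeff n) h0
    simp only [coeffMap_coeff, HahnSeries.coeff_zero] at this
    exact (map_eq_zero (frobenius k l)).mp this
  have h2 : coeffMap ψ x ≠ 0 := by
    intro h0
    apply hx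
    ext n
    have := congrArg (fun z => z.coeff n) h0
    simp only [coeffMap_coeff, HahnSeries.coeff_zero] at this
    exact (map_eq_zero ψ).mp this
  exact mul_ne_zero h1 (pow_ne_zero _ h2)

end Generic

section Inst

variable {L : Type*} [Field L] [IsAlgClosed L] (A : ValuationSubring L) (ℓ : ℕ) [Fact ℓ.Prime]

/-- **Kronecker at `Y = 0` at a valuation subring `A` (over `ℓ`) of an algebraically closed field
`L`**: if `Nn(q^ℓ) = ∏_b f(ζ^b q) · f(q^{ℓ²})` over `L((q))` with `f = coeffMap A.subtype y`, then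
`Nn` has coefficients in `A` and reduces to `f̃^φ · (f̃^ψ)^ℓ`. -/
theorem norm_inst (hA : A.LiesOverPrime ℓ) (ζ : Lˣ) (hζ : ζ ^ ℓ = 1) :
    haveI := charP_residueField A (Fact.out : ℓ.Prime) hA
    haveI : NeZero ℓ := ⟨(Fact.out : ℓ.Prime).ne_zero⟩
    ∃ ψ : IsLocalRing.ResidueField A →+* IsLocalRing.ResidueField A,
      (∀ a, ψ a ^ ℓ = a) ∧ (∀ a, ψ (a ^ ℓ) = a) ∧
      ∀ (y : LaurentSeries ↥A) (Nn : LaurentSeries L),
        qExpand L ℓ Nn = normProd ℓ ζ (coeffMap A.subtype y) →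
        ∃ NR : LaurentSeries ↥A,
          coeffMap A.subtype NR = Nn ∧
          coeffMap (IsLocalRing.residue A) NR =
            coeffMap (frobenius (IsLocalRing.ResidueField A) ℓ)
                (coeffMap (IsLocalRing.residue A) y) *
              (coeffMap ψ (coeffMap (IsLocalRing.residue A) y)) ^ ℓ := by
  haveI := charP_residueField A (Fact.out : ℓ.Prime) hA
  haveI := isAlgClosed_residueField A
  haveI : NeZero ℓ := ⟨(Fact.out : ℓ.Prime).ne_zero⟩
  obtain ⟨ψ, hψ1, hψ2⟩ := exists_frobInv (k := IsLocalRing.ResidueField A) ℓ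
  refine ⟨ψ, hψ1, hψ2, fun y Nn hN => ?_⟩
  have hℓpos : 0 < ℓ := (Fact.out : ℓ.Prime).pos
  have hζL : (ζ : L) ^ ℓ = 1 := by rw [← Units.val_pow_eq_pow_val, hζ, Units.val_one]
  set ζA : (↥A)ˣ := unitOfPowEqOne A hℓpos hζL with hζA
  have hmap : Units.map ((A.subtype : ↥A →+* L) : ↥A →* L) ζA = ζ := Units.ext rfl
  have hN' : qExpand L ℓ Nn = coeffMap A.subtype (normProd ℓ ζA y) := by
    rw [normProd_map, hmap]
    exact hN
  obtain ⟨NR, -, h2, h3⟩ := norm_descent ℓ A.subtype Subtype.val_injective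
    (IsLocalRing.residue A) ψ hψ1 ζA (unitOfPowEqOne_pow A hℓpos hζL) y Nn hN'
  exact ⟨NR, h2, h3⟩

/-- Signed variant of `norm_inst`: `Nn(q^ℓ) = (-1)^(ℓ+1) ∏_b f(ζ^b q) · f(q^{ℓ²})` (i.e. `Nn(q^ℓ)` is
the constant coefficient of `kronProd ℓ ζ f`). -/
theorem norm_inst_sign (hA : A.LiesOverPrime ℓ) (ζ : Lˣ) (hζ : ζ ^ ℓ = 1) :
    haveI := charP_residueField A (Fact.out : ℓ.Prime) hA
    haveI : NeZero ℓ := ⟨(Fact.out : ℓ.Prime).ne_zero⟩
    ∃ ψ : IsLocalRing.ResidueField A →+* IsLocalRing.ResidueField A,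
      (∀ a, ψ a ^ ℓ = a) ∧ (∀ a, ψ (a ^ ℓ) = a) ∧
      ∀ (y : LaurentSeries ↥A) (Nn : LaurentSeries L),
        qExpand L ℓ Nn = (-1) ^ (ℓ + 1) * normProd ℓ ζ (coeffMap A.subtype y) →
        ∃ NR : LaurentSeries ↥A,
          coeffMap A.subtype NR = Nn ∧
          coeffMap (IsLocalRing.residue A) NR = (-1) ^ (ℓ + 1) *
            (coeffMap (frobenius (IsLocalRing.ResidueField A) ℓ)
                (coeffMap (IsLocalRing.residue A) y) *
              (coeffMap ψ (coeffMap (IsLocalRing.residue A) y)) ^ ℓ) := by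
  haveI := charP_residueField A (Fact.out : ℓ.Prime) hA
  haveI := isAlgClosed_residueField A
  haveI : NeZero ℓ := ⟨(Fact.out : ℓ.Prime).ne_zero⟩
  obtain ⟨ψ, hψ1, hψ2⟩ := exists_frobInv (k := IsLocalRing.ResidueField A) ℓ
  refine ⟨ψ, hψ1, hψ2, fun y Nn hN => ?_⟩
  have hℓpos : 0 < ℓ := (Fact.out : ℓ.Prime).pos
  have hζL : (ζ : L) ^ ℓ = 1 := by rw [← Units.val_pow_eq_pow_val, hζ, Units.val_one]
  set ζA : (↥A)ˣ := unitOfPowEqOne A hℓpos hζL with hζA
  have hmap : Units.map ((A.subtype : ↥A →+* L) : ↥A →* L) ζA = ζ := Units.ext rfl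
  have hN' : qExpand L ℓ Nn = (-1) ^ (ℓ + 1) * coeffMap A.subtype (normProd ℓ ζA y) := by
    rw [normProd_map, hmap]
    exact hN
  exact norm_descent_sign ℓ A.subtype Subtype.val_injective
    (IsLocalRing.residue A) ψ hψ1 ζA (unitOfPowEqOne_pow A hℓpos hζL) y Nn hN'

end Inst

end Fermat.Agent.ES.KRON.KronNorm10
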