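/-
Program I (S37), chapter ES/KRON, helper24: (POLY-α), the companion of helper11's (POLY).

The Prelude Hecke operator is `T_ℓ = α_* ∘ β^*` (`heckeDivBar = correspondence β α`), hence
`T_ℓ (div f) = div (N_α (β f))`: the relevant characteristic polynomial is the one of `β f` over
`α (F̄_N)`.  Its `ℓ + 1` conjugates over the base embedding `ι = (q ↦ q^ℓ)`:
`σ_∞ = (q ↦ q^ℓ) ∘ incl` (`α a ↦ a(q^ℓ)`, `β f ↦ f(q^{ℓ²})`) and
`σ_b = (q ↦ ζ^b q) ∘ W` (`α a ↦ a(q^ℓ)`, `β f ↦ f(ζ^b q)`), `W` the Atkin–Lehner embedding of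
`Conjugates11.exists_W`.  Result: the same Kronecker product
`((charpolyAlong α β hfin f).map val).map (qExpand ℓ) = kronProd ℓ ζ f`.
-/
import Mathlib
import Fermat.Agent.ES.KRON.Conjugates11
import Fermat.Agent.ES.KRON.KronNorm10
import Fermat.Agent.ES.HECKE.PointFormula28

set_option autoImplicit false
set_option linter.unusedSectionVars false

open ModularCurve UpperHalfPlane IntermediateField AlgebraicCurve Polynomial
open scoped MatrixGroups

noncomputable section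

namespace Fermat.Agent.ES.KRON.ConjAlpha24

open Fermat.Agent.X0 Fermat.Agent.X0.Analytic
open Fermat.Agent.RED.BASE.Interface12
open Fermat.Agent.RED.LVL.FrickeExp19
open Fermat.Agent.ES.KRON.KronCong24
open Fermat.Agent.ES.KRON.Conjugates11
open Fermat.Agent.ES.KRON.KronNorm10
open Fermat.Agent.ES.HECKE.PointFormula28

section Generic

variable {K F F' : Type*} [Field K] [Field F] [Field F'] [Algebra K F] [Algebra K F']

/-- The norm along `φ` is, up to sign, the constant coefficient of the characteristic polynomial. -/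
theorem normAlong_eq_coeff_zero (φ ψ : F →ₐ[K] F') (hfin : FiniteAlong K φ) (f : F) :
    normAlong φ (ψ f) = (-1) ^ finrankAlong K φ * (charpolyAlong φ ψ hfin f).coeff 0 := by
  let _ := algebraAlong φ
  have : Module.Finite F F' := hfin
  show Algebra.norm F (ψ f) = (-1) ^ Module.finrank F F' *
    (LinearMap.charpoly (Algebra.lmul F F' (ψ f))).coeff 0
  rw [Algebra.norm_apply, LinearMap.det_eq_sign_charpoly_coeff]

end Generic

variable (N ℓ : ℕ) [NeZero N] [NeZero ℓ]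

/-- **(POLY-α)** the characteristic polynomial of `β f` over `α (F̄_N)`, read in `ℚbar((q))` through
`q ↦ q^ℓ`, is the Kronecker product `∏_b (Y - f(ζ^b q)) · (Y - f(q^{ℓ²}))`. -/
theorem charpolyAlong_alpha_map_of_val (hℓ : ℓ.Prime) (hℓN : ¬ ℓ ∣ N) (ζ : Kbarˣ)
    (hζ : IsPrimitiveRoot ζ ℓ) (val : FF N →+* LaurentSeries Kbar)
    (hval : ∀ x : FF N, val x = (x : LaurentSeries Kbar))
    (hfin : FiniteAlong Kbar (heckeAlphaBar Kbar N ℓ)) (f : FF N) :
    ((charpolyAlong (heckeAlphaBar Kbar N ℓ) (heckeBetaBar Kbar N ℓ) hfin f).map val).map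
        (qExpand Kbar ℓ) = kronProd ℓ ζ (f : LaurentSeries Kbar) := by
  have hn : finrankAlong Kbar (heckeAlphaBar Kbar N ℓ) = ℓ + 1 :=
    Fermat.Agent.ES.HECKE.AlongDegree25.finrankAlong_alpha Kbar N ℓ hℓ hℓN
  obtain ⟨W, hWβ, hWα⟩ := exists_W N ℓ hℓ hℓN
  have hζℓ : ζ ^ ℓ = 1 := hζ.pow_eq_one
  set σ' : FF (N * ℓ) →+* LaurentSeries Kbar :=
    (qExpand Kbar ℓ).comp (algebraMap (FF (N * ℓ)) (LaurentSeries Kbar)) with hσ'def
  have hσ'α : ∀ a : FF N, σ' (heckeAlphaBar Kbar N ℓ a) = qExpand Kbar ℓ (a : LaurentSeries Kbar) := by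
    intro a
    show qExpand Kbar ℓ ((heckeAlphaBar Kbar N ℓ a : FF (N * ℓ)) : LaurentSeries Kbar) = _
    rw [coe_heckeAlphaBar]
  have hσ'β : ∀ g : FF N, σ' (heckeBetaBar Kbar N ℓ g) =
      qExpand Kbar (ℓ ^ 2) (g : LaurentSeries Kbar) := by
    intro g
    show qExpand Kbar ℓ ((heckeBetaBar Kbar N ℓ g : FF (N * ℓ)) : LaurentSeries Kbar) = _
    rw [coe_heckeBetaBar, qExpand_qExpand]
    exact qExpand_congr (sq ℓ).symm _
  set σ : Fin (ℓ + 1) → (FF (N * ℓ) →+* LaurentSeries Kbar) :=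
    fun i => if (i : ℕ) < ℓ then (twistU (ζ ^ (i : ℕ))).comp W else σ' with hσdef
  have hσlt : ∀ i : Fin (ℓ + 1), (i : ℕ) < ℓ → σ i = (twistU (ζ ^ (i : ℕ))).comp W := by
    intro i hi
    simp only [hσdef, if_pos hi]
  have hσge : ∀ i : Fin (ℓ + 1), ¬ (i : ℕ) < ℓ → σ i = σ' := by
    intro i hi
    simp only [hσdef, if_neg hi]
  have hσ : ∀ (i : Fin (ℓ + 1)) (a : FF N),
      σ i (heckeAlphaBar Kbar N ℓ a) = ((qExpand Kbar ℓ).comp val) a := by
    intro i a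
    rw [RingHom.comp_apply, hval]
    by_cases hi : (i : ℕ) < ℓ
    · rw [hσlt i hi, RingHom.comp_apply, hWα]
      exact twistU_qExpand ℓ _ (by rw [← pow_mul, mul_comm, pow_mul, hζℓ, one_pow]) _
    · rw [hσge i hi, hσ'α]
  have hℓ2 : ¬ ((ℓ ^ 2 : ℕ) : ℤ) ∣ (-1 : ℤ) := by
    intro h
    have h1 : ((ℓ ^ 2 : ℕ) : ℤ) ∣ 1 := (dvd_neg).mp h
    have h2 : (ℓ ^ 2 : ℕ) ∣ 1 := by exact_mod_cast h1
    have h3 : ℓ ^ 2 = 1 := Nat.dvd_one.mp h2
    have h4 : ℓ = 1 := by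
      rcases Nat.pow_eq_one.mp h3 with h | h
      · exact h
      · exact absurd h (by norm_num)
    exact hℓ.one_lt.ne' h4
  have hcoeff' : (σ' (heckeBetaBar Kbar N ℓ (jF N))).coeff (-1) = 0 := by
    rw [hσ'β]
    exact qExpand_coeff_of_not_dvd (ℓ ^ 2) _ hℓ2
  have hcoeff : ∀ b : ℕ, (((twistU (ζ ^ b)).comp W) (heckeBetaBar Kbar N ℓ (jF N))).coeff (-1) =
      (((ζ ^ b) ^ (-1 : ℤ) : Kbarˣ) : Kbar) := by
    intro b
    rw [RingHom.comp_apply, hWβ, Fermat.Agent.X0.coe_jF, twistU_coeff,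
      Fermat.Agent.X0.coeff_jqK_neg_one, mul_one]
  have hinj : Function.Injective σ := by
    intro i j hij
    have hval' : (σ i (heckeBetaBar Kbar N ℓ (jF N))).coeff (-1) =
        (σ j (heckeBetaBar Kbar N ℓ (jF N))).coeff (-1) := by rw [hij]
    by_cases hi : (i : ℕ) < ℓ <;> by_cases hj : (j : ℕ) < ℓ
    · rw [hσlt i hi, hσlt j hj, hcoeff, hcoeff] at hval'
      have h1 : (ζ ^ (i : ℕ)) ^ (-1 : ℤ) = (ζ ^ (j : ℕ)) ^ (-1 : ℤ) := Units.ext hval'
      have h2 : ζ ^ (i : ℕ) = ζ ^ (j : ℕ) := by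
        rw [zpow_neg_one, zpow_neg_one] at h1
        exact inv_injective h1
      exact Fin.ext (hζ.pow_inj hi hj h2)
    · rw [hσlt i hi, hσge j hj, hcoeff, hcoeff'] at hval'
      exact absurd hval' (Units.ne_zero _)
    · rw [hσge i hi, hσlt j hj, hcoeff, hcoeff'] at hval'
      exact absurd hval'.symm (Units.ne_zero _)
    · have hi' : (i : ℕ) = ℓ := le_antisymm (Nat.lt_succ_iff.mp i.isLt) (not_lt.mp hi)
      have hj' : (j : ℕ) = ℓ := le_antisymm (Nat.lt_succ_iff.mp j.isLt) (not_lt.mp hj)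
      exact Fin.ext (hi'.trans hj'.symm)
  rw [Polynomial.map_map,
    charpolyAlong_map_eq_prod (heckeAlphaBar Kbar N ℓ) (heckeBetaBar Kbar N ℓ) hfin hn
      ((qExpand Kbar ℓ).comp val) σ hσ hinj f,
    Fin.prod_univ_castSucc, kronProd]
  congr 1
  · rw [← Fin.prod_univ_eq_prod_range (fun b => X - Polynomial.C (twistU (ζ ^ b)
      (f : LaurentSeries Kbar))) ℓ]
    refine Finset.prod_congr rfl fun i _ => ?_
    have hi : ((Fin.castSucc i : Fin (ℓ + 1)) : ℕ) < ℓ := by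
      rw [Fin.val_castSucc]
      exact i.isLt
    rw [hσlt _ hi, RingHom.comp_apply, hWβ, Fin.val_castSucc]
  · have hl : ¬ ((Fin.last ℓ : Fin (ℓ + 1)) : ℕ) < ℓ := by
      rw [Fin.val_last]
      exact lt_irrefl ℓ
    rw [hσge _ hl, hσ'β]

/-- (POLY-α) with `val := algebraMap` and the finiteness proof of `AlongDegree25`. -/
theorem charpolyAlong_alpha_map (hℓ : ℓ.Prime) (hℓN : ¬ ℓ ∣ N) (ζ : Kbarˣ)
    (hζ : IsPrimitiveRoot ζ ℓ) (f : FF N) :
    ((charpolyAlong (heckeAlphaBar Kbar N ℓ) (heckeBetaBar Kbar N ℓ)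
        (Fermat.Agent.ES.HECKE.AlongDegree25.finiteAlong_alpha Kbar N ℓ hℓ hℓN) f).map
        (algebraMap (FF N) (LaurentSeries Kbar))).map (qExpand Kbar ℓ) =
      kronProd ℓ ζ (f : LaurentSeries Kbar) :=
  charpolyAlong_alpha_map_of_val N ℓ hℓ hℓN ζ hζ (algebraMap (FF N) (LaurentSeries Kbar))
    (fun _ => rfl) _ f

/-- **(NORM-α)**: `N_α (β f) (q^ℓ) = ∏_b f(ζ^b q) · f(q^{ℓ²})`: the `q`-expansion of the function whose
divisor is `T_ℓ (div f)`. -/
theorem qExpand_normAlong_alpha (hℓ : ℓ.Prime) (hℓN : ¬ ℓ ∣ N) (ζ : Kbarˣ)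
    (hζ : IsPrimitiveRoot ζ ℓ) (f : FF N) :
    qExpand Kbar ℓ ((normAlong (heckeAlphaBar Kbar N ℓ) (heckeBetaBar Kbar N ℓ f) : FF N) :
        LaurentSeries Kbar) = normProd ℓ ζ (f : LaurentSeries Kbar) := by
  have hfin := Fermat.Agent.ES.HECKE.AlongDegree25.finiteAlong_alpha Kbar N ℓ hℓ hℓN
  have hn : finrankAlong Kbar (heckeAlphaBar Kbar N ℓ) = ℓ + 1 :=
    Fermat.Agent.ES.HECKE.AlongDegree25.finrankAlong_alpha Kbar N ℓ hℓ hℓN
  have hpoly := charpolyAlong_alpha_map_of_val N ℓ hℓ hℓN ζ hζ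
    (algebraMap (FF N) (LaurentSeries Kbar)) (fun _ => rfl) hfin f
  have h0 := congrArg (fun p => p.coeff 0) hpoly
  simp only [Polynomial.coeff_map] at h0
  rw [kronProd_coeff_zero] at h0
  rw [normAlong_eq_coeff_zero (heckeAlphaBar Kbar N ℓ) (heckeBetaBar Kbar N ℓ) hfin f, hn]
  have hs : ((-1 : LaurentSeries Kbar) ^ (ℓ + 1)) * (-1) ^ (ℓ + 1) = 1 := by
    rw [← mul_pow, neg_one_mul, neg_neg, one_pow]
  show qExpand Kbar ℓ (algebraMap (FF N) (LaurentSeries Kbar)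
    ((-1) ^ (ℓ + 1) * (charpolyAlong (heckeAlphaBar Kbar N ℓ) (heckeBetaBar Kbar N ℓ) hfin f).coeff 0))
    = _
  rw [map_mul, map_mul, h0, map_pow, map_pow, map_neg, map_neg, map_one, map_one, ← mul_assoc, hs,
    one_mul]

end Fermat.Agent.ES.KRON.ConjAlpha24
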