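/-
Program I (S37), chapter ES/KRON, leaf (H4)-NORM, helper11: the Kronecker form of the NORM
`N_α (β f)` (and `N_β (α f)`), and of the characteristic polynomial of `β f` over `α (F̄_N)`.

Setting as in `Conjugates11`: `α = heckeAlphaBar Kbar N ℓ`, `β = heckeBetaBar Kbar N ℓ`, `ℓ ∤ N` prime,
`ζ` a primitive `ℓ`-th root of unity.

* `normAlong_map_eq_prod` (generic): `ι (N_φ g) = ∏ i, σ i g` through a full set of embeddings;
* `charpolyAlong_eq_kronProd_of_embs`, `normAlong_eq_of_embs` : from `ℓ + 1` embeddings of Kronecker type;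
* `charpolyAlong_alpha_beta_map(_of_val)` : `((charpolyAlong α β hfin f).map val).map (qExpand ℓ) = kronProd ℓ ζ f`;
* `qExpand_normAlong_alpha_beta` **(H4)-NORM**:
  `qExpand ℓ (N_α (β f)) = (∏ b < ℓ, twistU (ζ^b) f) * qExpand (ℓ²) f`;
* `qExpand_normAlong_beta_alpha` : the same for `N_β (α f)`; `normAlong_alpha_beta_eq` : `N_α (β f) = N_β (α f)`.
-/
import Mathlib
import Fermat.Agent.ES.KRON.Conjugates11
import Fermat.Agent.ES.HECKE.PointFormula28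

set_option autoImplicit false
set_option linter.unusedSectionVars false

open ModularCurve IntermediateField AlgebraicCurve Polynomial

noncomputable section

namespace Fermat.Agent.ES.KRON.ConjNorm11

open Fermat.Agent.X0
open Fermat.Agent.ES.KRON.KronCong24 Fermat.Agent.ES.KRON.Conjugates11
open Fermat.Agent.ES.HECKE.PointFormula28

section Generic

variable {K F F' : Type*} [Field K] [Field F] [Field F'] [Algebra K F] [Algebra K F']

/-- The characteristic polynomial of an arbitrary `g : F'` along `φ`, through a full set of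
embeddings. -/
theorem charpoly_lmul_along_map_eq_prod (φ : F →ₐ[K] F') (hfin : FiniteAlong K φ) {n : ℕ}
    (hn : finrankAlong K φ = n) {Ω : Type*} [Field Ω] (ι : F →+* Ω) (σ : Fin n → (F' →+* Ω))
    (hσ : ∀ i (a : F), σ i (φ a) = ι a) (hinj : Function.Injective σ) (g : F') :
    letI := algebraAlong φ
    haveI : Module.Finite F F' := hfin
    (LinearMap.charpoly (Algebra.lmul F F' g)).map ι = ∏ i, (X - C (σ i g)) := by
  let _ := algebraAlong φ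
  have : Module.Finite F F' := hfin
  exact Fermat.Agent.ES.KRON.CharpolyEmb11.charpoly_map_eq_prod_embs (E := F) (L := F') hn ι σ hσ
    hinj g

/-- **The norm along `φ` through a full set of embeddings.** -/
theorem normAlong_map_eq_prod (φ : F →ₐ[K] F') (hfin : FiniteAlong K φ) {n : ℕ}
    (hn : finrankAlong K φ = n) {Ω : Type*} [Field Ω] (ι : F →+* Ω) (σ : Fin n → (F' →+* Ω))
    (hσ : ∀ i (a : F), σ i (φ a) = ι a) (hinj : Function.Injective σ) (g : F') :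
    ι (normAlong φ g) = ∏ i, σ i g := by
  have hchar := charpoly_lmul_along_map_eq_prod φ hfin hn ι σ hσ hinj g
  let _ := algebraAlong φ
  have : Module.Finite F F' := hfin
  have hn' : Module.finrank F F' = n := hn
  have h1 : normAlong φ g = (-1) ^ n * (LinearMap.charpoly (Algebra.lmul F F' g)).coeff 0 := by
    show Algebra.norm F g = _
    rw [Algebra.norm_apply, LinearMap.det_eq_sign_charpoly_coeff, hn']
  have h2 : ι ((LinearMap.charpoly (Algebra.lmul F F' g)).coeff 0) =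
      (∏ i, (X - C (σ i g))).coeff 0 := by
    rw [← hchar, Polynomial.coeff_map]
  rw [h1, map_mul, map_pow, map_neg, map_one, h2, Polynomial.coeff_zero_eq_eval_zero,
    Polynomial.eval_prod]
  simp only [eval_sub, eval_X, eval_C, zero_sub]
  rw [Finset.prod_neg, Finset.card_univ, Fintype.card_fin, ← mul_assoc, ← pow_add, ← two_mul,
    pow_mul, neg_one_sq, one_pow, one_mul]

end Generic


section Family

variable (N ℓ : ℕ) [NeZero N] [NeZero ℓ]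

/-- `ℓ + 1` embeddings: `τ 0, …, τ (ℓ-1), τ'`. -/
def embFamily (τ : ℕ → (FF (N * ℓ) →+* LaurentSeries Kbar))
    (τ' : FF (N * ℓ) →+* LaurentSeries Kbar) :
    Fin (ℓ + 1) → (FF (N * ℓ) →+* LaurentSeries Kbar) :=
  fun i => if (i : ℕ) < ℓ then τ (i : ℕ) else τ'

variable {N ℓ}
variable {τ : ℕ → (FF (N * ℓ) →+* LaurentSeries Kbar)} {τ' : FF (N * ℓ) →+* LaurentSeries Kbar}

theorem embFamily_lt (i : Fin (ℓ + 1)) (hi : (i : ℕ) < ℓ) : embFamily N ℓ τ τ' i = τ (i : ℕ) := by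
  simp only [embFamily, if_pos hi]

theorem embFamily_ge (i : Fin (ℓ + 1)) (hi : ¬ (i : ℕ) < ℓ) : embFamily N ℓ τ τ' i = τ' := by
  simp only [embFamily, if_neg hi]

theorem embFamily_castSucc (i : Fin ℓ) : embFamily N ℓ τ τ' (Fin.castSucc i) = τ (i : ℕ) := by
  have hi : ((Fin.castSucc i : Fin (ℓ + 1)) : ℕ) < ℓ := by
    rw [Fin.val_castSucc]
    exact i.isLt
  rw [embFamily_lt _ hi, Fin.val_castSucc]

theorem embFamily_last : embFamily N ℓ τ τ' (Fin.last ℓ) = τ' := by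
  have hl : ¬ ((Fin.last ℓ : Fin (ℓ + 1)) : ℕ) < ℓ := by
    rw [Fin.val_last]
    exact lt_irrefl ℓ
  exact embFamily_ge _ hl

theorem not_sq_dvd_neg_one (hℓ : ℓ.Prime) : ¬ ((ℓ ^ 2 : ℕ) : ℤ) ∣ (-1 : ℤ) := by
  intro h
  have h1 : ((ℓ ^ 2 : ℕ) : ℤ) ∣ 1 := (dvd_neg).mp h
  have h2 : (ℓ ^ 2 : ℕ) ∣ 1 := by exact_mod_cast h1
  have h3 : ℓ ^ 2 = 1 := Nat.dvd_one.mp h2
  have h4 : ℓ = 1 := by
    rcases Nat.pow_eq_one.mp h3 with h | h
    · exact h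
    · exact absurd h (by norm_num)
  exact hℓ.one_lt.ne' h4

/-- The family is injective as soon as some `x₀` has the values `j(ζ^b q)`, `j(q^{ℓ²})`. -/
theorem embFamily_injective (hℓ : ℓ.Prime) (ζ : Kbarˣ) (hζ : IsPrimitiveRoot ζ ℓ)
    (x₀ : FF (N * ℓ)) (h2 : ∀ b, τ b x₀ = twistU (ζ ^ b) jqK)
    (h2' : τ' x₀ = qExpand Kbar (ℓ ^ 2) jqK) : Function.Injective (embFamily N ℓ τ τ') := by
  have hc : ∀ b, (τ b x₀).coeff (-1) = (((ζ ^ b) ^ (-1 : ℤ) : Kbarˣ) : Kbar) := by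
    intro b
    rw [h2, twistU_coeff, Fermat.Agent.X0.coeff_jqK_neg_one, mul_one]
  have hc' : (τ' x₀).coeff (-1) = 0 := by
    rw [h2']
    exact qExpand_coeff_of_not_dvd (ℓ ^ 2) _ (not_sq_dvd_neg_one hℓ)
  intro i j hij
  have hval' : (embFamily N ℓ τ τ' i x₀).coeff (-1) = (embFamily N ℓ τ τ' j x₀).coeff (-1) := by
    rw [hij]
  by_cases hi : (i : ℕ) < ℓ <;> by_cases hj : (j : ℕ) < ℓ
  · rw [embFamily_lt i hi, embFamily_lt j hj, hc, hc] at hval'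
    have h1 : (ζ ^ (i : ℕ)) ^ (-1 : ℤ) = (ζ ^ (j : ℕ)) ^ (-1 : ℤ) := Units.ext hval'
    have h2 : ζ ^ (i : ℕ) = ζ ^ (j : ℕ) := by
      rw [zpow_neg_one, zpow_neg_one] at h1
      exact inv_injective h1
    exact Fin.ext (hζ.pow_inj hi hj h2)
  · rw [embFamily_lt i hi, embFamily_ge j hj, hc, hc'] at hval'
    exact absurd hval' (Units.ne_zero _)
  · rw [embFamily_ge i hi, embFamily_lt j hj, hc, hc'] at hval'
    exact absurd hval'.symm (Units.ne_zero _)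
  · have hi' : (i : ℕ) = ℓ := le_antisymm (Nat.lt_succ_iff.mp i.isLt) (not_lt.mp hi)
    have hj' : (j : ℕ) = ℓ := le_antisymm (Nat.lt_succ_iff.mp j.isLt) (not_lt.mp hj)
    exact Fin.ext (hi'.trans hj'.symm)

variable (φ ψ : FF N →ₐ[Kbar] FF (N * ℓ)) (hfin : FiniteAlong Kbar φ)
  (hn : finrankAlong Kbar φ = ℓ + 1) (hℓ : ℓ.Prime) (ζ : Kbarˣ) (hζ : IsPrimitiveRoot ζ ℓ)
  (ι : FF N →+* LaurentSeries Kbar)
  (h1 : ∀ b a, τ b (φ a) = ι a) (h1' : ∀ a, τ' (φ a) = ι a)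
  (h2 : ∀ b (f : FF N), τ b (ψ f) = twistU (ζ ^ b) (f : LaurentSeries Kbar))
  (h2' : ∀ f : FF N, τ' (ψ f) = qExpand Kbar (ℓ ^ 2) (f : LaurentSeries Kbar))

include hn hℓ hζ h1 h1' h2 h2'

theorem embFamily_spec : Function.Injective (embFamily N ℓ τ τ') ∧
    ∀ (i : Fin (ℓ + 1)) (a : FF N), embFamily N ℓ τ τ' i (φ a) = ι a := by
  refine ⟨embFamily_injective hℓ ζ hζ (ψ (jF N)) (fun b => ?_) ?_, fun i a => ?_⟩
  · rw [h2, Fermat.Agent.X0.coe_jF]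
  · rw [h2', Fermat.Agent.X0.coe_jF]
  · by_cases hi : (i : ℕ) < ℓ
    · rw [embFamily_lt i hi, h1]
    · rw [embFamily_ge i hi, h1']

/-- The characteristic polynomial of `ψ f` along `φ` from `ℓ + 1` embeddings of Kronecker type. -/
theorem charpolyAlong_eq_kronProd_of_embs (f : FF N) :
    (charpolyAlong φ ψ hfin f).map ι = kronProd ℓ ζ (f : LaurentSeries Kbar) := by
  obtain ⟨hinj, hσ⟩ := embFamily_spec φ ψ hn hℓ ζ hζ ι h1 h1' h2 h2'
  rw [charpolyAlong_map_eq_prod φ ψ hfin hn ι (embFamily N ℓ τ τ') hσ hinj f,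
    Fin.prod_univ_castSucc, kronProd]
  congr 1
  · rw [← Fin.prod_univ_eq_prod_range (fun b => X - Polynomial.C (twistU (ζ ^ b)
      (f : LaurentSeries Kbar))) ℓ]
    refine Finset.prod_congr rfl fun i _ => ?_
    rw [embFamily_castSucc, h2]
  · rw [embFamily_last, h2']

include hfin in
/-- The norm of `ψ f` along `φ` from `ℓ + 1` embeddings of Kronecker type. -/
theorem normAlong_eq_of_embs (f : FF N) :
    ι (normAlong φ (ψ f)) = (∏ b ∈ Finset.range ℓ, twistU (ζ ^ b) (f : LaurentSeries Kbar)) *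
      qExpand Kbar (ℓ ^ 2) (f : LaurentSeries Kbar) := by
  obtain ⟨hinj, hσ⟩ := embFamily_spec φ ψ hn hℓ ζ hζ ι h1 h1' h2 h2'
  rw [normAlong_map_eq_prod φ hfin hn ι (embFamily N ℓ τ τ') hσ hinj (ψ f),
    Fin.prod_univ_castSucc]
  congr 1
  · rw [← Fin.prod_univ_eq_prod_range (fun b => twistU (ζ ^ b) (f : LaurentSeries Kbar)) ℓ]
    refine Finset.prod_congr rfl fun i _ => ?_
    rw [embFamily_castSucc, h2]
  · rw [embFamily_last, h2']

end Family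


section Main

variable (N ℓ : ℕ) [NeZero N] [NeZero ℓ]

/-- `ζ^ℓ = 1 → (ζ^b)^ℓ = 1`. -/
theorem pow_pow_eq_one (ζ : Kbarˣ) (hζ : ζ ^ ℓ = 1) (b : ℕ) : (ζ ^ b) ^ ℓ = 1 := by
  rw [← pow_mul, mul_comm, pow_mul, hζ, one_pow]

theorem algebraMap_FF_apply (M : ℕ) (x : FF M) :
    algebraMap (FF M) (LaurentSeries Kbar) x = (x : LaurentSeries Kbar) := rfl

/-- `ι = (q ↦ q^ℓ) ∘ incl : F̄_M → ℚbar((q))`. -/
def iotaL (M : ℕ) : FF M →+* LaurentSeries Kbar :=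
  (qExpand Kbar ℓ).comp (algebraMap (FF M) (LaurentSeries Kbar))

theorem iotaL_apply (M : ℕ) (x : FF M) :
    iotaL ℓ M x = qExpand Kbar ℓ (x : LaurentSeries Kbar) := rfl

/-- the hypotheses of `…_of_embs` for `φ = α`, `ψ = β`, `τ b = twistU (ζ^b) ∘ W`, `τ' = ι`. -/
theorem embs_alpha_beta (ζ : Kbarˣ) (hζℓ : ζ ^ ℓ = 1) (W : FF (N * ℓ) →+* LaurentSeries Kbar)
    (hWβ : ∀ h : FF N, W (heckeBetaBar Kbar N ℓ h) = (h : LaurentSeries Kbar))
    (hWα : ∀ f : FF N, W (heckeAlphaBar Kbar N ℓ f) = qExpand Kbar ℓ (f : LaurentSeries Kbar)) :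
    (∀ (b : ℕ) (a : FF N), ((twistU (ζ ^ b)).comp W) (heckeAlphaBar Kbar N ℓ a) = iotaL ℓ N a) ∧
    (∀ a : FF N, iotaL ℓ (N * ℓ) (heckeAlphaBar Kbar N ℓ a) = iotaL ℓ N a) ∧
    (∀ (b : ℕ) (g : FF N), ((twistU (ζ ^ b)).comp W) (heckeBetaBar Kbar N ℓ g) =
      twistU (ζ ^ b) (g : LaurentSeries Kbar)) ∧
    (∀ g : FF N, iotaL ℓ (N * ℓ) (heckeBetaBar Kbar N ℓ g) =
      qExpand Kbar (ℓ ^ 2) (g : LaurentSeries Kbar)) := by
  refine ⟨fun b a => ?_, fun a => ?_, fun b g => ?_, fun g => ?_⟩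
  · rw [RingHom.comp_apply, hWα, iotaL_apply]
    exact twistU_qExpand ℓ _ (pow_pow_eq_one ℓ ζ hζℓ b) _
  · rw [iotaL_apply, iotaL_apply, coe_heckeAlphaBar]
  · rw [RingHom.comp_apply, hWβ]
  · rw [iotaL_apply, coe_heckeBetaBar, qExpand_qExpand]
    exact qExpand_congr (sq ℓ).symm _

/-- **The characteristic polynomial of `β f` over `α (F̄_N)`** in Kronecker form. -/
theorem charpolyAlong_alpha_beta_map (hℓ : ℓ.Prime) (hℓN : ¬ ℓ ∣ N) (ζ : Kbarˣ)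
    (hζ : IsPrimitiveRoot ζ ℓ) (hfin : FiniteAlong Kbar (heckeAlphaBar Kbar N ℓ)) (f : FF N) :
    (charpolyAlong (heckeAlphaBar Kbar N ℓ) (heckeBetaBar Kbar N ℓ) hfin f).map (iotaL ℓ N) =
      kronProd ℓ ζ (f : LaurentSeries Kbar) := by
  have hn : finrankAlong Kbar (heckeAlphaBar Kbar N ℓ) = ℓ + 1 :=
    Fermat.Agent.ES.HECKE.AlongDegree25.finrankAlong_alpha Kbar N ℓ hℓ hℓN
  obtain ⟨W, hWβ, hWα⟩ := exists_W N ℓ hℓ hℓN
  obtain ⟨h1, h1', h2, h2'⟩ := embs_alpha_beta N ℓ ζ hζ.pow_eq_one W hWβ hWα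
  exact charpolyAlong_eq_kronProd_of_embs
    (τ := fun b => (twistU (ζ ^ b)).comp W) (τ' := iotaL ℓ (N * ℓ))
    (heckeAlphaBar Kbar N ℓ) (heckeBetaBar Kbar N ℓ) hfin hn hℓ ζ hζ (iotaL ℓ N) h1 h1' h2 h2' f

/-- the same with an arbitrary `val` (the coercion) and `Polynomial.map` twice. -/
theorem charpolyAlong_alpha_beta_map_of_val (hℓ : ℓ.Prime) (hℓN : ¬ ℓ ∣ N) (ζ : Kbarˣ)
    (hζ : IsPrimitiveRoot ζ ℓ) (val : FF N →+* LaurentSeries Kbar)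
    (hval : ∀ x : FF N, val x = (x : LaurentSeries Kbar))
    (hfin : FiniteAlong Kbar (heckeAlphaBar Kbar N ℓ)) (f : FF N) :
    ((charpolyAlong (heckeAlphaBar Kbar N ℓ) (heckeBetaBar Kbar N ℓ) hfin f).map val).map
        (qExpand Kbar ℓ) = kronProd ℓ ζ (f : LaurentSeries Kbar) := by
  have hι : (qExpand Kbar ℓ).comp val = iotaL ℓ N := by
    ext1 x
    rw [RingHom.comp_apply, hval, iotaL_apply]
  rw [Polynomial.map_map, hι]
  exact charpolyAlong_alpha_beta_map N ℓ hℓ hℓN ζ hζ hfin f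

/-- **(H4)-NORM**: `N_α (β f)(q^ℓ) = ∏_{b<ℓ} f(ζ^b q) · f(q^{ℓ²})`. -/
theorem qExpand_normAlong_alpha_beta (hℓ : ℓ.Prime) (hℓN : ¬ ℓ ∣ N) (ζ : Kbarˣ)
    (hζ : IsPrimitiveRoot ζ ℓ) (f : FF N) :
    qExpand Kbar ℓ ((normAlong (heckeAlphaBar Kbar N ℓ) (heckeBetaBar Kbar N ℓ f) : FF N) :
        LaurentSeries Kbar) =
      (∏ b ∈ Finset.range ℓ, twistU (ζ ^ b) (f : LaurentSeries Kbar)) *
        qExpand Kbar (ℓ ^ 2) (f : LaurentSeries Kbar) := by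
  have hfin : FiniteAlong Kbar (heckeAlphaBar Kbar N ℓ) :=
    Fermat.Agent.ES.HECKE.AlongDegree25.finiteAlong_alpha Kbar N ℓ hℓ hℓN
  have hn : finrankAlong Kbar (heckeAlphaBar Kbar N ℓ) = ℓ + 1 :=
    Fermat.Agent.ES.HECKE.AlongDegree25.finrankAlong_alpha Kbar N ℓ hℓ hℓN
  obtain ⟨W, hWβ, hWα⟩ := exists_W N ℓ hℓ hℓN
  obtain ⟨h1, h1', h2, h2'⟩ := embs_alpha_beta N ℓ ζ hζ.pow_eq_one W hWβ hWα
  rw [← iotaL_apply]
  exact normAlong_eq_of_embs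
    (τ := fun b => (twistU (ζ ^ b)).comp W) (τ' := iotaL ℓ (N * ℓ))
    (heckeAlphaBar Kbar N ℓ) (heckeBetaBar Kbar N ℓ) hfin hn hℓ ζ hζ (iotaL ℓ N) h1 h1' h2 h2' f

/-- The same for `N_β (α f)`. -/
theorem qExpand_normAlong_beta_alpha (hℓ : ℓ.Prime) (hℓN : ¬ ℓ ∣ N) (ζ : Kbarˣ)
    (hζ : IsPrimitiveRoot ζ ℓ) (f : FF N) :
    qExpand Kbar ℓ ((normAlong (heckeBetaBar Kbar N ℓ) (heckeAlphaBar Kbar N ℓ f) : FF N) :
        LaurentSeries Kbar) =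
      (∏ b ∈ Finset.range ℓ, twistU (ζ ^ b) (f : LaurentSeries Kbar)) *
        qExpand Kbar (ℓ ^ 2) (f : LaurentSeries Kbar) := by
  have hfin : FiniteAlong Kbar (heckeBetaBar Kbar N ℓ) :=
    Fermat.Agent.ES.HECKE.AlongDegree25.finiteAlong_beta Kbar N ℓ hℓ hℓN
  have hn : finrankAlong Kbar (heckeBetaBar Kbar N ℓ) = ℓ + 1 :=
    Fermat.Agent.ES.HECKE.AlongDegree25.finrankAlong_beta Kbar N ℓ hℓ hℓN
  obtain ⟨σ', hσβ, hσα⟩ := exists_emb_infty N ℓ hℓ hℓN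
  have hζℓ : ζ ^ ℓ = 1 := hζ.pow_eq_one
  have h1 : ∀ (b : ℕ) (a : FF N), embTwist N ℓ ζ b (heckeBetaBar Kbar N ℓ a) = iotaL ℓ N a := by
    intro b a
    rw [embTwist_beta N ℓ ζ hζℓ, iotaL_apply]
  have h1' : ∀ a : FF N, σ' (heckeBetaBar Kbar N ℓ a) = iotaL ℓ N a := by
    intro a
    rw [hσβ, iotaL_apply]
  rw [← iotaL_apply]
  exact normAlong_eq_of_embs
    (τ := fun b => embTwist N ℓ ζ b) (τ' := σ')
    (heckeBetaBar Kbar N ℓ) (heckeAlphaBar Kbar N ℓ) hfin hn hℓ ζ hζ (iotaL ℓ N) h1 h1'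
    (fun b g => embTwist_alpha N ℓ ζ b g) hσα f

/-- `N_α (β f) = N_β (α f)` (the Hecke correspondence `T_ℓ` on `X₀(N)` is symmetric). -/
theorem normAlong_alpha_beta_eq (hℓ : ℓ.Prime) (hℓN : ¬ ℓ ∣ N) (f : FF N) :
    normAlong (heckeAlphaBar Kbar N ℓ) (heckeBetaBar Kbar N ℓ f) =
      normAlong (heckeBetaBar Kbar N ℓ) (heckeAlphaBar Kbar N ℓ f) := by
  obtain ⟨ζ₀, hζ₀⟩ := HasEnoughRootsOfUnity.exists_primitiveRoot Kbar ℓ
  have hu : IsUnit ζ₀ := hζ₀.isUnit (NeZero.ne ℓ)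
  have hζ : IsPrimitiveRoot hu.unit ℓ := by
    rw [← IsPrimitiveRoot.coe_units_iff, IsUnit.unit_spec]
    exact hζ₀
  apply Subtype.ext
  apply qExpand_injective (R := Kbar) (N := ℓ)
  rw [qExpand_normAlong_alpha_beta N ℓ hℓ hℓN hu.unit hζ f,
    qExpand_normAlong_beta_alpha N ℓ hℓ hℓN hu.unit hζ f]

end Main

end Fermat.Agent.ES.KRON.ConjNorm11
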