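/-
Program I (S37) / chapter ES/KRON / helper18.

`CorrPosDeg18`: the fields `pos` and `deg` of `EsDivAbs24.Setup` for `L := r_* ∘ (ψ_* φ^*)`, the
reduction of a correspondence of function fields along an arbitrary map `r` of places:
`L [v]` is an effective divisor of degree `[F' : φ F]` (all places of degree one).
-/
import Mathlib
import Fermat.Agent.ES.HECKE.PointFormula28
import Fermat.Agent.ES.KRON.EsDivAbs24

set_option autoImplicit false
set_option linter.style.haveILetI false

open AlgebraicCurve Finsupp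

noncomputable section

namespace Fermat.Agent.ES.KRON.CorrPosDeg18

open Fermat.Agent.ES.HECKE.PointFormula28 Fermat.Agent.ES.KRON.EsDivAbs24

variable {K F F' : Type*} [Field K] [Field F] [Field F'] [Algebra K F] [Algebra K F']
  [HasPrincipalDivisors K F']
  (φ ψ : F →ₐ[K] F') (hφ : φ.toRingHom.IsIntegral) (hψ : ψ.toRingHom.IsIntegral)
  {Q : Type*} (r : Place K F → Q)

/-- The reduced correspondence `r_* ∘ ψ_* ∘ φ^*` on divisors. -/
def redCorr : (Place K F →₀ ℤ) →+ (Q →₀ ℤ) :=
  (Finsupp.mapDomain.addMonoidHom r).comp (Divisor.correspondence φ ψ hφ hψ)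

theorem redCorr_apply (D : Place K F →₀ ℤ) :
    redCorr φ ψ hφ hψ r D = Finsupp.mapDomain r (Divisor.correspondence φ ψ hφ hψ D) := rfl

/-- `r_* ψ_* φ^* [v]` as a sum over the fibre. -/
theorem redCorr_single (v : Place K F) (n : ℤ) :
    redCorr φ ψ hφ hψ r (single v n) =
      ∑ w ∈ Place.fiberAlong φ hφ v,
        single (r (w.restrictAlong ψ hψ))
          (n * (w.ramificationIndexAlong φ : ℤ) * (w.inertiaDegAlong ψ hψ : ℤ)) := by
  rw [redCorr_apply, correspondence_single, Finsupp.mapDomain_finsetSum]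
  refine Finset.sum_congr rfl fun w _ => ?_
  rw [Finsupp.mapDomain_single]

/-- Multiplicities of `r_* ψ_* φ^* [v]` are nonnegative. -/
theorem mult_redCorr_nonneg (v : Place K F) (y : Q) :
    0 ≤ mult (redCorr φ ψ hφ hψ r) v y := by
  classical
  rw [mult, redCorr_single, Finsupp.finsetSum_apply]
  refine Finset.sum_nonneg fun w _ => ?_
  rw [Finsupp.single_apply]
  split_ifs
  · positivity
  · exact le_rfl

/-- The sum of the coefficients is preserved by `mapDomain`. -/
theorem sum_mapDomain_id (D : Place K F →₀ ℤ) :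
    (Finsupp.mapDomain r D).sum (fun _ n => n) = D.sum (fun _ n => n) := by
  rw [Finsupp.sum_mapDomain_index (fun _ => rfl) (fun _ _ _ => rfl)]

/-- `r_* ψ_* φ^* [v]` has degree `[F' : φ F]` when all places have degree one. -/
theorem sum_redCorr_single (hFI : FundamentalIdentityAlong K φ hφ)
    (hdeg : ∀ v : Place K F, v.deg = 1) (v : Place K F) :
    (redCorr φ ψ hφ hψ r (single v 1)).sum (fun _ n => n) = (finrankAlong K φ : ℤ) := by
  rw [redCorr_apply, sum_mapDomain_id]
  have h := degree_correspondence_single φ ψ hφ hψ hFI v 1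
  rw [hdeg v, Nat.cast_one, mul_one, mul_one] at h
  rw [← h]
  -- `degree D = ∑ coefficients` when all degrees are one
  generalize Divisor.correspondence φ ψ hφ hψ (single v 1) = D
  induction D using Finsupp.induction with
  | zero => simp
  | single_add w n D hw hn ih =>
    rw [Finsupp.sum_add_index' (fun _ => rfl) (fun _ _ _ => rfl), map_add, ih,
      Finsupp.sum_single_index rfl, Divisor.degree_single, hdeg w, Nat.cast_one, mul_one]

/-- The `pos` and `deg` fields of `EsDivAbs24.Setup` for `L = r_* ψ_* φ^*`, in one statement. -/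
theorem pos_and_deg (hFI : FundamentalIdentityAlong K φ hφ)
    (hdeg : ∀ v : Place K F, v.deg = 1) {l : ℕ} (hl : finrankAlong K φ = l + 1) :
    (∀ (p : Place K F) (y : Q), 0 ≤ mult (redCorr φ ψ hφ hψ r) p y) ∧
      ∀ p : Place K F, (redCorr φ ψ hφ hψ r (single p 1)).sum (fun _ n => n) = (l : ℤ) + 1 := by
  refine ⟨fun p y => mult_redCorr_nonneg φ ψ hφ hψ r p y, fun p => ?_⟩
  rw [sum_redCorr_single φ ψ hφ hψ r hFI hdeg p, hl]
  push_cast
  ring

end Fermat.Agent.ES.KRON.CorrPosDeg18
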