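/-
Program I (S37), chapter ES/KRON, helper24: (ES-div) with EXACTLY the inputs of helper15's
`RedInst15.isPlaceReductionModL_main`:

  `T : TwoCharts A hx F~`, `CoeffChart T.S0`, `CoeffChart T.S1`, `T.S0.s = tF M hmem`, (PEEL-a) on both
  charts  ⟹  `r_* (T_ℓ D) = Fr_* (r_* D) + ℓ · Fr⁻¹_* (r_* D)` for `r = T.r`, `Fr = frobPlace k ℓ M`.

`hintU0/hintU1` (`CoeffChart.mem_iff` + `ChartSpecOfChart18.mem_place_of_mem_chart'`) and `hfix`
(`RedInst15.red_sB_eq_tRes` + `FrobPoles13.frobSemi_smul_tq`) are discharged here.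
-/
import Mathlib
import Fermat.Agent.ES.KRON.EsDivFinal24
import Fermat.Agent.ES.RED.RedInst15
import Fermat.Agent.ES.RED.FrobPoles13
import Fermat.Agent.ES.RED.ChartSpecOfChart18

set_option autoImplicit false
set_option linter.unusedSectionVars false

noncomputable section

open AlgebraicCurve ModularCurve HahnSeries IntermediateField

namespace Fermat.Agent.ES.KRON.EsDivInst24

open Fermat.Agent.X0 Fermat.Agent.X0.FF Fermat.Agent.RED.BASE
open Fermat.Agent.ES.RED.Contract8 Fermat.Agent.ES.RED.TwoCharts8 Fermat.Agent.ES.RED.RedMain15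
open Fermat.Agent.ES.RED.GaloisInst21 Fermat.Agent.ES.RED.RedInst15
open Fermat.Agent.ES.RED.SpecialGen25
open Fermat.Agent.ES.KRON.FrobPlace13 Fermat.Agent.ES.KRON.EsDivFinal24

variable (n e M : ℕ) [NeZero n] [NeZero M] (ℓ : ℕ) [NeZero ℓ] [hℓ : Fact ℓ.Prime] (hℓM : ¬ ℓ ∣ M)
  (hmem : Interface12.TMem n e M) (hgen : Interface12.TGenBase n e)
  (A : ValuationSubring Kbar) (hA : A.LiesOverPrime ℓ)
  [CharP (kA A) ℓ] [IsAlgClosed (kA A)]
variable {x : X0.FF M} {hx : IsGen Kbar x}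
variable (T : TwoCharts A hx ↥(modularFunctionFieldFullC (kA A) M))

/-- integrality of a coefficientwise chart ring over `ℚbar[s]`, order form. -/
theorem hintU_of_coeffChart (S : ChartSpec A hx ↥(modularFunctionFieldFullC (kA A) M))
    (hS : CoeffChart (F₀ := modularFunctionFieldFull M) S)
    (P : Place Kbar (X0.FF M)) (hs : S.s ∈ P.toValuationSubring) (b : X0.FF M) (hb : b ∈ S.B) :
    b ∈ P.toValuationSubring :=
  Fermat.Agent.ES.RED.ChartSpecOfChart18.mem_place_of_mem_chart' A S.s P hs ((hS.mem_iff b).mp hb)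

include hℓM hgen hA in
/-- **(ES-div), concrete**, with the inputs of `RedInst15.isPlaceReductionModL_main`. -/
theorem es_div_inst
    (hS0 : CoeffChart (F₀ := modularFunctionFieldFull M) T.S0)
    (hS1 : CoeffChart (F₀ := modularFunctionFieldFull M) T.S1)
    (hs0 : T.S0.s = Interface12.tF M hmem)
    (peel0 : ∀ (P : Place Kbar (X0.FF M)) (hP : T.S0.InChart P), T.S0.PeelA P hP)
    (peel1 : ∀ (P : Place Kbar (X0.FF M)) (hP : T.S1.InChart P), T.S1.PeelA P hP)
    (hα : HeckeAlphaBarIntegral Kbar M ℓ) (hβ : HeckeBetaBarIntegral Kbar M ℓ)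
    [HasPrincipalDivisors Kbar (laurentBaseChange Kbar (modularFunctionFieldFull (M * ℓ)))]
    (hFI : FundamentalIdentityAlong Kbar (heckeBetaBar Kbar M ℓ) hβ)
    (hfin : FiniteAlong Kbar (heckeAlphaBar Kbar M ℓ))
    (hN : NormFormulaAlong Kbar (heckeAlphaBar Kbar M ℓ) hfin)
    (D : Divisor Kbar (laurentBaseChange Kbar (modularFunctionFieldFull M))) :
    Finsupp.mapDomain T.r (heckeDivBar hα hβ D) =
      Finsupp.mapDomain (frobPlace (kA A) ℓ M) (Finsupp.mapDomain T.r D) +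
        (ℓ : ℤ) • Finsupp.mapDomain (frobPlace (kA A) ℓ M).symm (Finsupp.mapDomain T.r D) := by
  have hboth := chartInputs_both n e M ℓ hℓM hmem hgen A hA T hS0 hS1 hs0 peel0 peel1
  have hfix : frobSemi (kA A) ℓ M • T.S0.red T.S0.sB = T.S0.red T.S0.sB := by
    rw [red_sB_eq_tRes n e M ℓ hℓM hmem hgen A hA T.S0 hS0 hs0]
    exact Fermat.Agent.ES.RED.FrobPoles13.frobSemi_smul_tq (kA A) ℓ M n e
      (coe_tRes n e M ℓ hℓM hmem hgen A hA)
  exact es_div_final M ℓ A T hboth.1 hboth.2 hℓM hα hβ hFI hfin hN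
    (hintU_of_coeffChart M A T.S0 hS0) (hintU_of_coeffChart M A T.S1 hS1) hfix D

end Fermat.Agent.ES.KRON.EsDivInst24
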