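/-
Program I (S37) / chapter ES/KRON / helper18: leaf (FINDIV).

`k` algebraically closed (any characteristic), `Ft / k` a function field with a separating
transcendental generator `xt` (`X0.FF.IsGen k xt`, `Algebra.IsSeparable k⟮xt⟯ Ft`).  Then every
nonzero `g ∈ Ft` has only finitely many zeros and poles, so that its divisor exists as a finitely
supported function on places; and every place has a uniformiser.

* `finite_ord_ne_zero`  : `{Q | Q.ord g ≠ 0}.Finite` for `g ≠ 0`;
* `exists_divisor`      : `∃ D' : Place k Ft →₀ ℤ, ∀ Q, D' Q = Q.ord g`;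
* `exists_ord_eq_one`   : `∀ Q, ∃ ϖ, Q.ord ϖ = 1` (no hypothesis needed).
-/
import Mathlib
import Fermat.Agent.ES.RED.SumOrdSep15
import Fermat.Agent.X0.FFDedekind
import Fermat.Agent.X0.FFPrincipal

set_option autoImplicit false
set_option linter.unusedSectionVars false

open AlgebraicCurve IsDedekindDomain IntermediateField

noncomputable section

namespace Fermat.Agent.ES.KRON.FinDiv18

open Fermat.Agent.X0 Fermat.Agent.X0.FF Fermat.Agent.ES.RED.SumOrdSep15

variable {k Ft : Type*} [Field k] [Field Ft] [Algebra k Ft] {xt : Ft}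

/-- Every place has a uniformiser. -/
theorem exists_ord_eq_one (Q : Place k Ft) : ∃ ϖ : Ft, Q.ord ϖ = 1 := by
  obtain ⟨π, hπ⟩ := ffp_exists_irreducible Q
  exact ⟨(π : Ft), Q.ord_coe_irreducible hπ⟩

variable [IsAlgClosed k]

/-- A nonzero element of the integral closure of `k[xt]` has finitely many zeros and poles. -/
theorem finite_ord_ne_zero_of_mem_intRing (hxt : IsGen k xt) [Algebra.IsSeparable k⟮xt⟯ Ft]
    (a : intRing k xt) (ha : a ≠ 0) :
    {Q : Place k Ft | Q.ord (algebraMap (intRing k xt) Ft a) ≠ 0}.Finite := by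
  classical
  have hDed := isDedekindDomain_intRing_sep hxt
  have hFrac := isFractionRing_intRing hxt
  have hI : (Ideal.span {a} : Ideal (intRing k xt)) ≠ 0 := by
    rw [Ne, Ideal.zero_eq_bot, Ideal.span_singleton_eq_bot]
    exact ha
  have hfin1 : {Q : Place k Ft | Q.ord xt < 0}.Finite := finite_poles_sep hxt
  have hfin2 : (Place.ofHeightOneSpectrum (K := k) (F := Ft) ''
      {w : HeightOneSpectrum (intRing k xt) | w.asIdeal ∣ Ideal.span {a}}).Finite :=
    (Ideal.finite_factors hI).image _
  refine (hfin1.union hfin2).subset ?_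
  intro Q hQ
  by_cases hpole : Q.ord xt < 0
  · exact Or.inl hpole
  · right
    have hxQ : xt ∈ Q.toValuationSubring := mem_of_ord_nonneg Q (not_lt.mp hpole)
    have hB : ∀ b : intRing k xt, algebraMap (intRing k xt) Ft b ∈ Q.toValuationSubring :=
      intRing_le_of_mem Q hxQ
    obtain ⟨w, hw⟩ := exists_eq_ofHeightOneSpectrum (K := k) (F := Ft) (R := intRing k xt) Q hB
    refine ⟨w, ?_, hw.symm⟩
    have hpos : 0 < Q.ord (algebraMap (intRing k xt) Ft a) :=
      lt_of_le_of_ne (ord_nonneg_of_mem Q (hB a)) (Ne.symm hQ)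
    rw [hw] at hpos
    have hmem : a ∈ w.asIdeal :=
      (FFDedekind.ord_ofHeightOneSpectrum_algebraMap_pos_iff (K := k) (F := Ft) w ha).mp hpos
    show w.asIdeal ∣ Ideal.span {a}
    rw [Ideal.dvd_span_singleton]
    exact hmem

/-- **(FINDIV)**: a nonzero function has finitely many zeros and poles. -/
theorem finite_ord_ne_zero (hxt : IsGen k xt) [Algebra.IsSeparable k⟮xt⟯ Ft] {g : Ft}
    (hg : g ≠ 0) : {Q : Place k Ft | Q.ord g ≠ 0}.Finite := by
  have hDed := isDedekindDomain_intRing_sep hxt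
  have hFrac := isFractionRing_intRing hxt
  obtain ⟨a, b, hb, rfl⟩ := IsFractionRing.div_surjective (A := intRing k xt) g
  have hb0 : b ≠ 0 := nonZeroDivisors.ne_zero hb
  have hbF : algebraMap (intRing k xt) Ft b ≠ 0 :=
    (map_ne_zero_iff _ (IsFractionRing.injective (intRing k xt) Ft)).mpr hb0
  have ha0 : a ≠ 0 := by
    rintro rfl
    rw [map_zero, zero_div] at hg
    exact hg rfl
  have haF : algebraMap (intRing k xt) Ft a ≠ 0 :=
    (map_ne_zero_iff _ (IsFractionRing.injective (intRing k xt) Ft)).mpr ha0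
  refine ((finite_ord_ne_zero_of_mem_intRing hxt a ha0).union
    (finite_ord_ne_zero_of_mem_intRing hxt b hb0)).subset ?_
  intro Q hQ
  by_contra hcon
  rw [Set.mem_union, not_or] at hcon
  have h1 : Q.ord (algebraMap (intRing k xt) Ft a) = 0 := not_not.mp hcon.1
  have h2 : Q.ord (algebraMap (intRing k xt) Ft b) = 0 := not_not.mp hcon.2
  apply hQ
  rw [div_eq_mul_inv, Q.ord_mul haF (inv_ne_zero hbF), Q.ord_inv, h1, h2]
  simp

/-- **(FINDIV)**, divisor form: the divisor of a nonzero function exists. -/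
theorem exists_divisor (hxt : IsGen k xt) [Algebra.IsSeparable k⟮xt⟯ Ft] {g : Ft} (hg : g ≠ 0) :
    ∃ D' : Place k Ft →₀ ℤ, ∀ Q, D' Q = Q.ord g := by
  refine ⟨Finsupp.ofSupportFinite (fun Q => Q.ord g) ?_, fun Q => rfl⟩
  exact (finite_ord_ne_zero hxt hg).subset fun Q hQ => by
    simpa [Function.mem_support] using hQ

end Fermat.Agent.ES.KRON.FinDiv18
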