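/-
Program I (S37), chapter ES/KRON, helper24: the CONCRETE Kronecker identity (3) of (ES-div):

  `r_* (T_ℓ (div f)) = Fr_* (div f~) + ℓ · Fr⁻¹_* (div f~)`

for every `f ∈ F̄_M` with `A`-integral `q`-expansion and non-zero reduction `f~`, against the
Prelude's `IsPlaceReductionAlong A π M r` (R2), the Prelude's `T_ℓ = heckeDivBar = α_* β^*`, and
helper13's Frobenius `frobPlace k ℓ M` on the places of `F~ = modularFunctionFieldFullC k M`.

Ingredients: `PointFormula28.correspondence_eq_ord_norm` (`T_ℓ div f = div N_α (β f)`),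
`ConjAlpha24.qExpand_normAlong_alpha` (`N_α (β f) (q^ℓ) = ∏_b f(ζ^b q) · f(q^{ℓ²})`),
`KronNorm10.norm_descent` (Kronecker at `Y = 0`), (R2) for `N_α (β f)`, `FrobPlace13.ord_frobPlace`.
-/
import Mathlib
import Fermat.Agent.ES.KRON.ConjAlpha24
import Fermat.Agent.ES.KRON.FrobPlace13
import Fermat.Agent.ES.KRON.EsDivAbs24
import Fermat.Agent.X0.FFDict
import Fermat.Prelude.Def_ModularCurve_ReductionModL

set_option autoImplicit false
set_option linter.unusedSectionVars false

open ModularCurve AlgebraicCurve HahnSeries IntermediateField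

noncomputable section

namespace Fermat.Agent.ES.KRON.KronMain24

open Fermat.Agent.X0
open Fermat.Agent.ES.KRON.KronCong24
open Fermat.Agent.ES.KRON.KronInst10
open Fermat.Agent.ES.KRON.KronNorm10
open Fermat.Agent.ES.KRON.ConjAlpha24
open Fermat.Agent.ES.KRON.FrobPlace13
open Fermat.Agent.ES.HECKE.PointFormula28

section Norm

variable (M ℓ : ℕ) [NeZero M] [NeZero ℓ] [hℓ : Fact ℓ.Prime]
variable (A : ValuationSubring Kbar) {k : Type*} [Field k] [CharP k ℓ] [PerfectField k]
  (π : A →+* k)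

/-- **The reduced norm**: for `f = coeffMap A.subtype y ∈ F̄_M`, the function `N_α (β f)` (whose
divisor is `T_ℓ (div f)`) has `A`-integral `q`-expansion `NR`, with reduction
`f~^φ · (f~^{φ⁻¹})^ℓ`. -/
theorem exists_norm_reduction (hℓM : ¬ ℓ ∣ M) (y : LaurentSeries A)
    (hy : coeffMap A.subtype y ∈ modularFunctionFieldBar M) :
    ∃ NR : LaurentSeries A,
      coeffMap A.subtype NR =
        ((normAlong (heckeAlphaBar Kbar M ℓ)
          (heckeBetaBar Kbar M ℓ (⟨coeffMap A.subtype y, hy⟩ : FF M)) : FF M) :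
            LaurentSeries Kbar) ∧
      coeffMap π NR = coeffMap (frobenius k ℓ) (coeffMap π y) *
        (coeffMap ((frobeniusEquiv k ℓ).symm : k →+* k) (coeffMap π y)) ^ ℓ := by
  obtain ⟨ζ, hζ1, hζp⟩ := exists_primitiveRoot_unit (L := Kbar) ℓ
  have hℓpos : 0 < ℓ := hℓ.out.pos
  have hζL : (ζ : Kbar) ^ ℓ = 1 := by rw [← Units.val_pow_eq_pow_val, hζ1, Units.val_one]
  set ζA : (↥A)ˣ := unitOfPowEqOne A hℓpos hζL with hζA
  have hmap : Units.map ((A.subtype : ↥A →+* Kbar) : ↥A →* Kbar) ζA = ζ := Units.ext rfl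
  have hψ : ∀ a : k, ((frobeniusEquiv k ℓ).symm : k →+* k) a ^ ℓ = a := fun a =>
    frobeniusEquiv_symm_pow_p k ℓ a
  have hq := qExpand_normAlong_alpha M ℓ hℓ.out hℓM ζ (IsPrimitiveRoot.coe_units_iff.mp hζp)
    (⟨coeffMap A.subtype y, hy⟩ : FF M)
  have hN' : qExpand Kbar ℓ ((normAlong (heckeAlphaBar Kbar M ℓ)
      (heckeBetaBar Kbar M ℓ (⟨coeffMap A.subtype y, hy⟩ : FF M)) : FF M) : LaurentSeries Kbar)
      = coeffMap A.subtype (normProd ℓ ζA y) := by
    rw [normProd_map, hmap]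
    exact hq
  obtain ⟨NR, -, h2, h3⟩ := norm_descent ℓ A.subtype Subtype.val_injective π
    ((frobeniusEquiv k ℓ).symm : k →+* k) hψ ζA (unitOfPowEqOne_pow A hℓpos hζL) y _ hN'
  exact ⟨NR, h2, h3⟩

end Norm

section Kron

variable (M ℓ : ℕ) [NeZero M] [NeZero ℓ] [hℓ : Fact ℓ.Prime]
variable (A : ValuationSubring Kbar) {k : Type*} [Field k] [CharP k ℓ] [PerfectField k]
  (π : A →+* k)

/-- the inverse of the coefficientwise Frobenius is `coeffMap φ⁻¹`. -/
theorem coe_frobSemi_inv_smul (g : ↥(modularFunctionFieldFullC k M)) :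
    (((frobSemi k ℓ M)⁻¹ • g : ↥(modularFunctionFieldFullC k M)) : LaurentSeries k) =
      coeffMap ((frobeniusEquiv k ℓ).symm : k →+* k) g := by
  have h : (frobSemi k ℓ M)⁻¹ = coeffSemi k M (frobeniusEquiv k ℓ)⁻¹ := by
    show (coeffSemiHom k M (frobeniusEquiv k ℓ))⁻¹ = coeffSemiHom k M (frobeniusEquiv k ℓ)⁻¹
    rw [map_inv]
  rw [h, coe_coeffSemi_smul]
  rfl

/-- **The Kronecker identity (3), concrete form**:
`r_* (T_ℓ (div f)) = Fr_* (div f~) + ℓ · Fr⁻¹_* (div f~)`, coefficientwise. -/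
theorem map_hecke_principal (hℓM : ¬ ℓ ∣ M)
    (hα : HeckeAlphaBarIntegral Kbar M ℓ) (hβ : HeckeBetaBarIntegral Kbar M ℓ)
    [HasPrincipalDivisors Kbar (laurentBaseChange Kbar (modularFunctionFieldFull (M * ℓ)))]
    (hfin : FiniteAlong Kbar (heckeAlphaBar Kbar M ℓ))
    (hN : NormFormulaAlong Kbar (heckeAlphaBar Kbar M ℓ) hfin)
    {r : Place Kbar (laurentBaseChange Kbar (modularFunctionFieldFull M)) →
      Place k (modularFunctionFieldFullC k M)}
    (hr : IsPlaceReductionAlong A π M r)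
    (y : LaurentSeries A)
    (hy : coeffMap A.subtype y ∈ laurentBaseChange Kbar (modularFunctionFieldFull M))
    (hyk : coeffMap π y ∈ modularFunctionFieldFullC k M) (hne : coeffMap π y ≠ 0)
    (D : Divisor Kbar (laurentBaseChange Kbar (modularFunctionFieldFull M)))
    (hD : ∀ P, D P = P.ord
      (⟨coeffMap A.subtype y, hy⟩ : laurentBaseChange Kbar (modularFunctionFieldFull M)))
    (Q : Place k (modularFunctionFieldFullC k M)) :
    Finsupp.mapDomain r (heckeDivBar hα hβ D) Q =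
      ((frobPlace k ℓ M).symm Q).ord (⟨coeffMap π y, hyk⟩ : modularFunctionFieldFullC k M) +
        (ℓ : ℤ) * (frobPlace k ℓ M Q).ord
          (⟨coeffMap π y, hyk⟩ : modularFunctionFieldFullC k M) := by
  set f : FF M := ⟨coeffMap A.subtype y, hy⟩ with hf
  set g : ↥(modularFunctionFieldFullC k M) := ⟨coeffMap π y, hyk⟩ with hg
  have hf0 : f ≠ 0 := by
    intro h
    apply hne
    have h1 : coeffMap A.subtype y = 0 := congrArg Subtype.val h
    have h2 : y = 0 := by
      ext n
      have := congrArg (fun z => z.coeff n) h1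
      simpa using this
    rw [h2, map_zero]
  obtain ⟨NR, hNR1, hNR2⟩ := exists_norm_reduction M ℓ A π hℓM y hy
  have hTD : ∀ v, heckeDivBar hα hβ D v =
      v.ord (normAlong (heckeAlphaBar Kbar M ℓ) (heckeBetaBar Kbar M ℓ f)) := fun v =>
    correspondence_eq_ord_norm (heckeBetaBar Kbar M ℓ) (heckeAlphaBar Kbar M ℓ) hβ hα hfin hN
      hf0 hD v
  have hNRmem : coeffMap A.subtype NR ∈
      laurentBaseChange Kbar (modularFunctionFieldFull M) := by
    rw [hNR1]
    exact Subtype.property _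
  have hNRk_eq : coeffMap π NR =
      ((frobSemi k ℓ M • g * ((frobSemi k ℓ M)⁻¹ • g) ^ ℓ :
        ↥(modularFunctionFieldFullC k M)) : LaurentSeries k) := by
    rw [hNR2]
    push_cast
    rw [coe_frobSemi_smul, coe_frobSemi_inv_smul]
  have hNRk : coeffMap π NR ∈ modularFunctionFieldFullC k M := by
    rw [hNRk_eq]
    exact Subtype.property _
  have hne' : coeffMap π NR ≠ 0 := by
    rw [hNR2]
    exact frob_mul_pow_ne_zero ℓ _ hne
  have h := hr.2 NR hNRmem hNRk hne' (heckeDivBar hα hβ D)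
    (fun P => by
      rw [hTD P]
      congr 1
      exact Subtype.ext hNR1.symm) Q
  rw [h]
  have hprod : (⟨coeffMap π NR, hNRk⟩ : ↥(modularFunctionFieldFullC k M)) =
      frobSemi k ℓ M • g * ((frobSemi k ℓ M)⁻¹ • g) ^ ℓ := Subtype.ext hNRk_eq
  have hprod0 : frobSemi k ℓ M • g * ((frobSemi k ℓ M)⁻¹ • g) ^ ℓ ≠ 0 := by
    rw [← hprod]
    intro h0
    exact hne' (congrArg Subtype.val h0)
  rw [hprod, Place.ord_mul _ (left_ne_zero_of_mul hprod0) (right_ne_zero_of_mul hprod0),
    Fermat.Agent.X0.FF.ord_pow]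
  have h1 : Q.ord (frobSemi k ℓ M • g) = ((frobPlace k ℓ M).symm Q).ord g := by
    have := ord_frobPlace k ℓ M ((frobPlace k ℓ M).symm Q) g
    rwa [Equiv.apply_symm_apply] at this
  have h2 : Q.ord ((frobSemi k ℓ M)⁻¹ • g) = (frobPlace k ℓ M Q).ord g :=
    (ord_frobPlace' k ℓ M Q g).symm
  rw [h1, h2]

end Kron

section SetupInst

open Fermat.Agent.ES.KRON.EsDivAbs24

variable (M ℓ : ℕ) [NeZero M] [NeZero ℓ] [hℓ : Fact ℓ.Prime]
variable (A : ValuationSubring Kbar) {k : Type*} [Field k] [CharP k ℓ] [PerfectField k]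
  (π : A →+* k)

/-- `princ D D'`: `D = div f`, `D' = div f~` for an `A`-integral `f` with non-zero reduction. -/
def princ (D : Divisor Kbar (laurentBaseChange Kbar (modularFunctionFieldFull M)))
    (D' : Divisor k (modularFunctionFieldFullC k M)) : Prop :=
  ∃ (y : LaurentSeries A)
    (hy : coeffMap A.subtype y ∈ laurentBaseChange Kbar (modularFunctionFieldFull M))
    (hyk : coeffMap π y ∈ modularFunctionFieldFullC k M), coeffMap π y ≠ 0 ∧
    (∀ P, D P = P.ord
      (⟨coeffMap A.subtype y, hy⟩ : laurentBaseChange Kbar (modularFunctionFieldFull M))) ∧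
    ∀ Q, D' Q = Q.ord (⟨coeffMap π y, hyk⟩ : modularFunctionFieldFullC k M)

/-- `L = r_* ∘ T_ℓ`. -/
def redHecke (hα : HeckeAlphaBarIntegral Kbar M ℓ) (hβ : HeckeBetaBarIntegral Kbar M ℓ)
    [HasPrincipalDivisors Kbar (laurentBaseChange Kbar (modularFunctionFieldFull (M * ℓ)))]
    (r : Place Kbar (laurentBaseChange Kbar (modularFunctionFieldFull M)) →
      Place k (modularFunctionFieldFullC k M)) :
    Divisor Kbar (laurentBaseChange Kbar (modularFunctionFieldFull M)) →+
      Divisor k (modularFunctionFieldFullC k M) :=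
  (Finsupp.mapDomain.addMonoidHom r).comp (heckeDivBar hα hβ)

theorem redHecke_apply (hα : HeckeAlphaBarIntegral Kbar M ℓ) (hβ : HeckeBetaBarIntegral Kbar M ℓ)
    [HasPrincipalDivisors Kbar (laurentBaseChange Kbar (modularFunctionFieldFull (M * ℓ)))]
    (r : Place Kbar (laurentBaseChange Kbar (modularFunctionFieldFull M)) →
      Place k (modularFunctionFieldFullC k M))
    (D : Divisor Kbar (laurentBaseChange Kbar (modularFunctionFieldFull M))) :
    redHecke M ℓ hα hβ r D = Finsupp.mapDomain r (heckeDivBar hα hβ D) := rfl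

/-- `mapDomain` preserves pointwise non-negativity. -/
theorem mapDomain_nonneg {P Q : Type*} (r : P → Q) (D : P →₀ ℤ) (hD : ∀ p, 0 ≤ D p) (y : Q) :
    0 ≤ Finsupp.mapDomain r D y := by
  classical
  rw [mapDomain_apply_sum]
  refine Finset.sum_nonneg fun p _ => ?_
  split_ifs
  · exact hD p
  · exact le_rfl

/-- `mapDomain` preserves the coefficient sum. -/
theorem sum_mapDomain {P Q : Type*} (r : P → Q) (D : P →₀ ℤ) :
    (Finsupp.mapDomain r D).sum (fun _ n => n) = D.sum (fun _ n => n) :=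
  Finsupp.sum_mapDomain_index (fun _ => rfl) (fun _ _ _ => rfl)

/-- When all places have degree one, the degree is the coefficient sum. -/
theorem degree_eq_sum {K F : Type*} [Field K] [Field F] [Algebra K F]
    (hdeg : ∀ v : Place K F, v.deg = 1) (D : Divisor K F) :
    Divisor.degree D = D.sum (fun _ n => n) := by
  induction D using Finsupp.induction_linear with
  | zero => simp
  | add D₁ D₂ h₁ h₂ =>
    rw [map_add, h₁, h₂, Finsupp.sum_add_index' (fun _ => rfl) (fun _ _ _ => rfl)]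
  | single v n =>
    rw [Divisor.degree_single, hdeg, Nat.cast_one, mul_one, Finsupp.sum_single_index rfl]

/-- **The global hypotheses of the abstract (ES-div)** for `r_* ∘ T_ℓ`, from (R2). -/
theorem setup (hℓM : ¬ ℓ ∣ M)
    (hα : HeckeAlphaBarIntegral Kbar M ℓ) (hβ : HeckeBetaBarIntegral Kbar M ℓ)
    [HasPrincipalDivisors Kbar (laurentBaseChange Kbar (modularFunctionFieldFull (M * ℓ)))]
    (hFI : FundamentalIdentityAlong Kbar (heckeBetaBar Kbar M ℓ) hβ)
    (hfin : FiniteAlong Kbar (heckeAlphaBar Kbar M ℓ))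
    (hN : NormFormulaAlong Kbar (heckeAlphaBar Kbar M ℓ) hfin)
    (hdeg : ∀ P : Place Kbar (laurentBaseChange Kbar (modularFunctionFieldFull M)), P.deg = 1)
    {r : Place Kbar (laurentBaseChange Kbar (modularFunctionFieldFull M)) →
      Place k (modularFunctionFieldFullC k M)}
    (hr : IsPlaceReductionAlong A π M r) :
    Setup r (frobPlace k ℓ M) ℓ (redHecke M ℓ hα hβ r) (princ M A π) where
  pos := by
    classical
    intro p y
    show 0 ≤ Finsupp.mapDomain r (heckeDivBar hα hβ (Finsupp.single p 1)) y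
    refine mapDomain_nonneg r _ (fun v => ?_) y
    rw [heckeDivBar_single, Finsupp.finsetSum_apply]
    refine Finset.sum_nonneg fun w _ => ?_
    rw [Finsupp.single_apply]
    split_ifs
    · positivity
    · exact le_rfl
  deg := by
    intro p
    show (Finsupp.mapDomain r (heckeDivBar hα hβ (Finsupp.single p 1))).sum (fun _ n => n) = _
    rw [sum_mapDomain, ← degree_eq_sum hdeg]
    show Divisor.degree (Divisor.correspondence (heckeBetaBar Kbar M ℓ) (heckeAlphaBar Kbar M ℓ)
      hβ hα (Finsupp.single p 1)) = _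
    rw [degree_correspondence_single _ _ hβ hα hFI,
      Fermat.Agent.ES.HECKE.AlongDegree25.finrankAlong_beta Kbar M ℓ hℓ.out hℓM, hdeg]
    push_cast
    ring
  red := by
    rintro D D' ⟨y, hy, hyk, hne, hD, hD'⟩
    ext Q
    rw [hD' Q]
    exact hr.2 y hy hyk hne D hD Q
  kron := by
    rintro D D' ⟨y, hy, hyk, hne, hD, hD'⟩ Q
    rw [hD', hD']
    exact map_hecke_principal M ℓ A π hℓM hα hβ hfin hN hr y hy hyk hne D hD Q

/-- **(ES-div), concrete form modulo the chart data**:
`r_* (T_ℓ [P]) = [Fr (r P)] + ℓ · [Fr⁻¹ (r P)]`. -/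
theorem es_div_of_charts (hℓM : ¬ ℓ ∣ M)
    (hα : HeckeAlphaBarIntegral Kbar M ℓ) (hβ : HeckeBetaBarIntegral Kbar M ℓ)
    [HasPrincipalDivisors Kbar (laurentBaseChange Kbar (modularFunctionFieldFull (M * ℓ)))]
    (hFI : FundamentalIdentityAlong Kbar (heckeBetaBar Kbar M ℓ) hβ)
    (hfin : FiniteAlong Kbar (heckeAlphaBar Kbar M ℓ))
    (hN : NormFormulaAlong Kbar (heckeAlphaBar Kbar M ℓ) hfin)
    (hdeg : ∀ P : Place Kbar (laurentBaseChange Kbar (modularFunctionFieldFull M)), P.deg = 1)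
    {r : Place Kbar (laurentBaseChange Kbar (modularFunctionFieldFull M)) →
      Place k (modularFunctionFieldFullC k M)}
    (hr : IsPlaceReductionAlong A π M r)
    {ι : Type*} {C : ι → Set (Place Kbar (laurentBaseChange Kbar (modularFunctionFieldFull M)))}
    {Dinf : ι → Divisor Kbar (laurentBaseChange Kbar (modularFunctionFieldFull M))}
    {Dinf' : ι → Divisor k (modularFunctionFieldFullC k M)}
    (hC : ∀ i, Chart r (frobPlace k ℓ M) (princ M A π) (C i) (Dinf i) (Dinf' i))
    (hcov : ∀ P, ∃ i, P ∈ C i)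
    (D : Divisor Kbar (laurentBaseChange Kbar (modularFunctionFieldFull M))) :
    Finsupp.mapDomain r (heckeDivBar hα hβ D) =
      Finsupp.mapDomain (frobPlace k ℓ M) (Finsupp.mapDomain r D) +
        (ℓ : ℤ) • Finsupp.mapDomain (frobPlace k ℓ M).symm (Finsupp.mapDomain r D) :=
  es_div_all (setup M ℓ A π hℓM hα hβ hFI hfin hN hdeg hr) hC hcov D

end SetupInst

end Fermat.Agent.ES.KRON.KronMain24
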