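/-
Program I (S37), chapter ES/KRON, helper24: (ES-div), FINAL FORM, from a `TwoCharts8.TwoCharts`.

Part 1 (generic in `(L, A, F, Ft)`): the `ChartBridge24.BridgeHyp` of both charts of a `TwoCharts`
for the global map `T.r`; hence the two `EsDivAbs24.Chart`s and their cover.

Part 2 (concrete: `L = ℚbar`, `F = F̄_M`, `Ft = modularFunctionFieldFullC k M`): `es_div_main`,
  `r_* T_ℓ = (Fr_* + ℓ Fr⁻¹_*) r_*` on divisors for `r = T.r`.
-/
import Mathlib
import Fermat.Agent.ES.RED.TwoCharts8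
import Fermat.Agent.ES.KRON.ChartBridge24
import Fermat.Agent.ES.KRON.KronMain24
import Fermat.Agent.ES.KRON.FinDiv18

set_option autoImplicit false
set_option linter.unusedSectionVars false

noncomputable section

open AlgebraicCurve

namespace Fermat.Agent.ES.KRON.EsDivMain24

open Fermat.Agent.X0.FF Fermat.Agent.ES.RED.PlaceValue13 Fermat.Agent.ES.RED.Contract8
open Fermat.Agent.ES.RED.TwoCharts8
open Fermat.Agent.ES.KRON.EsDivAbs24 Fermat.Agent.ES.KRON.ChartBridge24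

section Generic

variable {L : Type*} [Field L] [IsAlgClosed L] {A : ValuationSubring L}
variable {F : Type*} [Field F] [Algebra L F] {x : F} {hx : IsGen L x}
variable {Ft : Type*} [Field Ft] [Algebra (kA A) Ft] [IsAlgClosed (kA A)]
variable {xt : Ft} (hxt : IsGen (kA A) xt)
variable (T : TwoCharts A hx Ft)

include hxt in
theorem hr0 (P : Place L F) (hP : T.S0.InChart P) (y : Ft) :
    y ∈ (T.r P).toValuationSubring ↔ y ∈ T.S0.rSubring P hP := by
  rw [T.r_eq0 P hP]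
  exact Iff.rfl

include hxt in
theorem hr1 (P : Place L F) (hP : T.S1.InChart P) (y : Ft) :
    y ∈ (T.r P).toValuationSubring ↔ y ∈ T.S1.rSubring P hP := by
  rw [T.r_eq1 hxt P hP]
  exact Iff.rfl

theorem not_const_of_transcendental {g : Ft} (hg : Transcendental (kA A) g) (c : kA A) :
    g ≠ algebraMap (kA A) Ft c := by
  intro h
  apply hg
  rw [h]
  exact isAlgebraic_algebraMap _

include hxt in
/-- poles of `s` reduce to poles of `s~`. -/
theorem hrbad0 (P : Place L F) (hP : P.ord T.S0.s < 0) :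
    (T.r P).ord (T.S0.red T.S0.sB) < 0 := by
  have h0 : ¬ T.S0.InChart P := by
    rintro ⟨hs, -⟩
    have := ord_nonneg_of_mem P hs
    omega
  have h1 : T.S1.InChart P := (T.inChart_or P).resolve_left h0
  have hχ := T.chi1_s_eq_zero P h0 h1
  have hne : T.S1.red T.S1.sB ≠ 0 := by
    rw [T.red_s1_eq]
    exact inv_ne_zero T.red_s0_ne_zero
  have hpos := ord_red_pos hxt T.S1 T.r P h1 (hr1 hxt T P h1) hχ hne
  have : T.S0.red T.S0.sB = (T.S1.red T.S1.sB)⁻¹ := by rw [T.red_s1_eq, inv_inv]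
  rw [this, Place.ord_inv]
  omega

include hxt in
/-- poles of `s⁻¹` reduce to poles of `(s~)⁻¹`. -/
theorem hrbad1 (P : Place L F) (hP : P.ord T.S1.s < 0) :
    (T.r P).ord (T.S1.red T.S1.sB) < 0 := by
  have h1 : ¬ T.S1.InChart P := by
    rintro ⟨hs, -⟩
    have := ord_nonneg_of_mem P hs
    omega
  have h0 : T.S0.InChart P := (T.inChart_or P).resolve_right h1
  have hχ := T.chi0_s_eq_zero P h0 h1
  have hpos := ord_red_pos hxt T.S0 T.r P h0 (hr0 hxt T P h0) hχ T.red_s0_ne_zero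
  rw [T.red_s1_eq, Place.ord_inv]
  omega

/-- the pole divisor built from a divisor of the function. -/
theorem exists_poleDiv {K E : Type*} [Field K] [Field E] [Algebra K E] (s : E)
    (h : ∃ D : Place K E →₀ ℤ, ∀ P, D P = P.ord s) :
    ∃ Dinf : Place K E →₀ ℤ, ∀ P, Dinf P = max (-(P.ord s)) 0 := by
  obtain ⟨D, hD⟩ := h
  refine ⟨D.mapRange (fun n => max (-n) 0) (by simp), fun P => ?_⟩
  rw [Finsupp.mapRange_apply, hD]

include hxt in
/-- **The two abstract charts of a `TwoCharts`**, and their cover. -/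
theorem charts_of_twoCharts
    (princ : (Place L F →₀ ℤ) → (Place (kA A) Ft →₀ ℤ) → Prop)
    (Fr : Place (kA A) Ft ≃ Place (kA A) Ft)
    (hintU0 : ∀ P : Place L F, T.S0.s ∈ P.toValuationSubring →
      ∀ b ∈ T.S0.B, b ∈ P.toValuationSubring)
    (hintU1 : ∀ P : Place L F, T.S1.s ∈ P.toValuationSubring →
      ∀ b ∈ T.S1.B, b ∈ P.toValuationSubring)
    (hintD0 : ∀ Q : Place (kA A) Ft, T.S0.red T.S0.sB ∈ Q.toValuationSubring →
      ∀ b : ↥T.S0.B, T.S0.red b ∈ Q.toValuationSubring)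
    (hintD1 : ∀ Q : Place (kA A) Ft, T.S1.red T.S1.sB ∈ Q.toValuationSubring →
      ∀ b : ↥T.S1.B, T.S1.red b ∈ Q.toValuationSubring)
    (hprinc0 : ∀ b : ↥T.S0.B, T.S0.red b ≠ 0 →
      ∀ (D : Place L F →₀ ℤ) (D' : Place (kA A) Ft →₀ ℤ),
      (∀ P, D P = P.ord (b : F)) → (∀ Q, D' Q = Q.ord (T.S0.red b)) → princ D D')
    (hprinc1 : ∀ b : ↥T.S1.B, T.S1.red b ≠ 0 →
      ∀ (D : Place L F →₀ ℤ) (D' : Place (kA A) Ft →₀ ℤ),
      (∀ P, D P = P.ord (b : F)) → (∀ Q, D' Q = Q.ord (T.S1.red b)) → princ D D')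
    (hdivF : ∀ f : F, f ≠ 0 → ∃ D : Place L F →₀ ℤ, ∀ P, D P = P.ord f)
    (hdivFt : ∀ g : Ft, g ≠ 0 → ∃ D' : Place (kA A) Ft →₀ ℤ, ∀ Q, D' Q = Q.ord g)
    (hunif : ∀ Q : Place (kA A) Ft, ∃ ϖ : Ft, Q.ord ϖ = 1)
    (hdeg0 : ∀ (Dinf : Place L F →₀ ℤ) (Dinf' : Place (kA A) Ft →₀ ℤ),
      (∀ P, Dinf P = max (-(P.ord T.S0.s)) 0) →
      (∀ Q, Dinf' Q = max (-(Q.ord (T.S0.red T.S0.sB))) 0) →
      Dinf.sum (fun _ n => n) = Dinf'.sum (fun _ n => n))
    (hdeg1 : ∀ (Dinf : Place L F →₀ ℤ) (Dinf' : Place (kA A) Ft →₀ ℤ),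
      (∀ P, Dinf P = max (-(P.ord T.S1.s)) 0) →
      (∀ Q, Dinf' Q = max (-(Q.ord (T.S1.red T.S1.sB))) 0) →
      Dinf.sum (fun _ n => n) = Dinf'.sum (fun _ n => n))
    (hFr0 : ∀ Q : Place (kA A) Ft,
      (Fr Q).ord (T.S0.red T.S0.sB) = Q.ord (T.S0.red T.S0.sB)) :
    ∃ (C : Bool → Set (Place L F)) (Dinf : Bool → Place L F →₀ ℤ)
      (Dinf' : Bool → Place (kA A) Ft →₀ ℤ),
      (∀ i, Chart T.r Fr princ (C i) (Dinf i) (Dinf' i)) ∧ ∀ P, ∃ i, P ∈ C i := by
  have hs1F : T.S1.s ≠ 0 := by rw [T.s_inv]; exact inv_ne_zero T.s_ne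
  have hs1t : T.S1.red T.S1.sB ≠ 0 := by
    rw [T.red_s1_eq]; exact inv_ne_zero T.red_s0_ne_zero
  obtain ⟨D0, hD0⟩ := exists_poleDiv T.S0.s (hdivF _ T.s_ne)
  obtain ⟨D0', hD0'⟩ := exists_poleDiv (T.S0.red T.S0.sB) (hdivFt _ T.red_s0_ne_zero)
  obtain ⟨D1, hD1⟩ := exists_poleDiv T.S1.s (hdivF _ hs1F)
  obtain ⟨D1', hD1'⟩ := exists_poleDiv (T.S1.red T.S1.sB) (hdivFt _ hs1t)
  have hFr1 : ∀ Q : Place (kA A) Ft,
      (Fr Q).ord (T.S1.red T.S1.sB) = Q.ord (T.S1.red T.S1.sB) := by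
    intro Q
    rw [T.red_s1_eq, Place.ord_inv, Place.ord_inv, hFr0]
  have hB0 : BridgeHyp T.S0 T.r princ D0 D0' :=
    { hr := hr0 hxt T
      hrbad := hrbad0 hxt T
      hintU := hintU0
      hintD := hintD0
      hprinc := hprinc0
      hst := not_const_of_transcendental T.tr0
      hdivF := hdivF
      hdivFt := hdivFt
      hunif := hunif
      hDinf := hD0
      hDinf' := hD0' }
  have hB1 : BridgeHyp T.S1 T.r princ D1 D1' :=
    { hr := hr1 hxt T
      hrbad := hrbad1 hxt T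
      hintU := hintU1
      hintD := hintD1
      hprinc := hprinc1
      hst := not_const_of_transcendental T.tr1
      hdivF := hdivF
      hdivFt := hdivFt
      hunif := hunif
      hDinf := hD1
      hDinf' := hD1' }
  have hst0 : ∀ Q, Q ∈ D0'.support ↔ Fr Q ∈ D0'.support := by
    intro Q
    rw [mem_support_Dinf'_iff hB0, mem_support_Dinf'_iff hB0, hFr0]
  have hst1 : ∀ Q, Q ∈ D1'.support ↔ Fr Q ∈ D1'.support := by
    intro Q
    rw [mem_support_Dinf'_iff hB1, mem_support_Dinf'_iff hB1, hFr1]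
  have hC0 := chart_of_bridge hxt hB0 Fr (hdeg0 D0 D0' hD0 hD0') hst0
  have hC1 := chart_of_bridge hxt hB1 Fr (hdeg1 D1 D1' hD1 hD1') hst1
  refine ⟨fun i => cond i {P | T.S1.InChart P} {P | T.S0.InChart P},
    fun i => cond i D1 D0, fun i => cond i D1' D0', ?_, ?_⟩
  · intro i
    cases i
    · exact hC0
    · exact hC1
  · intro P
    rcases T.inChart_or P with h | h
    · exact ⟨false, h⟩
    · exact ⟨true, h⟩

end Generic

section Concrete

open ModularCurve HahnSeries IntermediateField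
open Fermat.Agent.X0 Fermat.Agent.ES.KRON.KronMain24 Fermat.Agent.ES.KRON.FrobPlace13

variable (M ℓ : ℕ) [NeZero M] [NeZero ℓ] [hℓ : Fact ℓ.Prime]
variable (A : ValuationSubring Kbar) [CharP (kA A) ℓ] [IsAlgClosed (kA A)]

/-- `princ` from an `A`-integral `q`-expansion reducing to `red b`. -/
theorem princ_of_series
    (b : ↥(laurentBaseChange Kbar (modularFunctionFieldFull M)))
    (bt : ↥(modularFunctionFieldFullC (kA A) M)) (hbt : bt ≠ 0)
    (hG : ∃ y : LaurentSeries A, coeffMap A.subtype y = (b : LaurentSeries Kbar) ∧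
      coeffMap (resA A) y = (bt : LaurentSeries (kA A)))
    (D : Place Kbar ↥(laurentBaseChange Kbar (modularFunctionFieldFull M)) →₀ ℤ)
    (D' : Place (kA A) ↥(modularFunctionFieldFullC (kA A) M) →₀ ℤ)
    (hD : ∀ P, D P = P.ord b) (hD' : ∀ Q, D' Q = Q.ord bt) :
    princ M A (resA A) D D' := by
  obtain ⟨y, h1, h2⟩ := hG
  have hy : coeffMap A.subtype y ∈ laurentBaseChange Kbar (modularFunctionFieldFull M) := by
    rw [h1]; exact b.2
  have hyk : coeffMap (resA A) y ∈ modularFunctionFieldFullC (kA A) M := by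
    rw [h2]; exact bt.2
  have e1 : (⟨coeffMap A.subtype y, hy⟩ :
      ↥(laurentBaseChange Kbar (modularFunctionFieldFull M))) = b := Subtype.ext h1
  have e2 : (⟨coeffMap (resA A) y, hyk⟩ : ↥(modularFunctionFieldFullC (kA A) M)) = bt :=
    Subtype.ext h2
  refine ⟨y, hy, hyk, ?_, ?_, ?_⟩
  · rw [h2]
    intro h0
    exact hbt (Subtype.ext h0)
  · intro P; rw [e1]; exact hD P
  · intro Q; rw [e2]; exact hD' Q

/-- **(ES-div), final form**: `r_* (T_ℓ D) = Fr_* (r_* D) + ℓ · Fr⁻¹_* (r_* D)` for the reduction map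
`r = T.r` of a `TwoCharts`. -/
theorem es_div_main
    {x : ↥(laurentBaseChange Kbar (modularFunctionFieldFull M))} {hx : IsGen Kbar x}
    (T : TwoCharts A hx ↥(modularFunctionFieldFullC (kA A) M))
    {xt : ↥(modularFunctionFieldFullC (kA A) M)} (hxt : IsGen (kA A) xt)
    [Algebra.IsSeparable (kA A)⟮xt⟯ ↥(modularFunctionFieldFullC (kA A) M)]
    (hℓM : ¬ ℓ ∣ M)
    (hα : HeckeAlphaBarIntegral Kbar M ℓ) (hβ : HeckeBetaBarIntegral Kbar M ℓ)
    [HasPrincipalDivisors Kbar (laurentBaseChange Kbar (modularFunctionFieldFull (M * ℓ)))]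
    [HasPrincipalDivisors Kbar (laurentBaseChange Kbar (modularFunctionFieldFull M))]
    (hFI : FundamentalIdentityAlong Kbar (heckeBetaBar Kbar M ℓ) hβ)
    (hfin : FiniteAlong Kbar (heckeAlphaBar Kbar M ℓ))
    (hN : NormFormulaAlong Kbar (heckeAlphaBar Kbar M ℓ) hfin)
    (hdegP : ∀ P : Place Kbar (laurentBaseChange Kbar (modularFunctionFieldFull M)), P.deg = 1)
    (hr : IsPlaceReductionAlong A (resA A) M T.r)
    (hintU0 : ∀ P : Place Kbar ↥(laurentBaseChange Kbar (modularFunctionFieldFull M)),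
      T.S0.s ∈ P.toValuationSubring → ∀ b ∈ T.S0.B, b ∈ P.toValuationSubring)
    (hintU1 : ∀ P : Place Kbar ↥(laurentBaseChange Kbar (modularFunctionFieldFull M)),
      T.S1.s ∈ P.toValuationSubring → ∀ b ∈ T.S1.B, b ∈ P.toValuationSubring)
    (hintD0 : ∀ Q : Place (kA A) ↥(modularFunctionFieldFullC (kA A) M),
      T.S0.red T.S0.sB ∈ Q.toValuationSubring → ∀ b : ↥T.S0.B, T.S0.red b ∈ Q.toValuationSubring)
    (hintD1 : ∀ Q : Place (kA A) ↥(modularFunctionFieldFullC (kA A) M),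
      T.S1.red T.S1.sB ∈ Q.toValuationSubring → ∀ b : ↥T.S1.B, T.S1.red b ∈ Q.toValuationSubring)
    (hG0 : ∀ b : ↥T.S0.B, ∃ y : LaurentSeries A,
      coeffMap A.subtype y =
        (((b : ↥(laurentBaseChange Kbar (modularFunctionFieldFull M))) : LaurentSeries Kbar)) ∧
      coeffMap (resA A) y = ((T.S0.red b : ↥(modularFunctionFieldFullC (kA A) M)) :
        LaurentSeries (kA A)))
    (hG1 : ∀ b : ↥T.S1.B, ∃ y : LaurentSeries A,
      coeffMap A.subtype y =
        (((b : ↥(laurentBaseChange Kbar (modularFunctionFieldFull M))) : LaurentSeries Kbar)) ∧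
      coeffMap (resA A) y = ((T.S1.red b : ↥(modularFunctionFieldFullC (kA A) M)) :
        LaurentSeries (kA A)))
    (hdeg0 : ∀ (Dinf : Place Kbar ↥(laurentBaseChange Kbar (modularFunctionFieldFull M)) →₀ ℤ)
      (Dinf' : Place (kA A) ↥(modularFunctionFieldFullC (kA A) M) →₀ ℤ),
      (∀ P, Dinf P = max (-(P.ord T.S0.s)) 0) →
      (∀ Q, Dinf' Q = max (-(Q.ord (T.S0.red T.S0.sB))) 0) →
      Dinf.sum (fun _ n => n) = Dinf'.sum (fun _ n => n))
    (hdeg1 : ∀ (Dinf : Place Kbar ↥(laurentBaseChange Kbar (modularFunctionFieldFull M)) →₀ ℤ)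
      (Dinf' : Place (kA A) ↥(modularFunctionFieldFullC (kA A) M) →₀ ℤ),
      (∀ P, Dinf P = max (-(P.ord T.S1.s)) 0) →
      (∀ Q, Dinf' Q = max (-(Q.ord (T.S1.red T.S1.sB))) 0) →
      Dinf.sum (fun _ n => n) = Dinf'.sum (fun _ n => n))
    (hfix : frobSemi (kA A) ℓ M • T.S0.red T.S0.sB = T.S0.red T.S0.sB)
    (D : Divisor Kbar (laurentBaseChange Kbar (modularFunctionFieldFull M))) :
    Finsupp.mapDomain T.r (heckeDivBar hα hβ D) =
      Finsupp.mapDomain (frobPlace (kA A) ℓ M) (Finsupp.mapDomain T.r D) +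
        (ℓ : ℤ) • Finsupp.mapDomain (frobPlace (kA A) ℓ M).symm (Finsupp.mapDomain T.r D) := by
  have hFr0 : ∀ Q : Place (kA A) ↥(modularFunctionFieldFullC (kA A) M),
      (frobPlace (kA A) ℓ M Q).ord (T.S0.red T.S0.sB) = Q.ord (T.S0.red T.S0.sB) := by
    intro Q
    have := ord_frobPlace (kA A) ℓ M Q (T.S0.red T.S0.sB)
    rwa [hfix] at this
  obtain ⟨C, Dinf, Dinf', hC, hcov⟩ := charts_of_twoCharts hxt T (princ M A (resA A))
    (frobPlace (kA A) ℓ M) hintU0 hintU1 hintD0 hintD1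
    (fun b hb D D' hD hD' => princ_of_series M A _ _ hb (hG0 b) D D' hD hD')
    (fun b hb D D' hD hD' => princ_of_series M A _ _ hb (hG1 b) D D' hD hD')
    (fun f hf => (HasPrincipalDivisors.exists_divisor f hf).imp fun D h => h.1)
    (fun g hg => Fermat.Agent.ES.KRON.FinDiv18.exists_divisor hxt hg)
    (fun Q => Fermat.Agent.ES.KRON.FinDiv18.exists_ord_eq_one Q)
    hdeg0 hdeg1 hFr0
  exact es_div_of_charts M ℓ A (resA A) hℓM hα hβ hFI hfin hN hdegP hr hC hcov D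

end Concrete

end Fermat.Agent.ES.KRON.EsDivMain24
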