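/-
Program I (S37), chapter ES/KRON, helper11: from the divisor-level Eichler–Shimura relation
(`KronMain24.es_div_of_charts`) to `Pic⁰`.

* `es_pic0_of_div` : if `r_* (T_ℓ D) = Fr_* (r_* D) + ℓ · Fr⁻¹_* (r_* D)` for all divisors `D`, then
  `red (T_ℓ y) = Fr • red y + ℓ • Fr⁻¹ • red y` on `Pic⁰`, for `red := reductionPic0Along r hr hgen`,
  `T_ℓ := heckeOperatorAlong Kbar M ℓ`, `Fr := frobSemi k ℓ M` acting on `JZeroC k M`;
* `es_pic0_of_charts` : the same from the chart data of `EsDivAbs24`;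
* `es_relation_of_frob` (abstract) and `es_relation` : if moreover `red (σ • x) = Fr • red x`, then
  `red (σ • σ • x - T_ℓ (σ • x) + ℓ • x) = 0`.
-/
import Mathlib
import Fermat.Agent.ES.KRON.KronMain24

set_option autoImplicit false
set_option linter.unusedSectionVars false

open ModularCurve AlgebraicCurve HahnSeries IntermediateField

noncomputable section

namespace Fermat.Agent.ES.KRON.EsPic11

open Fermat.Agent.X0
open Fermat.Agent.ES.KRON.FrobPlace13
open Fermat.Agent.ES.KRON.KronMain24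
open Fermat.Agent.ES.HECKE.PointFormula28

section Abstract

/-- **The Eichler–Shimura relation, formal step**: from `red ∘ T = (Fr + ℓ Fr⁻¹) ∘ red` and
`red ∘ σ = Fr ∘ red` one gets `red (σ² x - T (σ x) + ℓ x) = 0`. -/
theorem es_relation_of_frob {J J' : Type*} [AddCommGroup J] [AddCommGroup J'] (red : J →+ J')
    (T : J →+ J) (σ : J → J) (Fr Fri : J' → J') (hFri : ∀ z, Fri (Fr z) = z) (ℓ : ℕ)
    (hT : ∀ y, red (T y) = Fr (red y) + (ℓ : ℤ) • Fri (red y))
    (hσ : ∀ x, red (σ x) = Fr (red x)) (x : J) :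
    red (σ (σ x) - T (σ x) + ℓ • x) = 0 := by
  rw [map_add, map_sub, map_nsmul, hT, hσ (σ x), hσ x, hFri, natCast_zsmul]
  abel

end Abstract

section Pic

variable (M ℓ : ℕ) [NeZero M] [NeZero ℓ] [hℓ : Fact ℓ.Prime]
variable (A : ValuationSubring Kbar) {k : Type*} [Field k] [CharP k ℓ] [PerfectField k]
  (π : A →+* k)

/-- **(ES) on `Pic⁰` from (ES) on divisors.** -/
theorem es_pic0_of_div
    (hα : HeckeAlphaBarIntegral Kbar M ℓ) (hβ : HeckeBetaBarIntegral Kbar M ℓ)
    [HasPrincipalDivisors Kbar (laurentBaseChange Kbar (modularFunctionFieldFull (M * ℓ)))]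
    (hFI : FundamentalIdentityAlong Kbar (heckeBetaBar Kbar M ℓ) hβ)
    (hfin : FiniteAlong Kbar (heckeAlphaBar Kbar M ℓ))
    (hN : NormFormulaAlong Kbar (heckeAlphaBar Kbar M ℓ) hfin)
    {r : Place Kbar (laurentBaseChange Kbar (modularFunctionFieldFull M)) →
      Place k (modularFunctionFieldFullC k M)}
    (hr : IsPlaceReductionAlong A π M r) (hgen : PrincipalGeneratedByIntegral A π M)
    (hdiv : ∀ D : Divisor Kbar (laurentBaseChange Kbar (modularFunctionFieldFull M)),
      Finsupp.mapDomain r (heckeDivBar hα hβ D) =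
        Finsupp.mapDomain (frobPlace k ℓ M) (Finsupp.mapDomain r D) +
          (ℓ : ℤ) • Finsupp.mapDomain (frobPlace k ℓ M).symm (Finsupp.mapDomain r D))
    (y : Pic0 Kbar (laurentBaseChange Kbar (modularFunctionFieldFull M))) :
    reductionPic0Along r hr hgen (heckeOperatorAlong Kbar M ℓ y) =
      frobSemi k ℓ M • reductionPic0Along r hr hgen y +
        (ℓ : ℤ) • ((frobSemi k ℓ M)⁻¹ • reductionPic0Along r hr hgen y) := by
  obtain ⟨D, rfl⟩ := Pic0.mk_surjective y
  rw [heckeOperatorAlong_mk hα hβ hFI hfin hN D, reductionPic0Along_mk, reductionPic0Along_mk,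
    SemilinearAut.pic0_smul_mk, SemilinearAut.pic0_smul_mk]
  have hz : ∀ (n : ℤ) (X : Divisor.degZero (K := k) (F := modularFunctionFieldFullC k M)),
      n • Pic0.mk X = Pic0.mk (n • X) := fun n X => (QuotientAddGroup.mk_zsmul _ X n).symm
  rw [hz, ← Pic0.mk_add]
  refine congrArg Pic0.mk (Subtype.ext ?_)
  exact hdiv D

/-- **(ES) on `Pic⁰` from the chart data** of `EsDivAbs24` (through `KronMain24.es_div_of_charts`). -/
theorem es_pic0_of_charts (hℓM : ¬ ℓ ∣ M)
    (hα : HeckeAlphaBarIntegral Kbar M ℓ) (hβ : HeckeBetaBarIntegral Kbar M ℓ)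
    [HasPrincipalDivisors Kbar (laurentBaseChange Kbar (modularFunctionFieldFull (M * ℓ)))]
    (hFI : FundamentalIdentityAlong Kbar (heckeBetaBar Kbar M ℓ) hβ)
    (hfin : FiniteAlong Kbar (heckeAlphaBar Kbar M ℓ))
    (hN : NormFormulaAlong Kbar (heckeAlphaBar Kbar M ℓ) hfin)
    (hdeg : ∀ P : Place Kbar (laurentBaseChange Kbar (modularFunctionFieldFull M)), P.deg = 1)
    {r : Place Kbar (laurentBaseChange Kbar (modularFunctionFieldFull M)) →
      Place k (modularFunctionFieldFullC k M)}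
    (hr : IsPlaceReductionAlong A π M r) (hgen : PrincipalGeneratedByIntegral A π M)
    {ι : Type*} {C : ι → Set (Place Kbar (laurentBaseChange Kbar (modularFunctionFieldFull M)))}
    {Dinf : ι → Divisor Kbar (laurentBaseChange Kbar (modularFunctionFieldFull M))}
    {Dinf' : ι → Divisor k (modularFunctionFieldFullC k M)}
    (hC : ∀ i, Fermat.Agent.ES.KRON.EsDivAbs24.Chart r (frobPlace k ℓ M) (princ M A π) (C i)
      (Dinf i) (Dinf' i))
    (hcov : ∀ P, ∃ i, P ∈ C i)
    (y : Pic0 Kbar (laurentBaseChange Kbar (modularFunctionFieldFull M))) :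
    reductionPic0Along r hr hgen (heckeOperatorAlong Kbar M ℓ y) =
      frobSemi k ℓ M • reductionPic0Along r hr hgen y +
        (ℓ : ℤ) • ((frobSemi k ℓ M)⁻¹ • reductionPic0Along r hr hgen y) :=
  es_pic0_of_div M ℓ A π hα hβ hFI hfin hN hr hgen
    (es_div_of_charts M ℓ A π hℓM hα hβ hFI hfin hN hdeg hr hC hcov) y

/-- **The Eichler–Shimura relation on the special fibre, pulled back along `red`**: if
`red (σ x) = Fr • red x` (e.g. `σ` the action of a Frobenius element at `A`), then
`red (σ² x - T_ℓ (σ x) + ℓ x) = 0`. -/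
theorem es_relation
    {r : Place Kbar (laurentBaseChange Kbar (modularFunctionFieldFull M)) →
      Place k (modularFunctionFieldFullC k M)}
    (hr : IsPlaceReductionAlong A π M r) (hgen : PrincipalGeneratedByIntegral A π M)
    (hES : ∀ y : Pic0 Kbar (laurentBaseChange Kbar (modularFunctionFieldFull M)),
      reductionPic0Along r hr hgen (heckeOperatorAlong Kbar M ℓ y) =
        frobSemi k ℓ M • reductionPic0Along r hr hgen y +
          (ℓ : ℤ) • ((frobSemi k ℓ M)⁻¹ • reductionPic0Along r hr hgen y))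
    (σ : Pic0 Kbar (laurentBaseChange Kbar (modularFunctionFieldFull M)) →
      Pic0 Kbar (laurentBaseChange Kbar (modularFunctionFieldFull M)))
    (hσ : ∀ x, reductionPic0Along r hr hgen (σ x) =
      frobSemi k ℓ M • reductionPic0Along r hr hgen x)
    (x : Pic0 Kbar (laurentBaseChange Kbar (modularFunctionFieldFull M))) :
    reductionPic0Along r hr hgen (σ (σ x) - heckeOperatorAlong Kbar M ℓ (σ x) + ℓ • x) = 0 :=
  by
  rw [map_add, map_sub, map_nsmul, hES, hσ (σ x), hσ x, inv_smul_smul, natCast_zsmul]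
  abel

end Pic

end Fermat.Agent.ES.KRON.EsPic11
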