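/-
Program I (S37), chapter KRON — helper13.  **(K3)**: the relative Frobenius on places, divisors and
`Pic0`, abstract form.

Setting: `F / k` a field extension, `l` the exponential characteristic of `F`, and a `k`-algebra
endomorphism `φ : F →ₐ[k] F` whose image is exactly `F ^ l` (`IsRelFrob l φ`): a purely
inseparable self-map of degree `l` ("relative Frobenius", `φ f = (f^(σ⁻¹))^l`).  Assume every place
of `F / k` has degree one (e.g. `k` algebraically closed).  Then

* `frobPlaceEquiv` : `w ↦ w.restrictAlong φ` is a bijection of `Place k F` (the Frobenius `Fr` on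
  places), with `w.ord (φ x) = l * (Fr w).ord x` (`ord_map`), ramification index `l`
  (`ramificationIndexAlong_eq`) and inertia degree `1` (`inertiaDegAlong_eq_one`);
* `pushDiv` (`Fr_*`, `[w] ↦ [Fr w]`) and `pullDiv` (`Fr^*`, `[v] ↦ l [Fr⁻¹ v]`) on divisors satisfy
  `Fr_* Fr^* = l = Fr^* Fr_*`, preserve degree zero / principal divisors, and coincide with the
  Prelude's `Divisor.pushforwardAlong φ` / `Divisor.pullbackAlong φ`;
* `frobPush`, `frobPull : Pic0 k F →+ Pic0 k F` with
  `frobPush (frobPull x) = l • x = frobPull (frobPush x)`.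
-/
import Mathlib
import Fermat.Prelude.Def_AlgebraicCurve_Correspondence

set_option autoImplicit false
set_option linter.unusedSectionVars false
set_option linter.style.haveILetI false

noncomputable section

namespace Fermat.Agent.ES.KRON.FrobPic13

open AlgebraicCurve

variable {k F : Type*} [Field k] [Field F] [Algebra k F]

/-- `φ` is a relative Frobenius of degree `l`: its image is exactly the subfield of `l`-th
powers. -/
structure IsRelFrob (l : ℕ) (φ : F →ₐ[k] F) : Prop where
  exists_pow : ∀ x : F, ∃ y : F, φ x = y ^ l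
  exists_root : ∀ y : F, ∃ x : F, φ x = y ^ l

/-- `x ^ l ∈ O ↔ x ∈ O` for a valuation subring (`l ≠ 0`). -/
theorem pow_mem_valuationSubring_iff (O : ValuationSubring F) {l : ℕ} (hl : l ≠ 0) (x : F) :
    x ^ l ∈ O ↔ x ∈ O := by
  rw [← ValuationSubring.valuation_le_one_iff, ← ValuationSubring.valuation_le_one_iff, map_pow]
  exact pow_le_one_iff hl

theorem ne_zero_of_expChar (F : Type*) [Field F] (l : ℕ) [ExpChar F l] : l ≠ 0 :=
  (expChar_pos F l).ne'

theorem mk_zsmul (n : ℤ) (D : Divisor.degZero (K := k) (F := F)) :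
    Pic0.mk (n • D) = n • Pic0.mk D := rfl

namespace IsRelFrob

variable {l : ℕ} {φ : F →ₐ[k] F} (h : IsRelFrob l φ)

include h in
theorem isIntegral (hl : l ≠ 0) : φ.toRingHom.IsIntegral := by
  intro y
  obtain ⟨x, hx⟩ := h.exists_root y
  refine ⟨Polynomial.X ^ l - Polynomial.C x, Polynomial.monic_X_pow_sub_C x hl, ?_⟩
  rw [Polynomial.eval₂_sub, Polynomial.eval₂_pow, Polynomial.eval₂_X, Polynomial.eval₂_C]
  show y ^ l - φ x = 0
  rw [hx, sub_self]

theorem injective : Function.Injective φ := φ.toRingHom.injective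

/-- the `l`-th root map `ψ = φ⁻¹ ∘ (· ^ l)`. -/
def root (y : F) : F := Classical.choose (h.exists_root y)

theorem map_root (y : F) : φ (h.root y) = y ^ l := Classical.choose_spec (h.exists_root y)

theorem root_map (x : F) : h.root (φ x) = x ^ l :=
  injective (φ := φ) (by rw [map_root, map_pow])

variable [ExpChar F l]

/-- `ψ` as a ring homomorphism. -/
def rootHom : F →+* F where
  toFun := h.root
  map_one' := injective (φ := φ) (by rw [map_root, one_pow, map_one])
  map_mul' a b := injective (φ := φ) (by rw [map_root, map_mul, map_root, map_root, mul_pow])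
  map_zero' := injective (φ := φ) (by rw [map_root, map_zero, zero_pow (ne_zero_of_expChar F l)])
  map_add' a b := injective (φ := φ) (by
    rw [map_root, map_add, map_root, map_root, add_pow_expChar])

@[simp] theorem rootHom_apply (y : F) : h.rootHom y = h.root y := rfl

theorem map_rootHom (y : F) : φ (h.rootHom y) = y ^ l := h.map_root y

theorem rootHom_map (x : F) : h.rootHom (φ x) = x ^ l := h.root_map x

theorem rootHom_surjective : Function.Surjective h.rootHom := by
  intro x
  obtain ⟨y, hy⟩ := h.exists_pow x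
  exact ⟨y, injective (φ := φ) (by rw [map_rootHom, hy])⟩

/-- `ψ` as a ring automorphism of `F`. -/
def rootEquiv : F ≃+* F :=
  RingEquiv.ofBijective h.rootHom ⟨h.rootHom.injective, h.rootHom_surjective⟩

@[simp] theorem rootEquiv_apply (y : F) : h.rootEquiv y = h.rootHom y := rfl

theorem rootHom_algebraMap (a : k) : h.rootHom (algebraMap k F a) = algebraMap k F (a ^ l) :=
  injective (φ := φ) (by rw [map_rootHom, φ.commutes, map_pow])

theorem rootHom_ne_zero {y : F} (hy : y ≠ 0) : h.rootHom y ≠ 0 :=
  (map_ne_zero h.rootHom).mpr hy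

/-! ### the Frobenius on places -/

/-- `Fr w = w ∘ φ` (restriction of the place along `φ`). -/
def frobPlace (w : Place k F) : Place k F :=
  w.restrictAlong φ (h.isIntegral (ne_zero_of_expChar F l))

theorem mem_frobPlace_iff (w : Place k F) (x : F) :
    x ∈ (h.frobPlace w).toValuationSubring ↔ φ x ∈ w.toValuationSubring := Iff.rfl

/-- the inverse `Fr⁻¹ v = v ∘ ψ`. -/
def frobPlaceInv (v : Place k F) : Place k F where
  toValuationSubring := v.toValuationSubring.comap h.rootHom
  algebraMap_mem' a := by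
    rw [ValuationSubring.mem_comap, rootHom_algebraMap]
    exact v.algebraMap_mem' _
  ne_top' := by
    intro htop
    apply v.ne_top'
    refine SetLike.ext fun x => ⟨fun _ => ValuationSubring.mem_top x, fun _ => ?_⟩
    obtain ⟨y, rfl⟩ := h.rootHom_surjective x
    have : y ∈ v.toValuationSubring.comap h.rootHom := htop ▸ ValuationSubring.mem_top y
    exact ValuationSubring.mem_comap.mp this
  isPrincipalIdealRing' := by
    let g : v.toValuationSubring →+* (v.toValuationSubring.comap h.rootHom : ValuationSubring F) :=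
      { toFun := fun x => ⟨h.rootEquiv.symm (x : F), by
          rw [ValuationSubring.mem_comap, ← rootEquiv_apply, RingEquiv.apply_symm_apply]
          exact x.2⟩
        map_one' := Subtype.ext (map_one h.rootEquiv.symm)
        map_mul' := fun a b => Subtype.ext (map_mul h.rootEquiv.symm (a : F) (b : F))
        map_zero' := Subtype.ext (map_zero h.rootEquiv.symm)
        map_add' := fun a b => Subtype.ext (map_add h.rootEquiv.symm (a : F) (b : F)) }
    refine IsPrincipalIdealRing.of_surjective g ?_
    rintro ⟨y, hy⟩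
    refine ⟨⟨h.rootHom y, ValuationSubring.mem_comap.mp hy⟩, Subtype.ext ?_⟩
    show h.rootEquiv.symm (h.rootHom y) = y
    rw [← rootEquiv_apply, RingEquiv.symm_apply_apply]

theorem mem_frobPlaceInv_iff (v : Place k F) (y : F) :
    y ∈ (h.frobPlaceInv v).toValuationSubring ↔ h.rootHom y ∈ v.toValuationSubring := Iff.rfl

theorem frobPlaceInv_frobPlace (w : Place k F) : h.frobPlaceInv (h.frobPlace w) = w := by
  apply Place.ext
  ext y
  rw [mem_frobPlaceInv_iff, mem_frobPlace_iff, map_rootHom,
    pow_mem_valuationSubring_iff _ (ne_zero_of_expChar F l)]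

theorem frobPlace_frobPlaceInv (v : Place k F) : h.frobPlace (h.frobPlaceInv v) = v := by
  apply Place.ext
  ext x
  rw [mem_frobPlace_iff, mem_frobPlaceInv_iff, rootHom_map,
    pow_mem_valuationSubring_iff _ (ne_zero_of_expChar F l)]

/-- **the Frobenius bijection on places.** -/
def frobPlaceEquiv : Place k F ≃ Place k F where
  toFun := h.frobPlace
  invFun := h.frobPlaceInv
  left_inv := h.frobPlaceInv_frobPlace
  right_inv := h.frobPlace_frobPlaceInv

@[simp] theorem frobPlaceEquiv_apply (w : Place k F) : h.frobPlaceEquiv w = h.frobPlace w := rfl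

@[simp] theorem frobPlaceEquiv_symm_apply (v : Place k F) :
    h.frobPlaceEquiv.symm v = h.frobPlaceInv v := rfl

/-! ### ramification and inertia -/

theorem ord_pow (w : Place k F) (y : F) (n : ℕ) : w.ord (y ^ n) = n * w.ord y := by
  rw [← zpow_natCast, w.ord_zpow]

include h in
/-- the ramification index of `φ` at every place is `l`. -/
theorem ramificationIndexAlong_eq (w : Place k F) : Place.ramificationIndexAlong φ w = l := by
  have hl := ne_zero_of_expChar F l
  show sInf {n : ℕ | 0 < n ∧ ∃ f : F, f ≠ 0 ∧ w.ord (φ f) = n} = l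
  apply le_antisymm
  · apply Nat.sInf_le
    obtain ⟨π, hπ⟩ := IsDiscreteValuationRing.exists_irreducible w.toValuationSubring
    have hπ0 : (π : F) ≠ 0 := by
      simpa [ne_eq, ZeroMemClass.coe_eq_zero] using hπ.ne_zero
    refine ⟨Nat.pos_of_ne_zero hl, h.rootHom (π : F), h.rootHom_ne_zero hπ0, ?_⟩
    rw [map_rootHom, ord_pow, w.ord_coe_irreducible hπ, mul_one]
  · apply le_csInf
    · obtain ⟨π, hπ⟩ := IsDiscreteValuationRing.exists_irreducible w.toValuationSubring
      have hπ0 : (π : F) ≠ 0 := by
        simpa [ne_eq, ZeroMemClass.coe_eq_zero] using hπ.ne_zero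
      exact ⟨l, Nat.pos_of_ne_zero hl, h.rootHom (π : F), h.rootHom_ne_zero hπ0, by
        rw [map_rootHom, ord_pow, w.ord_coe_irreducible hπ, mul_one]⟩
    · rintro n ⟨hn, f, hf, hfn⟩
      obtain ⟨y, hy⟩ := h.exists_pow f
      rw [hy, ord_pow] at hfn
      have h1 : 0 < (l : ℤ) * w.ord y := by rw [hfn]; exact_mod_cast hn
      have h2 : 0 < w.ord y := by
        by_contra hle
        have : (l : ℤ) * w.ord y ≤ 0 :=
          mul_nonpos_of_nonneg_of_nonpos (Int.natCast_nonneg l) (not_lt.mp hle)
        omega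
      have h3 : (l : ℤ) ≤ (l : ℤ) * w.ord y := by
        calc (l : ℤ) = (l : ℤ) * 1 := (mul_one _).symm
          _ ≤ (l : ℤ) * w.ord y := mul_le_mul_of_nonneg_left (by omega) (Int.natCast_nonneg l)
      rw [hfn] at h3
      exact_mod_cast h3

/-- `ord_w (φ x) = l · ord_{Fr w} x`. -/
theorem ord_map (w : Place k F) (x : F) : w.ord (φ x) = l * (h.frobPlace w).ord x := by
  rw [Place.ord_restrictAlong φ (h.isIntegral (ne_zero_of_expChar F l)) w x,
    h.ramificationIndexAlong_eq w]
  rfl

theorem ord_frobPlace_pos_iff (w : Place k F) (x : F) :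
    0 < (h.frobPlace w).ord x ↔ 0 < w.ord (φ x) := by
  rw [h.ord_map]
  have hl : (0 : ℤ) < l := by exact_mod_cast Nat.pos_of_ne_zero (ne_zero_of_expChar F l)
  constructor
  · intro hx; exact mul_pos hl hx
  · intro hx; exact (mul_pos_iff_of_pos_left hl).mp hx

theorem ord_frobPlace_nonneg_iff (w : Place k F) (x : F) :
    0 ≤ (h.frobPlace w).ord x ↔ 0 ≤ w.ord (φ x) := by
  rw [h.ord_map]
  have hl : (0 : ℤ) < l := by exact_mod_cast Nat.pos_of_ne_zero (ne_zero_of_expChar F l)
  constructor
  · intro hx; exact mul_nonneg hl.le hx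
  · intro hx; exact (mul_nonneg_iff_of_pos_left hl).mp hx

/-- the value of `x` at `Fr w` is the value of `φ x` at `w` (values in `k`). -/
theorem ord_frobPlace_sub_pos_iff (w : Place k F) (x : F) (a : k) :
    0 < (h.frobPlace w).ord (x - algebraMap k F a) ↔ 0 < w.ord (φ x - algebraMap k F a) := by
  rw [h.ord_frobPlace_pos_iff, map_sub, φ.commutes]

/-- `ord_{Fr w} (ψ y) = ord_w y`. -/
theorem ord_frobPlace_rootHom (w : Place k F) (y : F) :
    (h.frobPlace w).ord (h.rootHom y) = w.ord y := by
  have h1 := h.ord_map w (h.rootHom y)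
  rw [map_rootHom, ord_pow] at h1
  have hl : (l : ℤ) ≠ 0 := by exact_mod_cast (ne_zero_of_expChar F l)
  exact (mul_left_cancel₀ hl h1).symm

variable (hdeg : ∀ w : Place k F, w.deg = 1)

include hdeg in
/-- the inertia degree of `φ` at every place is `1` (all places have degree one). -/
theorem inertiaDegAlong_eq_one (w : Place k F) :
    Place.inertiaDegAlong φ (h.isIntegral (ne_zero_of_expChar F l)) w = 1 := by
  letI := algebraAlong φ
  haveI := isScalarTower_along φ
  haveI := isIntegral_along φ (h.isIntegral (ne_zero_of_expChar F l))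
  have h1 : (w.restrict F).deg * w.inertiaDeg F = w.deg := w.deg_restrict_mul_inertiaDeg (F := F)
  rw [hdeg, hdeg, one_mul] at h1
  exact h1

/-! ### divisors -/

/-- `Fr_*` on divisors: `[w] ↦ [Fr w]`. -/
def pushDiv : Divisor k F →+ Divisor k F :=
  (Finsupp.domCongr h.frobPlaceEquiv : (Place k F →₀ ℤ) ≃+ (Place k F →₀ ℤ)).toAddMonoidHom

/-- `Fr^*` on divisors: `[v] ↦ l [Fr⁻¹ v]`. -/
def pullDiv : Divisor k F →+ Divisor k F :=
  (l : ℤ) • (Finsupp.domCongr h.frobPlaceEquiv.symm :
    (Place k F →₀ ℤ) ≃+ (Place k F →₀ ℤ)).toAddMonoidHom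

theorem pushDiv_apply (D : Divisor k F) (v : Place k F) :
    h.pushDiv D v = D (h.frobPlaceInv v) := by
  show (Finsupp.domCongr h.frobPlaceEquiv D) v = _
  rw [Finsupp.domCongr_apply, Finsupp.equivMapDomain_apply]
  rfl

theorem pushDiv_apply_frobPlace (D : Divisor k F) (w : Place k F) :
    h.pushDiv D (h.frobPlace w) = D w := by
  rw [pushDiv_apply, frobPlaceInv_frobPlace]

theorem pullDiv_apply (D : Divisor k F) (w : Place k F) :
    h.pullDiv D w = l * D (h.frobPlace w) := by
  show ((l : ℤ) • (Finsupp.domCongr h.frobPlaceEquiv.symm D)) w = _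
  rw [Finsupp.smul_apply, Finsupp.domCongr_apply, Finsupp.equivMapDomain_apply, smul_eq_mul]
  rfl

theorem pushDiv_single (w : Place k F) (n : ℤ) :
    h.pushDiv (Finsupp.single w n) = Finsupp.single (h.frobPlace w) n := by
  show Finsupp.domCongr h.frobPlaceEquiv (Finsupp.single w n) = _
  rw [Finsupp.domCongr_apply, Finsupp.equivMapDomain_single]
  rfl

theorem pullDiv_single (v : Place k F) (n : ℤ) :
    h.pullDiv (Finsupp.single v n) = Finsupp.single (h.frobPlaceInv v) (l * n) := by
  show (l : ℤ) • Finsupp.domCongr h.frobPlaceEquiv.symm (Finsupp.single v n) = _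
  rw [Finsupp.domCongr_apply, Finsupp.equivMapDomain_single, Finsupp.smul_single, smul_eq_mul]
  rfl

/-- **`Fr_* Fr^* = l`** on divisors. -/
theorem pushDiv_pullDiv (D : Divisor k F) : h.pushDiv (h.pullDiv D) = (l : ℤ) • D := by
  ext v
  rw [pushDiv_apply, pullDiv_apply, frobPlace_frobPlaceInv, Finsupp.smul_apply, smul_eq_mul]

/-- **`Fr^* Fr_* = l`** on divisors. -/
theorem pullDiv_pushDiv (D : Divisor k F) : h.pullDiv (h.pushDiv D) = (l : ℤ) • D := by
  ext w
  rw [pullDiv_apply, pushDiv_apply_frobPlace, Finsupp.smul_apply, smul_eq_mul]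

include hdeg in
theorem degree_pushDiv (D : Divisor k F) : Divisor.degree (h.pushDiv D) = Divisor.degree D := by
  induction D using Finsupp.induction with
  | zero => simp
  | single_add w n D _ _ ih =>
    rw [map_add, map_add, map_add, ih, pushDiv_single, Divisor.degree_single,
      Divisor.degree_single, hdeg, hdeg]

include hdeg in
theorem degree_pullDiv (D : Divisor k F) :
    Divisor.degree (h.pullDiv D) = l * Divisor.degree D := by
  induction D using Finsupp.induction with
  | zero => simp
  | single_add w n D _ _ ih =>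
    rw [map_add, map_add, map_add, ih, pullDiv_single, Divisor.degree_single,
      Divisor.degree_single, hdeg, hdeg, mul_add]
    ring

theorem isPrincipal_pullDiv {D : Divisor k F} (hD : D.IsPrincipal) :
    (h.pullDiv D).IsPrincipal := by
  obtain ⟨f, hf, hDf⟩ := hD
  refine ⟨φ f, (map_ne_zero φ).mpr hf, fun w => ?_⟩
  rw [pullDiv_apply, hDf, h.ord_map]

theorem isPrincipal_pushDiv {D : Divisor k F} (hD : D.IsPrincipal) :
    (h.pushDiv D).IsPrincipal := by
  obtain ⟨f, hf, hDf⟩ := hD
  refine ⟨h.rootHom f, h.rootHom_ne_zero hf, fun v => ?_⟩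
  rw [pushDiv_apply, hDf]
  have := h.ord_frobPlace_rootHom (h.frobPlaceInv v) f
  rw [frobPlace_frobPlaceInv] at this
  exact this.symm

/-! ### comparison with the Prelude's push-forward / pull-back along `φ` -/

include hdeg in
theorem pushforwardAlong_eq :
    Divisor.pushforwardAlong φ (h.isIntegral (ne_zero_of_expChar F l)) = h.pushDiv := by
  apply Finsupp.addHom_ext
  intro w n
  rw [Divisor.pushforwardAlong_single, h.inertiaDegAlong_eq_one hdeg, pushDiv_single]
  simp
  rfl

theorem pullbackAlong_eq [HasPrincipalDivisors k F] :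
    Divisor.pullbackAlong φ (h.isIntegral (ne_zero_of_expChar F l)) = h.pullDiv := by
  refine DFunLike.ext _ _ fun D => Finsupp.ext fun w => ?_
  rw [Divisor.pullbackAlong_apply, h.ramificationIndexAlong_eq, pullDiv_apply]
  rfl

/-! ### `Pic0` -/

/-- `Fr_*` on degree-zero divisors. -/
def pushDegZero :
    Divisor.degZero (K := k) (F := F) →+ Divisor.degZero (K := k) (F := F) :=
  (h.pushDiv.domRestrict (Divisor.degZero (K := k) (F := F))).codRestrict _ fun D => by
    rw [Divisor.mem_degZero]
    show Divisor.degree (h.pushDiv (D : Divisor k F)) = 0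
    rw [h.degree_pushDiv hdeg]
    exact D.2

/-- `Fr^*` on degree-zero divisors. -/
def pullDegZero :
    Divisor.degZero (K := k) (F := F) →+ Divisor.degZero (K := k) (F := F) :=
  (h.pullDiv.domRestrict (Divisor.degZero (K := k) (F := F))).codRestrict _ fun D => by
    rw [Divisor.mem_degZero]
    show Divisor.degree (h.pullDiv (D : Divisor k F)) = 0
    rw [h.degree_pullDiv hdeg, Divisor.mem_degZero.mp D.2, mul_zero]

@[simp] theorem coe_pushDegZero (D : Divisor.degZero (K := k) (F := F)) :
    (h.pushDegZero hdeg D : Divisor k F) = h.pushDiv (D : Divisor k F) := rfl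

@[simp] theorem coe_pullDegZero (D : Divisor.degZero (K := k) (F := F)) :
    (h.pullDegZero hdeg D : Divisor k F) = h.pullDiv (D : Divisor k F) := rfl

/-- **`Fr_*` on `Pic0`.** -/
def frobPush : Pic0 k F →+ Pic0 k F :=
  QuotientAddGroup.map _ _ (h.pushDegZero hdeg) (by
    rintro ⟨D, hD0⟩ hD
    simp only [AddSubgroup.mem_addSubgroupOf] at hD ⊢
    exact h.isPrincipal_pushDiv hD)

/-- **`Fr^*` on `Pic0`.** -/
def frobPull : Pic0 k F →+ Pic0 k F :=
  QuotientAddGroup.map _ _ (h.pullDegZero hdeg) (by
    rintro ⟨D, hD0⟩ hD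
    simp only [AddSubgroup.mem_addSubgroupOf] at hD ⊢
    exact h.isPrincipal_pullDiv hD)

theorem frobPush_mk (D : Divisor.degZero (K := k) (F := F)) :
    h.frobPush hdeg (Pic0.mk D) = Pic0.mk (h.pushDegZero hdeg D) := rfl

theorem frobPull_mk (D : Divisor.degZero (K := k) (F := F)) :
    h.frobPull hdeg (Pic0.mk D) = Pic0.mk (h.pullDegZero hdeg D) := rfl

/-- **(K3)** `Fr_* Fr^* = l` on `Pic0`. -/
theorem frobPush_frobPull (x : Pic0 k F) : h.frobPush hdeg (h.frobPull hdeg x) = (l : ℤ) • x := by
  obtain ⟨D, rfl⟩ := Pic0.mk_surjective x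
  rw [frobPull_mk, frobPush_mk, ← mk_zsmul]
  refine congrArg Pic0.mk (Subtype.ext ?_)
  rw [coe_pushDegZero, coe_pullDegZero, pushDiv_pullDiv]
  rfl

/-- **(K3)** `Fr^* Fr_* = l` on `Pic0`. -/
theorem frobPull_frobPush (x : Pic0 k F) : h.frobPull hdeg (h.frobPush hdeg x) = (l : ℤ) • x := by
  obtain ⟨D, rfl⟩ := Pic0.mk_surjective x
  rw [frobPush_mk, frobPull_mk, ← mk_zsmul]
  refine congrArg Pic0.mk (Subtype.ext ?_)
  rw [coe_pullDegZero, coe_pushDegZero, pullDiv_pushDiv]
  rfl

end IsRelFrob

end Fermat.Agent.ES.KRON.FrobPic13
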