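/-
Program I (S37), chapter ES/KRON, helper10: (b) of the KRON glue — the coefficients of the Hecke
characteristic polynomial `Ψ_f = charpolyAlong β α f` (`f ∈ ℚ̄·F_N` with `A`-integral `q`-expansion) have
`A`-integral `q`-expansions and reduce modulo `𝔪_A` to the coefficients of
`(Y^ℓ - f̃^φ) (Y - (f̃^ψ)^ℓ)` (`φ` = Frobenius, `ψ = φ⁻¹` on the residue field `k` of `A`).

= `Conjugates11.charpolyAlong_map_of_val'` (helper11, (H4)) + `KronInst10.kron_inst`; the same for the
`α`-orientation `charpolyAlong α β f` (`ConjAlpha24`, helper24), and for the norm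
`N f = normAlong α (β f)` (the function with `div (N f) = T_ℓ (div f)`):
`N f` has an `A`-integral `q`-expansion reducing to `f̃^φ · (f̃^ψ)^ℓ`  (`normAlong_integral`).
-/
import Mathlib
import Fermat.Agent.ES.KRON.Conjugates11
import Fermat.Agent.ES.KRON.KronInst10
import Fermat.Agent.ES.KRON.KronNorm10
import Fermat.Agent.ES.KRON.ConjAlpha24

set_option autoImplicit false
set_option linter.style.haveILetI false

open HahnSeries Polynomial ModularCurve AlgebraicCurve

noncomputable section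

namespace Fermat.Agent.ES.KRON.KronCoeff10

open Fermat.Agent.ES.KRON.KronCong24 Fermat.Agent.ES.KRON.KronInst10
open Fermat.Agent.ES.KRON.Conjugates11 Fermat.Agent.ES.KRON.KronNorm10
open Fermat.Agent.ES.KRON.ConjAlpha24 Fermat.Agent.ES.HECKE.PointFormula28
open Fermat.Agent.X0 (Kbar FF)

variable (N ℓ : ℕ) [NeZero N] [Fact ℓ.Prime]

/-- **Coefficients of `Ψ_f` are `A`-integral and reduce à la Kronecker.** -/
theorem charpolyAlong_integral (hℓN : ¬ ℓ ∣ N) (A : ValuationSubring Kbar)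
    (hA : A.LiesOverPrime ℓ) :
    haveI := charP_residueField A (Fact.out : ℓ.Prime) hA
    haveI : NeZero ℓ := ⟨(Fact.out : ℓ.Prime).ne_zero⟩
    ∃ ψ : IsLocalRing.ResidueField A →+* IsLocalRing.ResidueField A,
      (∀ a, ψ a ^ ℓ = a) ∧ (∀ a, ψ (a ^ ℓ) = a) ∧
      ∀ (val : FF N →+* LaurentSeries Kbar) (_ : ∀ x : FF N, val x = (x : LaurentSeries Kbar))
        (hfin : FiniteAlong Kbar (heckeBetaBar Kbar N ℓ))
        (f : FF N) (y : LaurentSeries ↥A),
        coeffMap A.subtype y = (f : LaurentSeries Kbar) →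
        ∃ ΨR : Polynomial (LaurentSeries ↥A),
          ΨR.map (coeffMap A.subtype) =
            (charpolyAlong (heckeBetaBar Kbar N ℓ) (heckeAlphaBar Kbar N ℓ) hfin f).map val ∧
          ΨR.map (coeffMap (IsLocalRing.residue A)) =
            (X ^ ℓ - Polynomial.C (coeffMap (frobenius (IsLocalRing.ResidueField A) ℓ)
                (coeffMap (IsLocalRing.residue A) y))) *
              (X - Polynomial.C ((coeffMap ψ (coeffMap (IsLocalRing.residue A) y)) ^ ℓ)) := by
  haveI := charP_residueField A (Fact.out : ℓ.Prime) hA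
  haveI : NeZero ℓ := ⟨(Fact.out : ℓ.Prime).ne_zero⟩
  obtain ⟨ζ, hζ1, hζp⟩ := exists_primitiveRoot_unit (L := Kbar) ℓ
  obtain ⟨ψ, hψ1, hψ2, hmain⟩ := kron_inst A ℓ hA ζ hζ1
  refine ⟨ψ, hψ1, hψ2, fun val hval hfin f y hy => ?_⟩
  have hΨ := charpolyAlong_map_of_val' N ℓ (Fact.out : ℓ.Prime) hℓN ζ hζp val hval hfin f
  rw [← hy] at hΨ
  exact hmain y _ hΨ

/-- The same for the `α`-orientation (`Ψ = charpoly of β f over α(F̄_N)`, matching
`T_ℓ = α_* β^*`). -/
theorem charpolyAlong_alpha_integral (hℓN : ¬ ℓ ∣ N) (A : ValuationSubring Kbar)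
    (hA : A.LiesOverPrime ℓ) :
    haveI := charP_residueField A (Fact.out : ℓ.Prime) hA
    haveI : NeZero ℓ := ⟨(Fact.out : ℓ.Prime).ne_zero⟩
    ∃ ψ : IsLocalRing.ResidueField A →+* IsLocalRing.ResidueField A,
      (∀ a, ψ a ^ ℓ = a) ∧ (∀ a, ψ (a ^ ℓ) = a) ∧
      ∀ (val : FF N →+* LaurentSeries Kbar) (_ : ∀ x : FF N, val x = (x : LaurentSeries Kbar))
        (hfin : FiniteAlong Kbar (heckeAlphaBar Kbar N ℓ))
        (f : FF N) (y : LaurentSeries ↥A),
        coeffMap A.subtype y = (f : LaurentSeries Kbar) →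
        ∃ ΨR : Polynomial (LaurentSeries ↥A),
          ΨR.map (coeffMap A.subtype) =
            (charpolyAlong (heckeAlphaBar Kbar N ℓ) (heckeBetaBar Kbar N ℓ) hfin f).map val ∧
          ΨR.map (coeffMap (IsLocalRing.residue A)) =
            (X ^ ℓ - Polynomial.C (coeffMap (frobenius (IsLocalRing.ResidueField A) ℓ)
                (coeffMap (IsLocalRing.residue A) y))) *
              (X - Polynomial.C ((coeffMap ψ (coeffMap (IsLocalRing.residue A) y)) ^ ℓ)) := by
  haveI := charP_residueField A (Fact.out : ℓ.Prime) hA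
  haveI : NeZero ℓ := ⟨(Fact.out : ℓ.Prime).ne_zero⟩
  obtain ⟨ζ, hζ1, hζp⟩ := exists_primitiveRoot_unit (L := Kbar) ℓ
  obtain ⟨ψ, hψ1, hψ2, hmain⟩ := kron_inst A ℓ hA ζ hζ1
  refine ⟨ψ, hψ1, hψ2, fun val hval hfin f y hy => ?_⟩
  have hΨ := charpolyAlong_alpha_map_of_val N ℓ (Fact.out : ℓ.Prime) hℓN ζ
    (IsPrimitiveRoot.coe_units_iff.mp hζp) val hval hfin f
  rw [← hy] at hΨ
  exact hmain y _ hΨ

/-- **The norm `N f = normAlong α (β f)`** (`div (N f) = T_ℓ (div f)`) of an `A`-integral `f` is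
`A`-integral and reduces to `f̃^φ · (f̃^ψ)^ℓ`. -/
theorem normAlong_integral (hℓN : ¬ ℓ ∣ N) (A : ValuationSubring Kbar)
    (hA : A.LiesOverPrime ℓ) :
    haveI := charP_residueField A (Fact.out : ℓ.Prime) hA
    haveI : NeZero ℓ := ⟨(Fact.out : ℓ.Prime).ne_zero⟩
    ∃ ψ : IsLocalRing.ResidueField A →+* IsLocalRing.ResidueField A,
      (∀ a, ψ a ^ ℓ = a) ∧ (∀ a, ψ (a ^ ℓ) = a) ∧
      ∀ (f : FF N) (y : LaurentSeries ↥A),
        coeffMap A.subtype y = (f : LaurentSeries Kbar) →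
        ∃ NR : LaurentSeries ↥A,
          coeffMap A.subtype NR =
            ((normAlong (heckeAlphaBar Kbar N ℓ) (heckeBetaBar Kbar N ℓ f) : FF N) :
              LaurentSeries Kbar) ∧
          coeffMap (IsLocalRing.residue A) NR =
            coeffMap (frobenius (IsLocalRing.ResidueField A) ℓ)
                (coeffMap (IsLocalRing.residue A) y) *
              (coeffMap ψ (coeffMap (IsLocalRing.residue A) y)) ^ ℓ := by
  haveI := charP_residueField A (Fact.out : ℓ.Prime) hA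
  haveI : NeZero ℓ := ⟨(Fact.out : ℓ.Prime).ne_zero⟩
  obtain ⟨ζ, hζ1, hζp⟩ := exists_primitiveRoot_unit (L := Kbar) ℓ
  obtain ⟨ψ, hψ1, hψ2, hmain⟩ := norm_inst A ℓ hA ζ hζ1
  refine ⟨ψ, hψ1, hψ2, fun f y hy => ?_⟩
  have hN := qExpand_normAlong_alpha N ℓ (Fact.out : ℓ.Prime) hℓN ζ
    (IsPrimitiveRoot.coe_units_iff.mp hζp) f
  rw [← hy] at hN
  exact hmain y _ hN

end Fermat.Agent.ES.KRON.KronCoeff10
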