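/-
Program I (S37), chapter ES/KRON, helper24: (K2)-abstract.  From "values" to divisors.

`X` is a set of points (places of the reduced function field), test functions `f` take values
`ev f x ∈ k`.  If two effective divisors `D₁ D₂` on `X` have, for every test function, the same
"value polynomial" `∏ (Y - f(x))^{D x}`, and test functions separate finite sets of points, then
`D₁ = D₂`.  Specialisation `kronecker_divisor`: if for every test function
`∏_w (Y - f(x_w))^{e_w} = (Y - f(y))^l * (Y - f(z))`, then `∑_w e_w [x_w] = l [y] + [z]`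
(the shape of `r_*(T_l [P]) = l [Fr⁻¹ (r P)] + [Fr (r P)]`).

Also: the reduction step producing such polynomial identities from an identity over a ring `A`
with a residue map `res : A → k` in characteristic `l`  (`valuePoly_reduce`).
-/
import Mathlib

set_option autoImplicit false

open Polynomial

noncomputable section

namespace Fermat.Agent.ES.KRON.KronDiv24

section Values

variable {X 𝓑 k : Type*} [Field k] [DecidableEq X]

/-- The value polynomial `∏_x (Y - f(x))^{D x}` of an effective divisor. -/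
def valuePoly (ev : 𝓑 → X → k) (f : 𝓑) (D : X →₀ ℕ) : k[X] :=
  ∏ x ∈ D.support, (Polynomial.X - Polynomial.C (ev f x)) ^ (D x)

theorem valuePoly_ne_zero (ev : 𝓑 → X → k) (f : 𝓑) (D : X →₀ ℕ) : valuePoly ev f D ≠ 0 :=
  Finset.prod_ne_zero_iff.mpr fun x _ => pow_ne_zero _ (X_sub_C_ne_zero _)

/-- Root multiplicity of `f(x₀)` in the value polynomial, when `f` is injective on `S ⊇ supp D`. -/
theorem rootMultiplicity_valuePoly (ev : 𝓑 → X → k) (f : 𝓑) (D : X →₀ ℕ) (S : Finset X)
    (hS : D.support ⊆ S) (hf : Set.InjOn (ev f) (S : Set X)) (x₀ : X) (hx₀ : x₀ ∈ S) :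
    (valuePoly ev f D).rootMultiplicity (ev f x₀) = D x₀ := by
  classical
  rw [← Polynomial.count_roots, valuePoly, Polynomial.roots_prod _ _ (valuePoly_ne_zero ev f D),
    Multiset.count_bind]
  simp only [Polynomial.roots_pow, Polynomial.roots_X_sub_C, Multiset.count_nsmul,
    Multiset.count_singleton]
  rw [← Finset.sum_eq_multiset_sum, Finset.sum_eq_single x₀]
  · simp
  · intro x hx hne
    rw [if_neg, mul_zero]
    intro h
    exact hne (hf (hS hx) hx₀ h.symm)
  · intro hx
    rw [Finsupp.notMem_support_iff.mp hx, zero_mul]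

/-- **Values determine effective divisors.** -/
theorem eq_of_valuePoly_eq (ev : 𝓑 → X → k)
    (hsep : ∀ S : Finset X, ∃ f : 𝓑, Set.InjOn (ev f) (S : Set X))
    (D₁ D₂ : X →₀ ℕ) (h : ∀ f, valuePoly ev f D₁ = valuePoly ev f D₂) : D₁ = D₂ := by
  classical
  obtain ⟨f, hf⟩ := hsep (D₁.support ∪ D₂.support)
  ext x₀
  by_cases hx : x₀ ∈ D₁.support ∪ D₂.support
  · rw [← rootMultiplicity_valuePoly ev f D₁ _ Finset.subset_union_left hf x₀ hx,
      ← rootMultiplicity_valuePoly ev f D₂ _ Finset.subset_union_right hf x₀ hx, h f]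
  · rw [Finset.mem_union, not_or] at hx
    rw [Finsupp.notMem_support_iff.mp hx.1, Finsupp.notMem_support_iff.mp hx.2]

theorem valuePoly_eq_prod (ev : 𝓑 → X → k) (f : 𝓑) (D : X →₀ ℕ) :
    valuePoly ev f D = D.prod fun x n => (Polynomial.X - Polynomial.C (ev f x)) ^ n := rfl

theorem valuePoly_add (ev : 𝓑 → X → k) (f : 𝓑) (D D' : X →₀ ℕ) :
    valuePoly ev f (D + D') = valuePoly ev f D * valuePoly ev f D' := by
  rw [valuePoly_eq_prod, valuePoly_eq_prod, valuePoly_eq_prod]
  exact Finsupp.prod_add_index' (fun _ => pow_zero _) fun _ _ _ => pow_add _ _ _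

theorem valuePoly_single (ev : 𝓑 → X → k) (f : 𝓑) (x : X) (n : ℕ) :
    valuePoly ev f (Finsupp.single x n) = (Polynomial.X - Polynomial.C (ev f x)) ^ n := by
  rw [valuePoly_eq_prod]
  exact Finsupp.prod_single_index (pow_zero _)

theorem valuePoly_sum {W : Type*} (ev : 𝓑 → X → k) (f : 𝓑) (s : Finset W) (g : W → X →₀ ℕ) :
    valuePoly ev f (∑ w ∈ s, g w) = ∏ w ∈ s, valuePoly ev f (g w) := by
  classical
  induction s using Finset.induction_on with
  | empty => simp [valuePoly]
  | insert a s ha ih => rw [Finset.sum_insert ha, Finset.prod_insert ha, valuePoly_add, ih]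

/-- **(K2)-abstract**: if for every test function
`∏_w (Y - f(x_w))^{e_w} = (Y - f(y))^l * (Y - f(z))`, and test functions separate finite sets of
points, then `∑_w e_w [x_w] = l [y] + [z]` (effective divisors, coefficients in `ℕ`). -/
theorem kronecker_divisor_nat (ev : 𝓑 → X → k)
    (hsep : ∀ S : Finset X, ∃ f : 𝓑, Set.InjOn (ev f) (S : Set X))
    {W : Type*} [Fintype W] (e : W → ℕ) (xw : W → X) (y z : X) (l : ℕ)
    (h : ∀ f : 𝓑, ∏ w, (Polynomial.X - Polynomial.C (ev f (xw w))) ^ (e w)
      = (Polynomial.X - Polynomial.C (ev f y)) ^ l * (Polynomial.X - Polynomial.C (ev f z))) :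
    (∑ w, Finsupp.single (xw w) (e w)) = Finsupp.single y l + Finsupp.single z 1 := by
  apply eq_of_valuePoly_eq ev hsep
  intro f
  rw [valuePoly_sum, valuePoly_add, valuePoly_single, valuePoly_single, pow_one, ← h f]
  exact Finset.prod_congr rfl fun w _ => valuePoly_single ev f _ _

/-- The same with integer coefficients (divisors). -/
theorem kronecker_divisor (ev : 𝓑 → X → k)
    (hsep : ∀ S : Finset X, ∃ f : 𝓑, Set.InjOn (ev f) (S : Set X))
    {W : Type*} [Fintype W] (e : W → ℕ) (xw : W → X) (y z : X) (l : ℕ)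
    (h : ∀ f : 𝓑, ∏ w, (Polynomial.X - Polynomial.C (ev f (xw w))) ^ (e w)
      = (Polynomial.X - Polynomial.C (ev f y)) ^ l * (Polynomial.X - Polynomial.C (ev f z))) :
    (∑ w, Finsupp.single (xw w) ((e w : ℕ) : ℤ)) =
      Finsupp.single y (l : ℤ) + Finsupp.single z (1 : ℤ) := by
  have h0 := kronecker_divisor_nat ev hsep e xw y z l h
  have h1 := congrArg (Finsupp.mapRange.addMonoidHom (Nat.castAddMonoidHom ℤ) :
      (X →₀ ℕ) →+ (X →₀ ℤ)) h0
  rw [map_sum, map_add] at h1
  simp only [Finsupp.mapRange.addMonoidHom_apply, Finsupp.mapRange_single,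
    Nat.coe_castAddMonoidHom, Nat.cast_one] at h1
  exact h1

end Values

/-! ### Reduction of the value polynomial -/

section Reduce

variable {A k : Type*} [CommRing A] [Field k] (l : ℕ) [Fact l.Prime] [CharP k l]

/-- In characteristic `l`: `Y^l - a^l = (Y - a)^l` in `k[Y]`. -/
theorem X_pow_sub_C_pow (a : k) :
    (Polynomial.X ^ l - Polynomial.C (a ^ l) : k[X]) = (Polynomial.X - Polynomial.C a) ^ l := by
  rw [sub_pow_char, Polynomial.C_pow]

/-- **Reduction step**: an identity `χ = ∏_w (Y - v_w)^{e_w}` over `A` whose reduction is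
`(Y^l - a^l) * (Y - b)` gives `∏_w (Y - res v_w)^{e_w} = (Y - a)^l * (Y - b)` over `k`. -/
theorem valuePoly_reduce (res : A →+* k) {W : Type*} [Fintype W] (e : W → ℕ) (vals : W → A)
    (a b : k) (χ : A[X])
    (hχ : χ = ∏ w, (Polynomial.X - Polynomial.C (vals w)) ^ (e w))
    (hred : χ.map res = (Polynomial.X ^ l - Polynomial.C (a ^ l)) * (Polynomial.X - Polynomial.C b)) :
    ∏ w, (Polynomial.X - Polynomial.C (res (vals w))) ^ (e w)
      = (Polynomial.X - Polynomial.C a) ^ l * (Polynomial.X - Polynomial.C b) := by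
  rw [← X_pow_sub_C_pow, ← hred, hχ, Polynomial.map_prod]
  refine Finset.prod_congr rfl fun w _ => ?_
  rw [Polynomial.map_pow, Polynomial.map_sub, Polynomial.map_X, Polynomial.map_C]

/-- Variant: the identity over `A` is only known after an injective extension `ι : A → K`. -/
theorem valuePoly_reduce' {K : Type*} [CommRing K] (ι : A →+* K) (hι : Function.Injective ι)
    (res : A →+* k) {W : Type*} [Fintype W] (e : W → ℕ) (vals : W → A)
    (a b : k) (χ : A[X])
    (hχ : χ.map ι = ∏ w, (Polynomial.X - Polynomial.C (ι (vals w))) ^ (e w))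
    (hred : χ.map res = (Polynomial.X ^ l - Polynomial.C (a ^ l)) * (Polynomial.X - Polynomial.C b)) :
    ∏ w, (Polynomial.X - Polynomial.C (res (vals w))) ^ (e w)
      = (Polynomial.X - Polynomial.C a) ^ l * (Polynomial.X - Polynomial.C b) := by
  refine valuePoly_reduce l res e vals a b χ ?_ hred
  apply Polynomial.map_injective ι hι
  rw [hχ, Polynomial.map_prod]
  refine Finset.prod_congr rfl fun w _ => ?_
  rw [Polynomial.map_pow, Polynomial.map_sub, Polynomial.map_X, Polynomial.map_C]

end Reduce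

end Fermat.Agent.ES.KRON.KronDiv24
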